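import Fermat.Prelude.Def_ModularForm_EisensteinChiNegThree
import Mathlib.NumberTheory.ModularForms.CongruenceSubgroups

/-!
# The character `χ₋₃` on integers
-/

set_option autoImplicit false

namespace Fermat.Agent.Classic

open EisensteinWeightOne CongruenceSubgroup
open scoped MatrixGroups

/-- the quadratic character mod `3`. -/
def chi3 (d : ℤ) : ℤ := if d % 3 = 1 then 1 else if d % 3 = 2 then -1 else 0

theorem chi3_natCast (n : ℕ) : chi3 n = chiNegThree n := by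
  unfold chi3 chiNegThree
  split_ifs <;> omega

theorem chi3_congr {d d' : ℤ} (h : (3 : ℤ) ∣ d - d') : chi3 d = chi3 d' := by
  have h1 : d % 3 = d' % 3 := by omega
  rw [chi3, chi3, h1]

theorem chi3_mod (d : ℤ) : chi3 (d % 3) = chi3 d := chi3_congr (by omega)

theorem chi3_mul (a b : ℤ) : chi3 (a * b) = chi3 a * chi3 b := by
  rw [← chi3_mod (a * b), ← chi3_mod a, ← chi3_mod b, Int.mul_emod]
  have ha : a % 3 = 0 ∨ a % 3 = 1 ∨ a % 3 = 2 := by omega
  have hb : b % 3 = 0 ∨ b % 3 = 1 ∨ b % 3 = 2 := by omega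
  rcases ha with h | h | h <;> rcases hb with h' | h' | h' <;> rw [h, h'] <;> decide

theorem chi3_eq_zero_iff {d : ℤ} : chi3 d = 0 ↔ (3 : ℤ) ∣ d := by
  unfold chi3
  constructor
  · intro h
    split_ifs at h <;> omega
  · intro h
    rw [if_neg (by omega), if_neg (by omega)]

theorem chi3_mul_self {d : ℤ} (h : ¬ (3 : ℤ) ∣ d) : chi3 d * chi3 d = 1 := by
  unfold chi3
  split_ifs <;> omega

theorem chi3_one : chi3 1 = 1 := by decide

theorem chi3_neg_one : chi3 (-1) = -1 := by decide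

/-- the lower right entry of an element of `Γ₀(N)`, `3 ∣ N`, is prime to `3`. -/
theorem not_three_dvd_of_mem {g : SL(2, ℤ)} (hg : (3 : ℤ) ∣ g 1 0) : ¬ (3 : ℤ) ∣ g 1 1 := by
  intro h
  have h1 := g.det_coe
  rw [Matrix.det_fin_two] at h1
  have h2 : (3 : ℤ) ∣ 1 := by
    rw [← h1]
    exact dvd_sub (h.mul_left _) (hg.mul_left _)
  omega

theorem three_dvd_of_mem_Gamma0 {N : ℕ} (hN : 3 ∣ N) {g : SL(2, ℤ)} (hg : g ∈ Gamma0 N) :
    (3 : ℤ) ∣ g 1 0 := by
  have h1 : ((g 1 0 : ℤ) : ZMod N) = 0 := Gamma0_mem.mp hg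
  rw [ZMod.intCast_zmod_eq_zero_iff_dvd] at h1
  exact (by exact_mod_cast hN : (3 : ℤ) ∣ (N : ℤ)).trans h1

/-- `χ(d)² = 1` on `Γ₀(N)`, `3 ∣ N`. -/
theorem chi3_mul_self_of_mem {N : ℕ} (hN : 3 ∣ N) {g : SL(2, ℤ)} (hg : g ∈ Gamma0 N) :
    ((chi3 (g 1 1) : ℤ) : ℂ) * ((chi3 (g 1 1) : ℤ) : ℂ) = 1 := by
  have h1 := chi3_mul_self (not_three_dvd_of_mem (three_dvd_of_mem_Gamma0 hN hg))
  exact_mod_cast h1

end Fermat.Agent.Classic
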