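import Fermat.Agent.LT.Psi.Main
import Fermat.Agent.LT.Quad.Triv

/-!
# Descent of a ray character of order four along a quadratic extension

`L / K` quadratic, `ε` a ray character of `L` with values in `ZMod 4`, invariant under
`Gal(L/K)`: there is a ray character `ψ` of `K` with values in `ZMod 8` such that
`ψ ∘ N = 2 ε`.
-/

set_option autoImplicit false
set_option linter.unusedSectionVars false

namespace Fermat.Agent.Classic

open IsDedekindDomain NumberField WithZero
open Fermat.Agent.LT Fermat.Agent.LT.Psi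
open Fermat.Agent.CFT.SUnits (ord ord_one ord_mul ord_inv ord_pow ord_div ord_eq_zero_iff
  valuation_eq_exp_neg_ord finite_ord_ne_zero div div_apply)
open Fermat.Agent.CFT.Places
open Fermat.Agent.CFT.Global hiding Inputs p_dvd_index exists_notMem_locPow exists_place powE mem_powE index_powE index_zpowers_sup_powE second hasse_norm FirstInequality exists_eq_nsmul_add exists_ne_symVec
open Fermat.Agent.CFT.Global2

lemma exists_toAddCircle_eq_of_nsmul {m : ℕ} [NeZero m] {u : UnitAddCircle} (h : m • u = 0) :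
    ∃ k : ZMod m, ZMod.toAddCircle k = u := by
  obtain ⟨x, rfl⟩ := QuotientAddGroup.mk_surjective u
  have h1 : ((m • x : ℝ) : UnitAddCircle) = 0 := h
  rw [AddCircle.coe_eq_zero_iff] at h1
  obtain ⟨n, hn⟩ := h1
  refine ⟨(n : ZMod m), ?_⟩
  rw [ZMod.toAddCircle_intCast]
  congr 1
  rw [zsmul_eq_mul, mul_one, nsmul_eq_mul] at hn
  have hm : (m : ℝ) ≠ 0 := by exact_mod_cast NeZero.ne m
  rw [hn]
  field_simp

/-- Extension of characters with values in `ZMod (2 m)`, additive version. -/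
theorem exists_extend_add {P G : Type*} [AddCommGroup P] [AddCommGroup G] (m : ℕ) [NeZero m]
    (f : P →+ G) (g : P →+ ZMod (m * 2)) (hfg : ∀ p, f p = 0 → g p = 0)
    (hG : ∀ x : G, ∃ p, f p = (2 : ℕ) • x ∧ m • g p = 0) :
    ∃ χ : G →+ ZMod (m * 2), ∀ p, χ (f p) = g p := by
  have : NeZero (m * 2) := ⟨mul_ne_zero (NeZero.ne m) two_ne_zero⟩
  let j : ZMod (m * 2) →+ UnitAddCircle := ZMod.toAddCircle
  let g₁ : P ⧸ f.ker →+ UnitAddCircle := QuotientAddGroup.lift f.ker (j.comp g) (by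
    intro p hp
    change j (g p) = 0
    rw [hfg p hp, map_zero])
  let f₁ : P ⧸ f.ker →+ G := QuotientAddGroup.kerLift f
  obtain ⟨h, hh⟩ := (Module.Baer.of_divisible UnitAddCircle).extension_property_addMonoidHom
    f₁ (QuotientAddGroup.kerLift_injective f) g₁
  have hh' : ∀ p, h (f p) = j (g p) := fun p => DFunLike.congr_fun hh (QuotientAddGroup.mk p)
  have h4 : ∀ x, (m * 2) • h x = 0 := by
    intro x
    obtain ⟨p, hp, hp2⟩ := hG x
    rw [mul_smul, ← map_nsmul h 2 x, ← hp, hh', ← map_nsmul, hp2, map_zero]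
  choose k hk using fun x => exists_toAddCircle_eq_of_nsmul (h4 x)
  have hinj : Function.Injective (ZMod.toAddCircle : ZMod (m * 2) → UnitAddCircle) :=
    ZMod.toAddCircle_injective (m * 2)
  refine ⟨⟨⟨k, ?_⟩, ?_⟩, ?_⟩
  · apply hinj
    rw [hk, map_zero, map_zero]
  · intro x y
    apply hinj
    rw [map_add, hk, hk, hk, map_add]
  · intro p
    apply hinj
    exact (hk _).trans (hh' p)

/-- multiplicative version -/
theorem exists_extend {P G : Type*} [CommGroup P] [CommGroup G] (m : ℕ) [NeZero m] (f : P →* G)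
    (g : P →* Multiplicative (ZMod (m * 2))) (hfg : ∀ p, f p = 1 → g p = 1)
    (hG : ∀ x : G, ∃ p, f p = x ^ 2 ∧ g p ^ m = 1) :
    ∃ χ : G →* Multiplicative (ZMod (m * 2)), ∀ p, χ (f p) = g p := by
  obtain ⟨χ, hχ⟩ := exists_extend_add m (MonoidHom.toAdditive f)
    (MonoidHom.toAdditiveLeft g) (fun p hp => hfg p.toMul hp) (fun x => by
      obtain ⟨p, hp, hp2⟩ := hG x.toMul
      exact ⟨Additive.ofMul p, hp, hp2⟩)
  exact ⟨AddMonoidHom.toMultiplicativeRight χ, fun p => hχ (Additive.ofMul p)⟩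

/-- the doubling map `ZMod 4 → ZMod 8` -/
def dbl8 : ZMod 4 →+ ZMod 8 where
  toFun x := 2 * (x.val : ZMod 8)
  map_zero' := rfl
  map_add' := by decide

lemma dbl8_injective : Function.Injective dbl8 := by
  intro x y
  revert x y
  decide

lemma four_nsmul_dbl8 (x : ZMod 4) : (4 : ℕ) • dbl8 x = 0 := by
  revert x
  decide

@[simp] lemma dbl8_zero : dbl8 0 = 0 := rfl
@[simp] lemma dbl8_two : dbl8 2 = 4 := rfl

section Main

variable {K : Type} {L : Type*} [Field K] [NumberField K] [IsTotallyComplex K] [Field L]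
  [NumberField L] [Algebra K L] [IsGalois K L] (h2 : Module.finrank K L = 2)
  {σ : L ≃ₐ[K] L} (hσ : σ ≠ 1) {S : Finset (HeightOneSpectrum (𝓞 K))} (hS : AboveP 2 S)
  (hClL : ClTrivial (above L S)) {α : L} {a : Kˣ} (hα : α ^ 2 = algebraMap K L a)
  (hna : ∀ b : Kˣ, b ^ 2 ≠ a) (ha : a ∈ E S) (h90 : SemiLoc90 σ S)

include h2 hσ hS hClL hα hna ha h90 in
/-- **Descent along the norm**, order four to order eight. -/
theorem exists_descent8 (hCl : ClTrivial S) {ε : HeightOneSpectrum (𝓞 L) → ZMod 4}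
    {n : ℕ} (hε : IsRay (above L S) n ε) (hεσ : ∀ w ∉ above L S, ε (conj σ w) = ε w) :
    ∃ (m : ℕ) (ψ : HeightOneSpectrum (𝓞 K) → ZMod 8), IsRay S m ψ ∧
      ∀ y : Lˣ, (rayVal S ψ (normU L y)).toAdd = dbl8 (rayVal (above L S) ε y).toAdd := by
  classical
  obtain ⟨m, hm⟩ := rayVal_eq_one_of_norm h2 hσ hS hClL hα hna ha h90 hε hεσ
  let V : Subgroup Kˣ := ⨅ v ∈ S, cong v m
  have hV : ∀ x : Kˣ, x ∈ V ↔ ∀ v ∈ S, x ∈ cong v m := by
    intro x
    simp only [V, Subgroup.mem_iInf]
  let H : Subgroup Kˣ := E S ⊔ V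
  let g : Lˣ →* Multiplicative (ZMod (4 * 2)) :=
    (AddMonoidHom.toMultiplicative dbl8).comp (rayVal (above L S) ε)
  have hg : ∀ y, (g y).toAdd = dbl8 (rayVal (above L S) ε y).toAdd := fun y => rfl
  let f : Lˣ →* Kˣ ⧸ H := (QuotientGroup.mk' H).comp (normU L)
  have hf : ∀ y, f y = QuotientGroup.mk' H (normU L y) := fun y => rfl
  obtain ⟨χ, hχ⟩ := exists_extend (P := Lˣ) (G := Kˣ ⧸ H) 4 f g
    (by
      intro y hy
      have h1 : normU L y ∈ H := by
        rw [hf, QuotientGroup.mk'_apply, QuotientGroup.eq_one_iff] at hy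
        exact hy
      obtain ⟨u, hu, x, hx, hux⟩ := Subgroup.mem_sup.mp h1
      have h3 : rayVal (above L S) ε y = 1 := by
        refine hm y u⁻¹ (inv_mem hu) fun v hv => ?_
        have h4 : normU L y * u⁻¹ = x := by
          rw [← hux, mul_comm u x, mul_inv_cancel_right]
        rw [h4]
        exact (hV x).mp hx v hv
      apply toAdd_eq_zero.mp
      rw [hg, h3, toAdd_one, map_zero])
    (by
      intro x
      obtain ⟨x, rfl⟩ := QuotientGroup.mk'_surjective H x
      refine ⟨up L x, ?_, ?_⟩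
      · rw [hf, normU_up h2, map_pow]
      · apply toAdd_eq_zero.mp
        rw [toAdd_pow, hg]
        exact four_nsmul_dbl8 _)
  obtain ⟨ψ, hψ⟩ := exists_eq_rayVal hCl (χ.comp (QuotientGroup.mk' H)) (by
    intro u hu
    rw [MonoidHom.comp_apply, QuotientGroup.mk'_apply,
      (QuotientGroup.eq_one_iff u).mpr (Subgroup.mem_sup_left hu), map_one])
  refine ⟨m, ψ, ?_, ?_⟩
  · intro x hx
    refine (hψ x).trans ?_
    rw [MonoidHom.comp_apply, QuotientGroup.mk'_apply,
      (QuotientGroup.eq_one_iff x).mpr (Subgroup.mem_sup_right ((hV x).mpr hx)), map_one]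
  · intro y
    refine (congrArg Multiplicative.toAdd (hψ _)).trans ?_
    rw [MonoidHom.comp_apply, ← hf, hχ, hg]

end Main

end Fermat.Agent.Classic
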