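import Fermat.Agent.S41.NonEisH
import Fermat.Prelude.Def_GaloisRep_ModThreeCyclotomic

/-!
# The mod `p` representation of an elliptic curve as a homomorphism to `GL₂(𝔽_p)`

`repP p hΔ` is the action of `G_ℚ` on `E[p]` in a basis; `rep3 hΔ` is the case `p = 3`, in the form
wanted by the Langlands--Tunnell theorem: continuous, of determinant the mod `3` cyclotomic
character, and `E[3]` is irreducible iff the image has no invariant line.
-/

set_option autoImplicit false
set_option linter.style.haveILetI false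

noncomputable section

namespace Fermat.Agent.Classic

open WeierstrassCurve WeierstrassCurve.Affine WeierstrassCurve.Affine.Point
open Fermat.Agent.ECFrob Fermat.Agent.Torsion
open Matrix

local notation "Γℚ" => (AlgebraicClosure ℚ ≃ₐ[ℚ] AlgebraicClosure ℚ)

/-- The subgroup `G` of `GL₂(K)` has no invariant line. -/
def NoInvLine {K : Type*} [Field K] (G : Subgroup (GL (Fin 2) K)) : Prop :=
  ∀ v : Fin 2 → K, v ≠ 0 →
    ∃ g ∈ G, ∀ c : K, (g : Matrix (Fin 2) (Fin 2) K) *ᵥ v ≠ c • v

section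

variable {W : WeierstrassCurve ℤ} (p : ℕ) [hp : Fact p.Prime] (hΔ : W.Δ ≠ 0)

/-- The representation of `G_ℚ` on `E[p]`, in a basis. -/
def repP : Γℚ →* GL (Fin 2) (ZMod p) := (S41neh.mrep (p := p) hΔ).toHomUnits

lemma repP_val (σ : Γℚ) :
    ((repP p hΔ σ : GL (Fin 2) (ZMod p)) : Matrix (Fin 2) (Fin 2) (ZMod p)) =
      S41neh.mrep (p := p) hΔ σ := rfl

/-- A linear isomorphism `E[p] ≃ 𝔽_p²` transporting the Galois action to `repP`. -/
theorem exists_equiv : ∃ e : Submodule.torsionBy ℤ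
      ((W.map (Int.castRingHom ℚ))⁄(AlgebraicClosure ℚ)).Point (p : ℕ) ≃ₗ[ZMod p]
        (Fin 2 → ZMod p), ∀ (σ : Γℚ) (x : Submodule.torsionBy ℤ
      ((W.map (Int.castRingHom ℚ))⁄(AlgebraicClosure ℚ)).Point (p : ℕ)),
        e (σ • x) = (repP p hΔ σ : Matrix (Fin 2) (Fin 2) (ZMod p)) *ᵥ e x := by
  haveI := finite_rat hΔ hp.out.ne_zero
  haveI : Module.Finite (ZMod p)
      (Submodule.torsionBy ℤ ((W.map (Int.castRingHom ℚ))⁄(AlgebraicClosure ℚ)).Point p) :=
    Module.Finite.of_finite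
  let b := Module.finBasisOfFinrankEq _ _ (finrank_rat hΔ (p := p))
  refine ⟨b.equivFun, fun σ x => ?_⟩
  have h1 : (LinearMap.toMatrix b b (rho W p σ)).mulVec (b.repr x) =
      b.repr (rho W p σ x) := LinearMap.toMatrix_mulVec_repr b b _ _
  exact h1.symm

/-- The representation factors through a finite level. -/
theorem repP_factors : ∃ L : IntermediateField ℚ (AlgebraicClosure ℚ), FiniteDimensional ℚ L ∧
    ∀ σ : Γℚ, (∀ x ∈ L, σ x = x) → repP p hΔ σ = 1 := by
  obtain ⟨L, hL, h⟩ := galoisRep_factors (map_Δ_ne_zero hΔ) hp.out.ne_zero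
  refine ⟨L, hL, fun σ hσ => Units.ext ?_⟩
  have h1 : rho W p σ = 1 := h σ hσ
  rw [repP_val, Units.val_one, S41neh.mrep, MonoidHom.comp_apply, h1]
  exact map_one _

/-- The representation is continuous. -/
theorem continuous_repP : Continuous (repP p hΔ) := by
  obtain ⟨L, hL, h⟩ := repP_factors p hΔ
  haveI := hL
  refine continuous_of_continuousAt_one (repP p hΔ) ?_
  have h1 : (L.fixingSubgroup : Set Γℚ) ∈ nhds (1 : Γℚ) :=
    (IntermediateField.fixingSubgroup_isOpen L).mem_nhds (one_mem _)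
  have h2 : (fun _ : Γℚ => (1 : GL (Fin 2) (ZMod p))) =ᶠ[nhds 1] repP p hΔ := by
    filter_upwards [h1] with σ hσ
    exact (h σ fun x hx => (IntermediateField.mem_fixingSubgroup_iff L σ).mp hσ x hx).symm
  exact continuousAt_const.congr h2

/-- **`E[p]` is irreducible iff the image has no invariant line.** -/
theorem noInvLine_range_iff : W.ModRepIsIrreducible p ↔ NoInvLine (repP p hΔ).range := by
  obtain ⟨e, he⟩ := exists_equiv p hΔ
  have hfr : Module.finrank (ZMod p) (Fin 2 → ZMod p) = 2 := by simp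
  constructor
  · intro hirr v hv
    by_contra hcon
    push Not at hcon
    have hst : IsGaloisStable ℚ (Submodule.span (ZMod p) {e.symm v}) := by
      intro σ y hy
      rw [Submodule.mem_span_singleton] at hy ⊢
      obtain ⟨c, rfl⟩ := hy
      obtain ⟨t, ht⟩ := hcon (repP p hΔ σ) ⟨σ, rfl⟩
      refine ⟨c * t, e.injective ?_⟩
      rw [he, map_smul, map_smul, e.apply_symm_apply, mulVec_smul, ht, smul_smul]
    rcases hirr.2 _ hst with h1 | h1
    · rw [Submodule.span_singleton_eq_bot] at h1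
      exact hv ((LinearEquiv.map_eq_zero_iff _).mp h1)
    · have h2 : Submodule.span (ZMod p) {v} = ⊤ := by
        have h3 := congrArg (Submodule.map (e : _ →ₗ[ZMod p] (Fin 2 → ZMod p))) h1
        rw [Submodule.map_span, Submodule.map_top, LinearEquiv.range, Set.image_singleton] at h3
        simpa using h3
      have h4 : Module.finrank (ZMod p) (Fin 2 → ZMod p) ≤ 1 := by
        rw [← finrank_top, ← h2]
        exact (finrank_span_le_card _).trans (by simp)
      omega
  · intro h
    refine ⟨⟨e.symm (Pi.single 0 1), 0, fun h0 => ?_⟩, fun N hN => ?_⟩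
    · have := (LinearEquiv.map_eq_zero_iff _).mp h0
      have := congrFun this 0
      simp at this
    · by_contra hcon
      push Not at hcon
      obtain ⟨hbot, htop⟩ := hcon
      obtain ⟨x, hx, hx0⟩ := Submodule.exists_mem_ne_zero_of_ne_bot hbot
      obtain ⟨g, ⟨σ, rfl⟩, hg⟩ := h (e x) (fun h0 => hx0 ((LinearEquiv.map_eq_zero_iff _).mp h0))
      apply htop
      have hli : LinearIndependent (ZMod p) ![x, σ • x] := by
        rw [LinearIndependent.pair_iff' hx0]
        intro a ha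
        apply hg a
        rw [← he, ← ha, map_smul]
      have h1 := hli.span_eq_top_of_card_eq_finrank (by
        rw [Fintype.card_fin, finrank_rat hΔ])
      rw [eq_top_iff, ← h1, Submodule.span_le]
      rintro y ⟨i, rfl⟩
      fin_cases i
      · exact hx
      · exact hN σ x hx

/-- The determinant of the mod `p` representation is the mod `p` cyclotomic character. -/
theorem det_repP (σ : Γℚ) :
    (repP p hΔ σ : Matrix (Fin 2) (Fin 2) (ZMod p)).det = cycMod p σ := by
  rw [repP_val, S41neh.det_mrep]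
  exact det_rho hΔ σ

variable {p}

/-- The trace of Frobenius. -/
theorem trace_repP_frobenius {ℓ : ℕ} (hℓ : ℓ.Prime) (hgood : W.IsGoodPrimeFor ℓ) (hne : ℓ ≠ p)
    {A : ValuationSubring (AlgebraicClosure ℚ)} (hA : A.LiesOverPrime ℓ) {σ : Γℚ}
    (hσ : A.IsFrobeniusAt σ ℓ) :
    (repP p hΔ σ : Matrix (Fin 2) (Fin 2) (ZMod p)).trace = (W.apOfModel ℓ : ZMod p) := by
  haveI : Fact ℓ.Prime := ⟨hℓ⟩
  rw [repP_val, S41neh.trace_mrep]
  exact trace_rho_frobenius hgood hA hσ hne

/-- The determinant of Frobenius. -/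
theorem det_repP_frobenius {ℓ : ℕ} (hℓ : ℓ.Prime) (hgood : W.IsGoodPrimeFor ℓ) (hne : ℓ ≠ p)
    {A : ValuationSubring (AlgebraicClosure ℚ)} (hA : A.LiesOverPrime ℓ) {σ : Γℚ}
    (hσ : A.IsFrobeniusAt σ ℓ) :
    (repP p hΔ σ : Matrix (Fin 2) (Fin 2) (ZMod p)).det = (ℓ : ZMod p) := by
  haveI : Fact ℓ.Prime := ⟨hℓ⟩
  rw [repP_val, S41neh.det_mrep]
  exact det_rho_frobenius hgood hA hσ hne

/-- The representation is unramified at the primes of good reduction other than `p`. -/
theorem repP_inertia {ℓ : ℕ} (hℓ : ℓ.Prime) (hgood : W.IsGoodPrimeFor ℓ) (hne : ℓ ≠ p)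
    {A : ValuationSubring (AlgebraicClosure ℚ)} (hA : A.LiesOverPrime ℓ) {σ : Γℚ}
    (hσ : σ ∈ A.inertiaSubgroupIn ℚ) : repP p hΔ σ = 1 := by
  haveI : Fact ℓ.Prime := ⟨hℓ⟩
  have h1 : rho W p σ = 1 := rho_inertia hgood hA hσ
    (fun h => hne ((Nat.prime_dvd_prime_iff_eq hℓ hp.out).mp h))
  refine Units.ext ?_
  rw [repP_val, Units.val_one, S41neh.mrep, MonoidHom.comp_apply, h1]
  exact map_one _

/-- Involutions have determinant `-1`. -/
theorem det_repP_involution {c : Γℚ} (hc : c * c = 1) (hc1 : c ≠ 1) :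
    (repP p hΔ c : Matrix (Fin 2) (Fin 2) (ZMod p)).det = -1 := by
  rw [repP_val, S41neh.det_mrep]
  exact det_rho_involution hΔ hc hc1

/-- Complex conjugation. -/
theorem exists_conj : ∃ c : Γℚ, c * c = 1 ∧ c ≠ 1 ∧
    (repP p hΔ c : Matrix (Fin 2) (Fin 2) (ZMod p)).det = -1 :=
  ⟨complexConjugation, complexConjugation_mul_self, S41neh.complexConjugation_ne_one,
    det_repP_involution hΔ complexConjugation_mul_self S41neh.complexConjugation_ne_one⟩

end

/-! ### The case `p = 3` -/

section three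

variable {W : WeierstrassCurve ℤ} (hΔ : W.Δ ≠ 0)

/-- The representation of `G_ℚ` on `E[3]`. -/
abbrev rep3 : Γℚ →* GL (Fin 2) (ZMod 3) := repP 3 hΔ

/-- **The determinant of `E[3]` is the mod `3` cyclotomic character.** -/
theorem det_rep3 (σ : Γℚ) :
    Matrix.GeneralLinearGroup.det (rep3 hΔ σ) = modThreeCyclotomicChar σ :=
  Units.ext (det_repP 3 hΔ σ)

/-- The determinant is surjective on the image. -/
theorem det_range : (rep3 hΔ).range.map Matrix.GeneralLinearGroup.det = ⊤ := by
  rw [Subgroup.eq_top_iff']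
  obtain ⟨c, -, -, hc⟩ := exists_conj (p := 3) hΔ
  have h1 : Matrix.GeneralLinearGroup.det (rep3 hΔ c) = -1 := Units.ext hc
  have h2 : ∀ u : (ZMod 3)ˣ, u = 1 ∨ u = -1 := by decide
  intro u
  rcases h2 u with rfl | rfl
  · exact one_mem _
  · exact ⟨rep3 hΔ c, ⟨c, rfl⟩, h1⟩

end three

end Fermat.Agent.Classic
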