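import Fermat.Agent.GalW.Final
import Fermat.Agent.Classic.Rep3

/-!
# Semistable curves: irreducible mod `3` implies surjective mod `3`

* `eq_top_of_transvection`: a subgroup of `GL₂(𝔽₃)` without stable line, containing a transvection
  and an element of determinant `-1`, is everything;
* `rep3_surjective`: the mod `3` representation of a semistable curve is surjective if it is
  irreducible. The transvection is `GalW.exists_transvection_mr` (inertia at `q ≠ 3` is unipotent, and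
  by Minkowski a `2`-group image would come from one inertia group at `3`).
-/

set_option autoImplicit false

namespace Fermat.Agent.Classic.Semi

open Matrix

local notation "G3" => GL (Fin 2) (ZMod 3)
local notation "M3" => Matrix (Fin 2) (Fin 2) (ZMod 3)

/-- the matrices of a subgroup of `GL₂(𝔽₃)`. -/
def mats (G : Subgroup G3) : Submonoid M3 := G.toSubmonoid.map (Units.coeHom M3)

theorem mem_mats {G : Subgroup G3} {A : M3} : A ∈ mats G ↔ ∃ g ∈ G, (g : M3) = A := Iff.rfl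

theorem mem_of_mem_mats {G : Subgroup G3} {g : G3} (h : (g : M3) ∈ mats G) : g ∈ G := by
  obtain ⟨g', hg', h'⟩ := h
  have : g' = g := Units.ext h'
  exact this ▸ hg'

theorem upper_mem {G : Subgroup G3} {c : ZMod 3} (hc : c ≠ 0) (h : !![1, c; 0, 1] ∈ mats G)
    (x : ZMod 3) : !![1, x; 0, 1] ∈ mats G := by
  have h2 : ∀ c : ZMod 3, c ≠ 0 → ∀ x : ZMod 3, (!![1, x; 0, 1] : M3) = 1 ∨
      (!![1, x; 0, 1] : M3) = !![1, c; 0, 1] ∨
      (!![1, x; 0, 1] : M3) = !![1, c; 0, 1] * !![1, c; 0, 1] := by decide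
  rcases h2 c hc x with h3 | h3 | h3
  · rw [h3]; exact one_mem _
  · rw [h3]; exact h
  · rw [h3]; exact mul_mem h h

theorem lower_mem {G : Subgroup G3} {c : ZMod 3} (hc : c ≠ 0) (h : !![1, 0; c, 1] ∈ mats G)
    (x : ZMod 3) : !![1, 0; x, 1] ∈ mats G := by
  have h2 : ∀ c : ZMod 3, c ≠ 0 → ∀ x : ZMod 3, (!![1, 0; x, 1] : M3) = 1 ∨
      (!![1, 0; x, 1] : M3) = !![1, 0; c, 1] ∨
      (!![1, 0; x, 1] : M3) = !![1, 0; c, 1] * !![1, 0; c, 1] := by decide
  rcases h2 c hc x with h3 | h3 | h3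
  · rw [h3]; exact one_mem _
  · rw [h3]; exact h
  · rw [h3]; exact mul_mem h h

/-- the two unipotent groups generate `SL₂(𝔽₃)`. -/
theorem mem_of_det_one {G : Subgroup G3} {c d : ZMod 3} (hc : c ≠ 0) (hd : d ≠ 0)
    (h1 : !![1, c; 0, 1] ∈ mats G) (h2 : !![1, 0; d, 1] ∈ mats G) (A : M3) (hA : A.det = 1) :
    A ∈ mats G := by
  have key : ∀ a b c d : ZMod 3, a * d - b * c = 1 → c ≠ 0 →
      (!![a, b; c, d] : M3) = !![1, (a - 1) * c; 0, 1] * !![1, 0; c, 1] *
        !![1, (d - 1) * c; 0, 1] := by decide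
  have key2 : ∀ a b d : ZMod 3, a * d - b * 0 = 1 →
      (!![a, b; 0, d] : M3) = !![a + b, b; d, d] * !![1, 0; -1, 1] ∧ d ≠ 0 ∧
        (a + b) * d - b * d = 1 := by decide
  have h3 : ∀ a b c d : ZMod 3, a * d - b * c = 1 → c ≠ 0 → (!![a, b; c, d] : M3) ∈ mats G := by
    intro a b c' d' h hc'
    rw [key a b c' d' h hc']
    exact mul_mem (mul_mem (upper_mem hc h1 _) (lower_mem hd h2 _)) (upper_mem hc h1 _)
  rw [Matrix.eta_fin_two A] at hA ⊢
  rw [Matrix.det_fin_two_of] at hA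
  by_cases h0 : A 1 0 = 0
  · rw [h0] at hA ⊢
    obtain ⟨h4, h5, h6⟩ := key2 _ _ _ hA
    rw [h4]
    exact mul_mem (h3 _ _ _ _ h6 h5) (lower_mem hd h2 _)
  · exact h3 _ _ _ _ hA h0

theorem eq_top_of_unip {G : Subgroup G3} {c d : ZMod 3} (hc : c ≠ 0) (hd : d ≠ 0)
    (h1 : !![1, c; 0, 1] ∈ mats G) (h2 : !![1, 0; d, 1] ∈ mats G)
    (hdet : ∃ g ∈ G, (g : M3).det = -1) : G = ⊤ := by
  rw [Subgroup.eq_top_iff']
  intro x
  have hx : (x : M3).det = 1 ∨ (x : M3).det = -1 := by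
    have h3 : ∀ y : ZMod 3, y ≠ 0 → y = 1 ∨ y = -1 := by decide
    apply h3
    exact ((Matrix.isUnit_iff_isUnit_det _).mp x.isUnit).ne_zero
  rcases hx with hx | hx
  · exact mem_of_mem_mats (mem_of_det_one hc hd h1 h2 _ hx)
  · obtain ⟨g, hg, hgd⟩ := hdet
    have h3 : ((x * g : G3) : M3).det = 1 := by
      rw [Units.val_mul, Matrix.det_mul, hx, hgd]
      decide
    have h4 := mem_of_mem_mats (mem_of_det_one hc hd h1 h2 _ h3)
    exact (Subgroup.mul_mem_cancel_right G hg).mp h4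

/-- **A subgroup of `GL₂(𝔽₃)` without stable line, containing a transvection and an element of
determinant `-1`, is everything.** -/
theorem eq_top_of_transvection {G : Subgroup G3}
    (hirr : ∀ v : Fin 2 → ZMod 3, v ≠ 0 → ¬ ∀ g ∈ G, ∃ a : ZMod 3, (g : M3) *ᵥ v = a • v)
    (hdet : ∃ g ∈ G, (g : M3).det = -1)
    (htr : ∃ u ∈ G, (u : M3) ≠ 1 ∧ ((u : M3) - 1) * ((u : M3) - 1) = 0) : G = ⊤ := by
  obtain ⟨u, hu, hu1, huu⟩ := htr
  -- `w₀` with `(u - 1) w₀ = v ≠ 0`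
  obtain ⟨w₀, hw₀⟩ : ∃ w : Fin 2 → ZMod 3, ((u : M3) - 1) *ᵥ w ≠ 0 := by
    by_contra hcon
    push Not at hcon
    apply hu1
    rw [← sub_eq_zero]
    exact GalW.mulVec_ext fun w => by rw [hcon w, Matrix.zero_mulVec]
  set v : Fin 2 → ZMod 3 := ((u : M3) - 1) *ᵥ w₀ with hv
  have huv : (u : M3) *ᵥ v = v := by
    have h1 : ((u : M3) - 1) *ᵥ v = 0 := by
      rw [hv, Matrix.mulVec_mulVec, huu, Matrix.zero_mulVec]
    rw [Matrix.sub_mulVec, Matrix.one_mulVec, sub_eq_zero] at h1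
    exact h1
  -- `g` moving the line
  obtain ⟨g, hg, hgv⟩ : ∃ g ∈ G, ¬ ∃ a : ZMod 3, (g : M3) *ᵥ v = a • v := by
    by_contra hcon
    push Not at hcon
    exact hirr v hw₀ fun g hg => hcon g hg
  set w : Fin 2 → ZMod 3 := (g : M3) *ᵥ v with hw
  have hli := GalW.li_of_not_stable hw₀ hgv
  obtain ⟨U, hU⟩ := Fermat.Agent.FlatP.exists_unit_basis hli
  -- `u w = w + c v`
  have huw : ∃ c : ZMod 3, (u : M3) *ᵥ w = c • v + (1 : ZMod 3) • w := by
    obtain ⟨c, d, hcd⟩ := Fermat.Agent.FlatP.exists_coord hli (((u : M3) - 1) *ᵥ w)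
    have h1 : ((u : M3) - 1) *ᵥ (((u : M3) - 1) *ᵥ w) = 0 := by
      rw [Matrix.mulVec_mulVec, huu, Matrix.zero_mulVec]
    have hd : d = 0 := by
      by_contra hd
      have h2 : ((u : M3) - 1) *ᵥ v = 0 := by
        rw [Matrix.sub_mulVec, huv, Matrix.one_mulVec, sub_self]
      rw [hcd, Matrix.mulVec_add, Matrix.mulVec_smul, Matrix.mulVec_smul, h2, smul_zero,
        zero_add, smul_eq_zero] at h1
      have h3 := h1.resolve_left hd
      rw [hcd, add_eq_zero_iff_eq_neg] at h3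
      rw [LinearIndependent.pair_iff] at hli
      have h4 := hli c d (by rw [h3, neg_add_cancel])
      exact hd h4.2
    refine ⟨c, ?_⟩
    rw [hd, zero_smul, add_zero, Matrix.sub_mulVec, Matrix.one_mulVec, sub_eq_iff_eq_add] at hcd
    rw [hcd, one_smul]
  obtain ⟨c, hc⟩ := huw
  have hc0 : c ≠ 0 := by
    rintro rfl
    apply hu1
    have h1 : (u : M3) *ᵥ w = w := by rw [hc, zero_smul, zero_add, one_smul]
    refine GalW.eq_one_of_unip hli (a := 1) (b := 1) (by rw [huv, one_smul])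
      (by rw [h1, one_smul]) huu
  -- the conjugate transvection `u' = g u g⁻¹`
  have hgg : ((g⁻¹ : G3) : M3) *ᵥ w = v := by
    rw [hw, Matrix.mulVec_mulVec, ← Units.val_mul, inv_mul_cancel, Units.val_one,
      Matrix.one_mulVec]
  have hu'w : ((g * u * g⁻¹ : G3) : M3) *ᵥ w = w := by
    rw [Units.val_mul, Units.val_mul, ← Matrix.mulVec_mulVec, hgg, ← Matrix.mulVec_mulVec, huv]
  have huu' : (((g * u * g⁻¹ : G3) : M3) - 1) * (((g * u * g⁻¹ : G3) : M3) - 1) = 0 := by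
    have h1 : ((g * u * g⁻¹ : G3) : M3) - 1 = (g : M3) * ((u : M3) - 1) * ((g⁻¹ : G3) : M3) := by
      rw [Units.val_mul, Units.val_mul, mul_sub, sub_mul, mul_one, ← Units.val_mul g g⁻¹,
        mul_inv_cancel, Units.val_one]
    have h2 : ((g⁻¹ : G3) : M3) * (g : M3) = 1 := by
      rw [← Units.val_mul, inv_mul_cancel, Units.val_one]
    rw [h1]
    calc (g : M3) * ((u : M3) - 1) * ((g⁻¹ : G3) : M3) *
          ((g : M3) * ((u : M3) - 1) * ((g⁻¹ : G3) : M3))
        = (g : M3) * ((u : M3) - 1) * (((g⁻¹ : G3) : M3) * (g : M3)) * ((u : M3) - 1) *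
          ((g⁻¹ : G3) : M3) := by noncomm_ring
      _ = (g : M3) * (((u : M3) - 1) * ((u : M3) - 1)) * ((g⁻¹ : G3) : M3) := by
          rw [h2]; noncomm_ring
      _ = 0 := by rw [huu, mul_zero, zero_mul]
  have hu'v : ∃ d : ZMod 3, ((g * u * g⁻¹ : G3) : M3) *ᵥ v = (1 : ZMod 3) • v + d • w := by
    obtain ⟨c', d', hcd⟩ := Fermat.Agent.FlatP.exists_coord hli
      ((((g * u * g⁻¹ : G3) : M3) - 1) *ᵥ v)
    have h1 : (((g * u * g⁻¹ : G3) : M3) - 1) *ᵥ ((((g * u * g⁻¹ : G3) : M3) - 1) *ᵥ v) = 0 := by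
      rw [Matrix.mulVec_mulVec, huu', Matrix.zero_mulVec]
    have hc' : c' = 0 := by
      by_contra hc'
      have h2 : (((g * u * g⁻¹ : G3) : M3) - 1) *ᵥ w = 0 := by
        rw [Matrix.sub_mulVec, hu'w, Matrix.one_mulVec, sub_self]
      rw [hcd, Matrix.mulVec_add, Matrix.mulVec_smul, Matrix.mulVec_smul, h2, smul_zero,
        add_zero, smul_eq_zero] at h1
      have h3 := h1.resolve_left hc'
      rw [hcd] at h3
      rw [LinearIndependent.pair_iff] at hli
      exact hc' (hli c' d' h3).1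
    refine ⟨d', ?_⟩
    rw [hc', zero_smul, zero_add, Matrix.sub_mulVec, Matrix.one_mulVec, sub_eq_iff_eq_add] at hcd
    rw [hcd, one_smul, add_comm]
  obtain ⟨d, hd⟩ := hu'v
  have hd0 : d ≠ 0 := by
    rintro rfl
    apply hu1
    have h1 : ((g * u * g⁻¹ : G3) : M3) *ᵥ v = (1 : ZMod 3) • v := by
      rw [hd, zero_smul, add_zero]
    have h2 : ((g * u * g⁻¹ : G3) : M3) = 1 :=
      GalW.eq_one_of_unip hli (b := 1) h1 (by rw [hu'w, one_smul]) huu'
    have h3 : g * u * g⁻¹ = 1 := Units.ext h2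
    have h4 : u = 1 := by
      have : u = g⁻¹ * (g * u * g⁻¹) * g := by group
      rw [this, h3]; group
    rw [h4, Units.val_one]
  -- conjugate everything by `U`
  have h1 := hU (u : M3) 1 c 0 1 (by rw [huv, one_smul, zero_smul, add_zero]) hc
  have h2 := hU ((g * u * g⁻¹ : G3) : M3) 1 0 d 1 hd
    (by rw [hu'w, one_smul, zero_smul, zero_add])
  have htop : G.map (MulAut.conj U).toMonoidHom = ⊤ := by
    refine eq_top_of_unip hc0 hd0 ⟨U * u * U⁻¹, ⟨u, hu, rfl⟩, ?_⟩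
      ⟨U * (g * u * g⁻¹) * U⁻¹, ⟨g * u * g⁻¹, mul_mem (mul_mem hg hu) (inv_mem hg), rfl⟩, ?_⟩ ?_
    · rw [← h1]; rfl
    · rw [← h2]; rfl
    · obtain ⟨x, hx, hxd⟩ := hdet
      refine ⟨U * x * U⁻¹, ⟨x, hx, rfl⟩, ?_⟩
      have h3 : ((U * x * U⁻¹ : G3) : M3) = (U : M3) * (x : M3) * ((U⁻¹ : G3) : M3) := rfl
      rw [h3, Matrix.det_mul, Matrix.det_mul, mul_right_comm, ← Matrix.det_mul, ← Units.val_mul,
        mul_inv_cancel, Units.val_one, Matrix.det_one, one_mul, hxd]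
  rw [Subgroup.eq_top_iff']
  intro x
  have h3 : U * x * U⁻¹ ∈ G.map (MulAut.conj U).toMonoidHom := by rw [htop]; trivial
  obtain ⟨y, hy, hyx⟩ := h3
  have h4 : U * y * U⁻¹ = U * x * U⁻¹ := hyx
  have h5 : y = x := by
    have := mul_right_cancel h4
    exact mul_left_cancel this
  exact h5 ▸ hy

section curve

open Fermat.Agent.GalW Fermat.Agent.Tate Fermat.Agent.ECFrob Fermat.Agent.TW WeierstrassCurve

variable {W : WeierstrassCurve ℤ} (hΔ' : W.Δ ≠ 0)

/-- **A semistable curve with irreducible mod `3` representation has surjective mod `3`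
representation.** -/
theorem rep3_surjective (hW : W.IsSemistableModel) (hirr : W.ModRepIsIrreducible 3) :
    Function.Surjective (rep3 hΔ') := by
  have : Fact (Nat.Prime 3) := ⟨Nat.prime_three⟩
  rw [← MonoidHom.range_eq_top]
  refine eq_top_of_transvection (fun v hv hstab => ?_) ?_ ?_
  · have h1 := noLineIn_mr hΔ' 3 hW hirr (by norm_num) (ZMod 3)
    refine h1 ⊤ (Or.inl Subgroup.index_top) v hv fun σ _ => ?_
    obtain ⟨a, ha⟩ := hstab (rep3 hΔ' σ) ⟨σ, rfl⟩
    refine ⟨a, ?_⟩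
    change mr hΔ' 3 σ *ᵥ v = a • v at ha
    rw [Algebra.algebraMap_self, RingHom.coe_id, Matrix.map_id]
    exact ha
  · refine ⟨rep3 hΔ' complexConjugation, ⟨_, rfl⟩, ?_⟩
    change (mr hΔ' 3 complexConjugation).det = -1
    rw [S41neh.det_mrep, det_rho_involution hΔ' complexConjugation_mul_self
      S41neh.complexConjugation_ne_one]
  · obtain ⟨σ, h1, h2⟩ := exists_transvection_mr hΔ' hW hirr
    exact ⟨rep3 hΔ' σ, ⟨σ, rfl⟩, h1, h2⟩

/-- The same for any representation equivalent to `E[3]`. -/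
theorem surjective_of_conj (hW : W.IsSemistableModel) (hirr : W.ModRepIsIrreducible 3)
    {r : (AlgebraicClosure ℚ ≃ₐ[ℚ] AlgebraicClosure ℚ) →* G3} {U : G3}
    (h : ∀ σ, r σ = U * rep3 hΔ' σ * U⁻¹) : Function.Surjective r := by
  intro x
  obtain ⟨σ, hσ⟩ := rep3_surjective hΔ' hW hirr (U⁻¹ * x * U)
  refine ⟨σ, ?_⟩
  rw [h, hσ]
  group

end curve

end Fermat.Agent.Classic.Semi
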