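import Fermat.Agent.Classic.Rep3
import Fermat.Agent.Classic.Semi

/-!
# Irreducible subgroups of `GL₂(𝔽₃)` with surjective determinant (CL8)

* `eq_top_or_isPGroup`: without invariant line and with an element of determinant `-1`: everything
  or a `2`-group;
* `D4`: the monomial matrices; `SD16`: the normaliser of `𝔽₉ˣ`;
* `trichotomy`: with a complex conjugation `c` in the group, it is everything, or conjugate to
  `SD16` (with `c = diag(1, -1)`), or to `D4` (with `c` the exchange of the coordinates).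
-/

set_option autoImplicit false

namespace Fermat.Agent.Classic

open Matrix

local notation "G3" => GL (Fin 2) (ZMod 3)
local notation "M3" => Matrix (Fin 2) (Fin 2) (ZMod 3)

/-! ### Matrices as quadruples -/

namespace Q3

/-- quadruples -/
abbrev Q : Type := ZMod 3 × ZMod 3 × ZMod 3 × ZMod 3

/-- the product -/
def mul (x y : Q) : Q :=
  (x.1 * y.1 + x.2.1 * y.2.2.1, x.1 * y.2.1 + x.2.1 * y.2.2.2,
    x.2.2.1 * y.1 + x.2.2.2 * y.2.2.1, x.2.2.1 * y.2.1 + x.2.2.2 * y.2.2.2)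

/-- the determinant -/
def det (x : Q) : ZMod 3 := x.1 * x.2.2.2 - x.2.1 * x.2.2.1

/-- the identity -/
def one : Q := (1, 0, 0, 1)

/-- the powers -/
def pow (x : Q) : ℕ → Q
  | 0 => one
  | n + 1 => mul (pow x n) x

/-- the quadruple of a matrix -/
def ofM (A : M3) : Q := (A 0 0, A 0 1, A 1 0, A 1 1)

theorem ofM_injective {A B : M3} (h : ofM A = ofM B) : A = B := by
  have h1 := congrArg (fun x : Q => x.1) h
  have h2 := congrArg (fun x : Q => x.2.1) h
  have h3 := congrArg (fun x : Q => x.2.2.1) h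
  have h4 := congrArg (fun x : Q => x.2.2.2) h
  ext i j
  fin_cases i <;> fin_cases j
  · exact h1
  · exact h2
  · exact h3
  · exact h4

theorem ofM_mul (A B : M3) : ofM (A * B) = mul (ofM A) (ofM B) := by
  simp only [ofM, mul, Matrix.mul_apply, Fin.sum_univ_two]

theorem ofM_one : ofM (1 : M3) = one := by decide

theorem ofM_pow (A : M3) (n : ℕ) : ofM (A ^ n) = pow (ofM A) n := by
  induction n with
  | zero => rw [pow_zero, ofM_one]; rfl
  | succ n ih => rw [pow_succ, ofM_mul, ih]; rfl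

theorem det_ofM (A : M3) : det (ofM A) = A.det := by
  rw [Matrix.det_fin_two]
  rfl

/-- the quadruple of an element of the group -/
def of (g : G3) : Q := ofM (g : M3)

theorem of_injective {g h : G3} (hgh : of g = of h) : g = h := Units.ext (ofM_injective hgh)

theorem of_mul (g h : G3) : of (g * h) = mul (of g) (of h) := ofM_mul _ _

theorem of_one : of 1 = one := ofM_one

theorem of_pow (g : G3) (n : ℕ) : of (g ^ n) = pow (of g) n := by
  rw [of, Units.val_pow_eq_pow_val, ofM_pow]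
  rfl

theorem det_of (g : G3) : det (of g) = (g : M3).det := det_ofM _

theorem det_of_ne_zero (g : G3) : det (of g) ≠ 0 := by
  rw [det_of]
  exact ((Matrix.isUnit_iff_isUnit_det _).mp g.isUnit).ne_zero

/-- an element from a quadruple -/
theorem exists_of (x : Q) (h : det x ≠ 0) : ∃ g : G3, of g = x := by
  refine ⟨Matrix.GeneralLinearGroup.mkOfDetNeZero !![x.1, x.2.1; x.2.2.1, x.2.2.2] ?_, rfl⟩
  rwa [Matrix.det_fin_two_of]

end Q3

open Q3

/-! ### A dichotomy -/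

theorem natCard_G3 : Nat.card G3 = 48 := by
  rw [Matrix.card_GL_field]
  simp [Fin.prod_univ_two]

/-- **Without invariant line and with an element of determinant `-1`: everything or a `2`-group.** -/
theorem eq_top_of_three_dvd {G : Subgroup G3} (h : NoInvLine G)
    (hdet : ∃ g ∈ G, (g : M3).det = -1) (h3 : 3 ∣ Nat.card G) : G = ⊤ := by
  have : Fact (Nat.Prime 3) := ⟨Nat.prime_three⟩
  obtain ⟨u, hu⟩ := exists_prime_orderOf_dvd_card' (G := G) 3 h3
  refine Semi.eq_top_of_transvection (fun v hv hcon => ?_) hdet ⟨u, u.2, ?_, ?_⟩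
  · obtain ⟨g, hg, hg'⟩ := h v hv
    obtain ⟨a, ha⟩ := hcon g hg
    exact hg' a ha
  · intro h1
    have h2 : u = 1 := Subtype.ext (Units.ext h1)
    rw [h2, orderOf_one] at hu
    omega
  · refine GalW.unip_of_cube (by decide) ?_
    have h1 : u ^ 3 = 1 := orderOf_dvd_iff_pow_eq_one.mp (by rw [hu])
    have h2 : ((u : G3) ^ 3 : G3) = 1 := congrArg Subtype.val h1
    have h4 : (((u : G3) ^ 3 : G3) : M3) = 1 := by rw [h2, Units.val_one]
    rw [Units.val_pow_eq_pow_val, pow_succ, pow_two] at h4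
    exact h4

theorem isPGroup_of_not_dvd {G : Subgroup G3} (h3 : ¬ 3 ∣ Nat.card G) : IsPGroup 2 G := by
  have h1 : Nat.card G ∣ 2 ^ 4 * 3 := by
    have := Subgroup.card_subgroup_dvd_card G
    rw [natCard_G3] at this
    exact this
  have h2 : Nat.card G ∣ 2 ^ 4 := by
    refine Nat.Coprime.dvd_of_dvd_mul_right ?_ h1
    exact ((Nat.Prime.coprime_iff_not_dvd Nat.prime_three).mpr h3).symm
  obtain ⟨k, _, hk⟩ := (Nat.dvd_prime_pow Nat.prime_two).mp h2
  exact IsPGroup.of_card hk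

/-- **Everything or a `2`-group.** -/
theorem eq_top_or_isPGroup {G : Subgroup G3} (h : NoInvLine G)
    (hdet : ∃ g ∈ G, (g : M3).det = -1) : G = ⊤ ∨ IsPGroup 2 G := by
  by_cases h3 : 3 ∣ Nat.card G
  · exact Or.inl (eq_top_of_three_dvd h hdet h3)
  · exact Or.inr (isPGroup_of_not_dvd h3)

theorem pow_sixteen {G : Subgroup G3} (h2 : IsPGroup 2 G) {g : G3} (hg : g ∈ G) : g ^ 16 = 1 := by
  have : Fact (Nat.Prime 2) := ⟨Nat.prime_two⟩
  obtain ⟨k, hk⟩ := h2 ⟨g, hg⟩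
  have hk' : g ^ 2 ^ k = 1 := congrArg Subtype.val hk
  obtain ⟨j, _, hj⟩ := (Nat.dvd_prime_pow Nat.prime_two).mp (orderOf_dvd_of_pow_eq_one hk')
  have h48 : orderOf g ∣ 48 := by
    rw [← natCard_G3]
    exact orderOf_dvd_natCard g
  have h3 : 2 ^ j ∣ 2 ^ 4 * 3 := by rw [← hj]; exact h48
  have h4 : 2 ^ j ∣ 2 ^ 4 :=
    Nat.Coprime.dvd_of_dvd_mul_right (Nat.Coprime.pow_left _ (by norm_num)) h3
  rw [← hj] at h4
  exact orderOf_dvd_iff_pow_eq_one.mp h4

/-! ### The two groups -/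

/-- a subgroup of `GL₂(𝔽₃)` from a condition on quadruples -/
def mkSub (P : Q → Bool) (h1 : P one = true)
    (hmul : ∀ a b c d, P (a, b, c, d) = true → ∀ a' b' c' d', P (a', b', c', d') = true →
      P (mul (a, b, c, d) (a', b', c', d')) = true) : Subgroup G3 where
  carrier := {g | P (of g) = true}
  one_mem' := by rw [Set.mem_ofPred_eq, of_one]; exact h1
  mul_mem' {g h} hg hh := by
    rw [Set.mem_ofPred_eq, of_mul]
    exact hmul _ _ _ _ hg _ _ _ _ hh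
  inv_mem' {g} hg := by
    have key : ∀ n : ℕ, P (of (g ^ n)) = true := by
      intro n
      induction n with
      | zero => rw [pow_zero, of_one]; exact h1
      | succ n ih =>
        rw [pow_succ, of_mul]
        exact hmul _ _ _ _ ih _ _ _ _ hg
    have h2 : g⁻¹ = g ^ (orderOf g - 1) := by
      rw [inv_eq_iff_mul_eq_one, ← pow_succ', Nat.sub_add_cancel (orderOf_pos g),
        pow_orderOf_eq_one]
    rw [Set.mem_ofPred_eq, h2]
    exact key _

/-- monomial -/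
def isD (x : Q) : Bool :=
  (x.1 * x.2.2.2 - x.2.1 * x.2.2.1 ≠ 0) &&
    ((x.2.1 = 0 && x.2.2.1 = 0) || (x.1 = 0 && x.2.2.2 = 0))

/-- in the normaliser of `𝔽₉ˣ` -/
def isS (x : Q) : Bool :=
  (x.1 * x.2.2.2 - x.2.1 * x.2.2.1 ≠ 0) &&
    ((x.1 = x.2.2.2 && x.2.1 = -x.2.2.1) || (x.1 = -x.2.2.2 && x.2.1 = x.2.2.1))

/-- The monomial matrices. -/
def D4 : Subgroup G3 := mkSub isD (by decide) (by decide)

/-- The normaliser of `𝔽₉ˣ`. -/
def SD16 : Subgroup G3 := mkSub isS (by decide) (by decide)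

theorem mem_D4_iff {g : G3} : g ∈ D4 ↔ isD (of g) = true := Iff.rfl

theorem mem_SD16_iff {g : G3} : g ∈ SD16 ↔ isS (of g) = true := Iff.rfl

theorem mem_D4 {g : G3} : g ∈ D4 ↔ ((g : M3) 0 1 = 0 ∧ (g : M3) 1 0 = 0) ∨
    ((g : M3) 0 0 = 0 ∧ (g : M3) 1 1 = 0) := by
  have key : ∀ a b c d : ZMod 3, a * d - b * c ≠ 0 →
      (isD (a, b, c, d) = true ↔ (b = 0 ∧ c = 0) ∨ (a = 0 ∧ d = 0)) := by decide
  exact key _ _ _ _ (det_of_ne_zero g)

theorem mem_SD16 {g : G3} : g ∈ SD16 ↔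
    ((g : M3) 0 0 = (g : M3) 1 1 ∧ (g : M3) 0 1 = -(g : M3) 1 0) ∨
    ((g : M3) 0 0 = -(g : M3) 1 1 ∧ (g : M3) 0 1 = (g : M3) 1 0) := by
  have key : ∀ a b c d : ZMod 3, a * d - b * c ≠ 0 →
      (isS (a, b, c, d) = true ↔ (a = d ∧ b = -c) ∨ (a = -d ∧ b = c)) := by decide
  exact key _ _ _ _ (det_of_ne_zero g)

theorem D4_le : D4 ≤ SD16 := by
  intro g hg
  rw [mem_D4_iff] at hg
  rw [mem_SD16_iff]
  have key : ∀ a b c d : ZMod 3, isD (a, b, c, d) = true → isS (a, b, c, d) = true := by decide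
  exact key _ _ _ _ hg

/-- `diag(1, -1)` -/
def c0 : G3 := ⟨!![1, 0; 0, -1], !![1, 0; 0, -1], by decide, by decide⟩

/-- the exchange of the coordinates -/
def sw : G3 := ⟨!![0, 1; 1, 0], !![0, 1; 1, 0], by decide, by decide⟩

/-- an element of order `8` -/
def a8 : G3 := ⟨!![1, 1; -1, 1], !![-1, 1; -1, -1], by decide, by decide⟩

theorem of_c0 : Q3.of c0 = (1, 0, 0, -1) := rfl
theorem of_sw : Q3.of sw = (0, 1, 1, 0) := rfl
theorem of_a8 : Q3.of a8 = (1, 1, -1, 1) := rfl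
theorem of_a8_inv : Q3.of a8⁻¹ = (-1, 1, -1, -1) := rfl

theorem exists_conj_c0 {c : G3} (hc : c * c = 1) (hd : (c : M3).det = -1) :
    ∃ x : G3, x * c * x⁻¹ = c0 := by
  have key : ∀ a b c d : ZMod 3, mul (a, b, c, d) (a, b, c, d) = one → a * d - b * c = -1 →
      ∃ p q r s : ZMod 3, p * s - q * r ≠ 0 ∧
        mul (p, q, r, s) (a, b, c, d) = mul (1, 0, 0, -1) (p, q, r, s) := by decide
  have h1 : mul (Q3.of c) (Q3.of c) = one := by rw [← of_mul, hc, of_one]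
  have h2 : Q3.det (Q3.of c) = -1 := by rw [det_of, hd]
  obtain ⟨p, q, r, s, h3, h4⟩ := key _ _ _ _ h1 h2
  obtain ⟨x, hx⟩ := exists_of (p, q, r, s) h3
  refine ⟨x, ?_⟩
  rw [mul_inv_eq_iff_eq_mul]
  apply of_injective
  rw [of_mul, of_mul, of_c0, hx]
  exact h4

/-- the square -/
def Q3.sq (x : Q) : Q := mul x x

theorem Q3.of_sq (g : G3) : Q3.of (g * g) = Q3.sq (Q3.of g) := of_mul g g

theorem pow_sixteen_eq (g : G3) : g ^ 16 =
    ((g * g) * (g * g)) * ((g * g) * (g * g)) * (((g * g) * (g * g)) * ((g * g) * (g * g))) := by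
  simp only [pow_succ, pow_zero, one_mul, mul_assoc]

theorem mem_SD16_of_pow {g : G3} (h1 : g ^ 16 = 1) (h2 : (c0 * g) ^ 16 = 1) : g ∈ SD16 := by
  have key : ∀ a b c d : ZMod 3, a * d - b * c ≠ 0 →
      Q3.sq (Q3.sq (Q3.sq (Q3.sq (a, b, c, d)))) = one →
      Q3.sq (Q3.sq (Q3.sq (Q3.sq (a, b, -c, -d)))) = one → isS (a, b, c, d) = true := by
    decide
  rw [pow_sixteen_eq] at h1 h2
  rw [mem_SD16_iff]
  refine key _ _ _ _ (det_of_ne_zero g) ?_ ?_
  · have := congrArg Q3.of h1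
    rwa [Q3.of_sq, Q3.of_sq, Q3.of_sq, Q3.of_sq, of_one] at this
  · have := congrArg Q3.of h2
    rw [Q3.of_sq, Q3.of_sq, Q3.of_sq, Q3.of_sq, of_one, of_mul, of_c0] at this
    have h3 : ∀ a b c d : ZMod 3, mul (1, 0, 0, -1) (a, b, c, d) = (a, b, -c, -d) := by decide
    have h4 : mul (1, 0, 0, -1) (Q3.of g) = _ := h3 _ _ _ _
    rwa [h4] at this

/-! ### Conjugation -/

/-- the conjugate of a subgroup -/
def conjSub (x : G3) (G : Subgroup G3) : Subgroup G3 := G.map (MulAut.conj x).toMonoidHom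

theorem mem_conj {x g : G3} {G : Subgroup G3} : g ∈ conjSub x G ↔ x⁻¹ * g * x ∈ G := by
  constructor
  · rintro ⟨h, hh, rfl⟩
    have : x⁻¹ * (x * h * x⁻¹) * x = h := by group
    change x⁻¹ * (x * h * x⁻¹) * x ∈ G
    rw [this]
    exact hh
  · intro h
    refine ⟨x⁻¹ * g * x, h, ?_⟩
    change x * (x⁻¹ * g * x) * x⁻¹ = g
    group

theorem conj_mem_conj {x g : G3} {G : Subgroup G3} : x * g * x⁻¹ ∈ conjSub x G ↔ g ∈ G := by
  rw [mem_conj]
  have : x⁻¹ * (x * g * x⁻¹) * x = g := by group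
  rw [this]

theorem NoInvLine.conj {G : Subgroup G3} (h : NoInvLine G) (x : G3) : NoInvLine (conjSub x G) := by
  intro v hv
  have hv' : ((x⁻¹ : G3) : M3) *ᵥ v ≠ 0 := by
    intro h0
    apply hv
    have h1 : (x : M3) *ᵥ (((x⁻¹ : G3) : M3) *ᵥ v) = v := by
      rw [Matrix.mulVec_mulVec, ← Units.val_mul, mul_inv_cancel, Units.val_one, Matrix.one_mulVec]
    rw [← h1, h0, Matrix.mulVec_zero]
  obtain ⟨g, hg, hgv⟩ := h _ hv'
  refine ⟨x * g * x⁻¹, conj_mem_conj.mpr hg, fun c hc => hgv c ?_⟩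
  rw [Units.val_mul, Units.val_mul, ← Matrix.mulVec_mulVec, ← Matrix.mulVec_mulVec] at hc
  have h2 := congrArg (fun w => ((x⁻¹ : G3) : M3) *ᵥ w) hc
  simp only [Matrix.mulVec_mulVec] at h2
  rw [← Matrix.mul_assoc, ← Units.val_mul, inv_mul_cancel, Units.val_one, Matrix.one_mul,
    Matrix.mulVec_smul, ← Matrix.mulVec_mulVec] at h2
  exact h2

theorem isPGroup_conj {G : Subgroup G3} (h : IsPGroup 2 G) (x : G3) : IsPGroup 2 (conjSub x G) :=
  IsPGroup.map h _

/-! ### The subgroups of `SD16` -/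

theorem le_SD16 {G : Subgroup G3} (h : IsPGroup 2 G) (hc : c0 ∈ G) : G ≤ SD16 := fun _ hg =>
  mem_SD16_of_pow (pow_sixteen h hg) (pow_sixteen h (mul_mem hc hg))

theorem SD16_le_of_a8 {G : Subgroup G3} (hc : c0 ∈ G) (ha : a8 ∈ G) : SD16 ≤ G := by
  have key : ∀ a b c d : ZMod 3, isS (a, b, c, d) = true → ∃ k < 8,
      (a, b, c, d) = Q3.pow (1, 1, -1, 1) k ∨
      (a, b, c, d) = mul (1, 0, 0, -1) (Q3.pow (1, 1, -1, 1) k) := by decide
  intro s hs
  obtain ⟨k, _, hk⟩ := key _ _ _ _ (mem_SD16_iff.mp hs)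
  rcases hk with hk | hk
  · have : s = a8 ^ k := by
      apply of_injective
      rw [of_pow, of_a8]
      exact hk
    rw [this]
    exact pow_mem ha k
  · have : s = c0 * a8 ^ k := by
      apply of_injective
      rw [of_mul, of_pow, of_a8, of_c0]
      exact hk
    rw [this]
    exact mul_mem hc (pow_mem ha k)

theorem eq_SD16 {G : Subgroup G3} (h : IsPGroup 2 G) (hc : c0 ∈ G) (hD : ¬ G ≤ D4) : G = SD16 := by
  refine le_antisymm (le_SD16 h hc) (SD16_le_of_a8 hc ?_)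
  have key : ∀ a b c d : ZMod 3, isS (a, b, c, d) = true → isD (a, b, c, d) = false → ∃ k < 8,
      Q3.pow (a, b, c, d) k = (1, 1, -1, 1) ∨
      Q3.pow (mul (1, 0, 0, -1) (a, b, c, d)) k = (1, 1, -1, 1) := by decide
  obtain ⟨g, hg, hgD⟩ := SetLike.not_le_iff_exists.mp hD
  obtain ⟨k, _, hk⟩ := key _ _ _ _ (mem_SD16_iff.mp (le_SD16 h hc hg))
    (by rw [mem_D4_iff, Bool.not_eq_true] at hgD; exact hgD)
  rcases hk with hk | hk
  · have : a8 = g ^ k := by
      apply of_injective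
      rw [of_pow, of_a8]
      exact hk.symm
    rw [this]
    exact pow_mem hg k
  · have : a8 = (c0 * g) ^ k := by
      apply of_injective
      rw [of_pow, of_a8, of_mul, of_c0]
      exact hk.symm
    rw [this]
    exact pow_mem (mul_mem hc hg) k

/-- `x = y ^ k` or `x = c₀ y ^ k` -/
def Q3.gen4 (y x : Q) (k : ℕ) : Bool := x = Q3.pow y k || x = mul (1, 0, 0, -1) (Q3.pow y k)

theorem mem_of_gen4 {G : Subgroup G3} (hc : c0 ∈ G) {g s : G3} (hg : g ∈ G) {k : ℕ}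
    (h : Q3.gen4 (Q3.of g) (Q3.of s) k = true) : s ∈ G := by
  rw [Q3.gen4, Bool.or_eq_true, decide_eq_true_iff, decide_eq_true_iff, ← of_c0, ← of_pow,
    ← of_mul] at h
  rcases h with h | h
  · rw [of_injective h]
    exact pow_mem hg k
  · rw [of_injective h]
    exact mul_mem hc (pow_mem hg k)

theorem eq_D4 {G : Subgroup G3} (h : NoInvLine G) (hc : c0 ∈ G) (hD : G ≤ D4) : G = D4 := by
  refine le_antisymm hD ?_
  obtain ⟨g, hg, hgv⟩ := h ![1, 0] (by decide)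
  have h10 : (g : M3) 1 0 ≠ 0 := by
    intro h0
    apply hgv ((g : M3) 0 0)
    ext i
    fin_cases i
    · simp [Matrix.mulVec, dotProduct, Fin.sum_univ_two]
    · simp [Matrix.mulVec, dotProduct, Fin.sum_univ_two, h0]
  have key : ∀ a b c d : ZMod 3, isD (a, b, c, d) = true → c ≠ 0 → a = 0 ∧ d = 0 ∧ b ≠ 0 := by
    decide
  have key2 : ∀ b c : ZMod 3, b ≠ 0 → c ≠ 0 → ∀ a' b' c' d' : ZMod 3,
      isD (a', b', c', d') = true → (∃ k < 4, Q3.gen4 (0, b, c, 0) (a', b', c', d') k = true) ∨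
        ∃ k < 4, Q3.gen4 (mul (1, 0, 0, -1) (0, b, c, 0)) (a', b', c', d') k = true := by
    decide
  obtain ⟨h1, h2, h3⟩ := key _ _ _ _ (mem_D4_iff.mp (hD hg)) h10
  have hof : Q3.of g = (0, (g : M3) 0 1, (g : M3) 1 0, 0) := by
    change ((g : M3) 0 0, (g : M3) 0 1, (g : M3) 1 0, (g : M3) 1 1) = _
    rw [h1, h2]
  intro s hs
  rcases key2 _ _ h3 h10 _ _ _ _ (mem_D4_iff.mp hs) with ⟨k, _, hk⟩ | ⟨k, _, hk⟩
  · exact mem_of_gen4 hc hg (k := k) (by rw [hof]; exact hk)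
  · exact mem_of_gen4 hc (mul_mem hc hg) (k := k) (by rw [of_mul, of_c0, hof]; exact hk)

/-- A `2`-group without invariant line containing `diag(1, -1)` is `SD16` or `D4`. -/
theorem eq_SD16_or_eq_D4 {G : Subgroup G3} (h : NoInvLine G) (h2 : IsPGroup 2 G) (hc : c0 ∈ G) :
    G = SD16 ∨ G = D4 := by
  by_cases hD : G ≤ D4
  · exact Or.inr (eq_D4 h hc hD)
  · exact Or.inl (eq_SD16 h2 hc hD)

theorem a8_inv_mul_c0_mul_a8 : a8⁻¹ * c0 * a8 = sw := by
  apply of_injective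
  decide

theorem a8_conj_mem_D4 {g : G3} : a8⁻¹ * g * a8 ∈ D4 ↔ g ∈ D4 := by
  have key : ∀ a b c d : ZMod 3,
      isD (mul (mul (-1, 1, -1, -1) (a, b, c, d)) (1, 1, -1, 1)) = isD (a, b, c, d) := by decide
  rw [mem_D4_iff, mem_D4_iff, of_mul, of_mul, of_a8, of_a8_inv]
  have h1 : isD (mul (mul (-1, 1, -1, -1) (Q3.of g)) (1, 1, -1, 1)) = isD (Q3.of g) := key _ _ _ _
  rw [h1]

/-- **The trichotomy**, with the complex conjugation at `diag(1, -1)` in the second case and at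
`diag(1, -1)` or at the exchange of the coordinates, at will, in the third. -/
theorem trichotomy' {G : Subgroup G3} (h : NoInvLine G) {c : G3} (hcG : c ∈ G) (hc : c * c = 1)
    (hd : (c : M3).det = -1) : G = ⊤ ∨
    (∃ x : G3, (∀ g, g ∈ G ↔ x * g * x⁻¹ ∈ SD16) ∧ x * c * x⁻¹ = c0) ∨
    ((∃ x : G3, (∀ g, g ∈ G ↔ x * g * x⁻¹ ∈ D4) ∧ x * c * x⁻¹ = c0) ∧
      ∃ x : G3, (∀ g, g ∈ G ↔ x * g * x⁻¹ ∈ D4) ∧ x * c * x⁻¹ = sw) := by
  rcases eq_top_or_isPGroup h ⟨c, hcG, hd⟩ with h1 | h1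
  · exact Or.inl h1
  · right
    obtain ⟨x, hx⟩ := exists_conj_c0 hc hd
    have hc0 : c0 ∈ conjSub x G := by
      rw [← hx]
      exact conj_mem_conj.mpr hcG
    rcases eq_SD16_or_eq_D4 (h.conj x) (isPGroup_conj h1 x) hc0 with h2 | h2
    · exact Or.inl ⟨x, fun g => by rw [← h2, conj_mem_conj], hx⟩
    · refine Or.inr ⟨⟨x, fun g => by rw [← h2, conj_mem_conj], hx⟩,
        a8⁻¹ * x, fun g => ?_, ?_⟩
      · have h3 : a8⁻¹ * x * g * (a8⁻¹ * x)⁻¹ = a8⁻¹ * (x * g * x⁻¹) * a8 := by group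
        rw [h3, a8_conj_mem_D4, ← h2, conj_mem_conj]
      · have h3 : a8⁻¹ * x * c * (a8⁻¹ * x)⁻¹ = a8⁻¹ * (x * c * x⁻¹) * a8 := by group
        rw [h3, hx, a8_inv_mul_c0_mul_a8]

/-- **The trichotomy** for subgroups of `GL₂(𝔽₃)` without invariant line containing an involution
of determinant `-1`. -/
theorem trichotomy {G : Subgroup G3} (h : NoInvLine G) {c : G3} (hcG : c ∈ G) (hc : c * c = 1)
    (hd : (c : M3).det = -1) : G = ⊤ ∨
    (∃ x : G3, (∀ g, g ∈ G ↔ x * g * x⁻¹ ∈ SD16) ∧ x * c * x⁻¹ = c0) ∨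
    (∃ x : G3, (∀ g, g ∈ G ↔ x * g * x⁻¹ ∈ D4) ∧ x * c * x⁻¹ = sw) := by
  rcases trichotomy' h hcG hc hd with h1 | h1 | h1
  · exact Or.inl h1
  · exact Or.inr (Or.inl h1)
  · exact Or.inr (Or.inr h1.2)

end Fermat.Agent.Classic
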