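import Fermat.Agent.Classic.EndG
import Fermat.Agent.Classic.Group

/-!
# The end game of S47 for every irreducible `ρ`

From a weight one form with `T_p f = ±2 f` at the primes `p` with `ρ(Frob_p) = ±1` to the
conclusion of S47, for every continuous `ρ : G_ℚ → GL₂(𝔽₃)` with cyclotomic determinant and without
invariant line.
-/

set_option autoImplicit false

open WeierstrassCurve FLT.ExplicitLift

namespace Fermat.Agent.Classic

open Fermat.Agent.LT Fermat.Agent.LT.End

local notation "Γℚ" => (AlgebraicClosure ℚ ≃ₐ[ℚ] AlgebraicClosure ℚ)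

/-- The irreducible subgroups of `GL₂(𝔽₃)` with a complex conjugation. -/
theorem eq_top_or_isSmall {G : Subgroup (GL (Fin 2) (ZMod 3))} (h : NoInvLine G)
    {c : GL (Fin 2) (ZMod 3)} (hcG : c ∈ G) (hc : c * c = 1)
    (hd : (c : Matrix (Fin 2) (Fin 2) (ZMod 3)).det = -1) : G = ⊤ ∨ EndG.IsSmall G := by
  rcases trichotomy h hcG hc hd with h1 | ⟨x, hx, -⟩ | ⟨x, hx, -⟩
  · exact Or.inl h1
  · exact Or.inr ((EndG.isSmall_SD fun _ => mem_SD16).of_conj x hx)
  · exact Or.inr ((EndG.isSmall_D4 fun _ => mem_D4).of_conj x hx)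

/-- Complex conjugation under the mod `3` cyclotomic character. -/
theorem modThree_cc : ((modThreeCyclotomicChar complexConjugation : (ZMod 3)ˣ) : ZMod 3) = -1 := by
  rw [modThreeCyclotomicChar_apply]
  refine (modularCyclotomicCharacter.unique _ _ _ fun t ht => ?_).symm
  have ht3 : (t : AlgebraicClosure ℚ) ^ 3 = 1 := by
    rw [← Units.val_pow_eq_pow_val, (mem_rootsOfUnity 3 t).mp ht, Units.val_one]
  exact LTF.Deep.complexConjugation_root (by norm_num : (3 : ℕ) ≠ 0) ht3

section

variable (ρ : Γℚ →* GL (Fin 2) (ZMod 3))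
  (hdet : ∀ σ : Γℚ, Matrix.GeneralLinearGroup.det (ρ σ) = modThreeCyclotomicChar σ)

include hdet

theorem det_cc : (ρ complexConjugation : Matrix (Fin 2) (Fin 2) (ZMod 3)).det = -1 := by
  rw [← modThree_cc, ← hdet]
  rfl

theorem range_eq_top_or_isSmall (hirr : NoInvLine ρ.range) :
    Function.Surjective ρ ∨ EndG.IsSmall ρ.range := by
  rcases eq_top_or_isSmall hirr (c := ρ complexConjugation) ⟨_, rfl⟩
    (by rw [← map_mul, complexConjugation_mul_self, map_one]) (det_cc ρ hdet) with h | h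
  · exact Or.inl (MonoidHom.range_eq_top.mp h)
  · exact Or.inr h

/-- **The Galois half of the end game**, for every `ρ` without invariant line. -/
theorem galoisHalf_of_noInvLine (hρ : Continuous ρ) (hirr : NoInvLine ρ.range)
    (Ψ : GL (Fin 2) (ZMod 3) →* GL (Fin 2) (ℤ√(-2)))
    (hΨ : ∀ g, Matrix.GeneralLinearGroup.map red (Ψ g) = g) : GaloisHalf ρ Ψ := by
  rcases range_eq_top_or_isSmall ρ hdet hirr with h | h
  · exact galoisHalf ρ hρ h hdet Ψ hΨ
  · exact EndG.galoisHalfG ρ hρ h hdet Ψ hΨ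

/-- The conclusion of the Langlands--Tunnell statement for every `ρ` without invariant line, from a
weight one form. -/
theorem concl47_of_noInvLine (hρ : Continuous ρ) (hirr : NoInvLine ρ.range)
    (Ψ : GL (Fin 2) (ZMod 3) →* GL (Fin 2) (ℤ√(-2)))
    (hΨ : ∀ g, Matrix.GeneralLinearGroup.map red (Ψ g) = g) (h : WtOneInput ρ) :
    Concl47 ρ Ψ :=
  concl47_of_input ρ Ψ (galoisHalf_of_noInvLine ρ hdet hρ hirr Ψ hΨ) h

end

end Fermat.Agent.Classic
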