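import Fermat.Agent.Classic.Group

/-!
# The subgroups of `SD16` and `D4` (CL8, second part)

* `C8 = 𝔽₉ˣ ≤ SD16`, cyclic of order `8`, `C4` its squares, `Z2 = {±1}`, `T4` the diagonal
  matrices, of index two in `D4`;
* conjugation, squares, determinants, commutators.
-/

set_option autoImplicit false

namespace Fermat.Agent.Classic

open Matrix Q3

local notation "G3" => GL (Fin 2) (ZMod 3)
local notation "M3" => Matrix (Fin 2) (Fin 2) (ZMod 3)

/-! ### Definitions -/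

/-- in `𝔽₉ˣ` -/
def isC8 (x : Q) : Bool :=
  (x.1 * x.2.2.2 - x.2.1 * x.2.2.1 ≠ 0) && (x.1 = x.2.2.2 && x.2.1 = -x.2.2.1)

/-- a square in `𝔽₉ˣ` -/
def isC4 (x : Q) : Bool :=
  (x.1 * x.2.2.2 - x.2.1 * x.2.2.1 ≠ 0) &&
    ((x.1 = x.2.2.2 && x.2.1 = -x.2.2.1) && (x.1 = 0 || x.2.1 = 0))

/-- diagonal -/
def isT4 (x : Q) : Bool :=
  (x.1 * x.2.2.2 - x.2.1 * x.2.2.1 ≠ 0) && (x.2.1 = 0 && x.2.2.1 = 0)

/-- `±1` -/
def isZ2 (x : Q) : Bool := x = (1, 0, 0, 1) || x = (-1, 0, 0, -1)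

/-- `𝔽₉ˣ` -/
def C8 : Subgroup G3 := mkSub isC8 (by decide) (by decide)

/-- the squares of `𝔽₉ˣ` -/
def C4 : Subgroup G3 := mkSub isC4 (by decide) (by decide)

/-- the diagonal matrices -/
def T4 : Subgroup G3 := mkSub isT4 (by decide) (by decide)

/-- `±1` -/
def Z2 : Subgroup G3 := mkSub isZ2 (by decide) (by decide)

theorem mem_C8_iff {g : G3} : g ∈ C8 ↔ isC8 (Q3.of g) = true := Iff.rfl
theorem mem_C4_iff {g : G3} : g ∈ C4 ↔ isC4 (Q3.of g) = true := Iff.rfl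
theorem mem_T4_iff {g : G3} : g ∈ T4 ↔ isT4 (Q3.of g) = true := Iff.rfl
theorem mem_Z2_iff {g : G3} : g ∈ Z2 ↔ isZ2 (Q3.of g) = true := Iff.rfl

theorem of_neg_one : Q3.of (-1 : G3) = (-1, 0, 0, -1) := by decide

theorem mem_C8 {g : G3} :
    g ∈ C8 ↔ (g : M3) 0 0 = (g : M3) 1 1 ∧ (g : M3) 0 1 = -(g : M3) 1 0 := by
  have key : ∀ a b c d : ZMod 3, a * d - b * c ≠ 0 →
      (isC8 (a, b, c, d) = true ↔ (a = d ∧ b = -c)) := by decide
  exact key _ _ _ _ (det_of_ne_zero g)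

theorem mem_C4 {g : G3} : g ∈ C4 ↔ ((g : M3) 0 0 = (g : M3) 1 1 ∧ (g : M3) 0 1 = -(g : M3) 1 0) ∧
    ((g : M3) 0 0 = 0 ∨ (g : M3) 0 1 = 0) := by
  have key : ∀ a b c d : ZMod 3, a * d - b * c ≠ 0 →
      (isC4 (a, b, c, d) = true ↔ (a = d ∧ b = -c) ∧ (a = 0 ∨ b = 0)) := by decide
  exact key _ _ _ _ (det_of_ne_zero g)

theorem mem_T4 {g : G3} : g ∈ T4 ↔ (g : M3) 0 1 = 0 ∧ (g : M3) 1 0 = 0 := by
  have key : ∀ a b c d : ZMod 3, a * d - b * c ≠ 0 →
      (isT4 (a, b, c, d) = true ↔ (b = 0 ∧ c = 0)) := by decide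
  exact key _ _ _ _ (det_of_ne_zero g)

theorem mem_Z2 {g : G3} : g ∈ Z2 ↔ g = 1 ∨ g = -1 := by
  rw [mem_Z2_iff, isZ2, Bool.or_eq_true, decide_eq_true_iff, decide_eq_true_iff]
  constructor
  · rintro (h | h)
    · exact Or.inl (of_injective (by rw [h, of_one]; rfl))
    · exact Or.inr (of_injective (by rw [h, of_neg_one]))
  · rintro (h | h)
    · left; rw [h, of_one]; rfl
    · right; rw [h, of_neg_one]

/-! ### Inclusions -/

theorem Z2_le_C4 : Z2 ≤ C4 := by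
  have key : ∀ a b c d : ZMod 3, isZ2 (a, b, c, d) = true → isC4 (a, b, c, d) = true := by decide
  exact fun g hg => key _ _ _ _ (mem_Z2_iff.mp hg)

theorem Z2_le_T4 : Z2 ≤ T4 := by
  have key : ∀ a b c d : ZMod 3, isZ2 (a, b, c, d) = true → isT4 (a, b, c, d) = true := by decide
  exact fun g hg => key _ _ _ _ (mem_Z2_iff.mp hg)

theorem T4_le_D4 : T4 ≤ D4 := by
  have key : ∀ a b c d : ZMod 3, isT4 (a, b, c, d) = true → isD (a, b, c, d) = true := by decide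
  exact fun g hg => key _ _ _ _ (mem_T4_iff.mp hg)

theorem C4_le_D4 : C4 ≤ D4 := by
  have key : ∀ a b c d : ZMod 3, isC4 (a, b, c, d) = true → isD (a, b, c, d) = true := by decide
  exact fun g hg => key _ _ _ _ (mem_C4_iff.mp hg)

theorem C4_le_C8 : C4 ≤ C8 := by
  have key : ∀ a b c d : ZMod 3, isC4 (a, b, c, d) = true → isC8 (a, b, c, d) = true := by decide
  exact fun g hg => key _ _ _ _ (mem_C4_iff.mp hg)

theorem C8_le_SD16 : C8 ≤ SD16 := by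
  have key : ∀ a b c d : ZMod 3, isC8 (a, b, c, d) = true → isS (a, b, c, d) = true := by decide
  exact fun g hg => key _ _ _ _ (mem_C8_iff.mp hg)

theorem c0_mem_D4 : c0 ∈ D4 := by
  rw [mem_D4_iff, of_c0]; decide

theorem sw_mem_D4 : sw ∈ D4 := by
  rw [mem_D4_iff, of_sw]; decide

theorem a8_mem_C8 : a8 ∈ C8 := by
  rw [mem_C8_iff, of_a8]; decide

theorem c0_mem_SD16 : c0 ∈ SD16 := D4_le c0_mem_D4
theorem sw_mem_SD16 : sw ∈ SD16 := D4_le sw_mem_D4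
theorem a8_mem_SD16 : a8 ∈ SD16 := C8_le_SD16 a8_mem_C8

theorem c0_mem_T4 : c0 ∈ T4 := by
  rw [mem_T4_iff, of_c0]; decide

theorem sw_notMem_T4 : sw ∉ T4 := by
  rw [mem_T4_iff, of_sw]; decide

theorem c0_notMem_C8 : c0 ∉ C8 := by
  rw [mem_C8_iff, of_c0]; decide

theorem sw_notMem_C8 : sw ∉ C8 := by
  rw [mem_C8_iff, of_sw]; decide

theorem a8_notMem_C4 : a8 ∉ C4 := by
  rw [mem_C4_iff, of_a8]; decide

theorem neg_one_mem_C4 : (-1 : G3) ∈ C4 := Z2_le_C4 (mem_Z2.mpr (Or.inr rfl))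
theorem neg_one_mem_T4 : (-1 : G3) ∈ T4 := Z2_le_T4 (mem_Z2.mpr (Or.inr rfl))
theorem neg_one_mem_D4 : (-1 : G3) ∈ D4 := C4_le_D4 neg_one_mem_C4
theorem neg_one_mem_SD16 : (-1 : G3) ∈ SD16 := D4_le neg_one_mem_D4

/-! ### `𝔽₉ˣ` is cyclic -/

theorem exists_pow_of_mem_C8 {g : G3} (hg : g ∈ C8) : ∃ k < 8, g = a8 ^ k := by
  have key : ∀ a b c d : ZMod 3, isC8 (a, b, c, d) = true → ∃ k < 8,
      (a, b, c, d) = Q3.pow (1, 1, -1, 1) k := by decide
  obtain ⟨k, hk, h⟩ := key _ _ _ _ (mem_C8_iff.mp hg)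
  refine ⟨k, hk, of_injective ?_⟩
  rw [of_pow, of_a8]
  exact h

theorem C8_eq_zpowers : C8 = Subgroup.zpowers a8 := by
  refine le_antisymm (fun g hg => ?_) (by
    rw [Subgroup.zpowers_le]
    exact a8_mem_C8)
  obtain ⟨k, _, rfl⟩ := exists_pow_of_mem_C8 hg
  exact Subgroup.npow_mem_zpowers _ _

theorem orderOf_a8 : orderOf a8 = 8 := by
  have h8 : a8 ^ 8 = 1 := by
    apply of_injective
    rw [of_pow, of_a8, of_one]
    decide
  have h4 : a8 ^ 4 ≠ 1 := by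
    intro h
    have h1 := congrArg Q3.of h
    rw [of_pow, of_a8, of_one] at h1
    revert h1
    decide
  exact orderOf_eq_prime_pow (p := 2) (n := 2) h4 h8

theorem natCard_C8 : Nat.card C8 = 8 := by
  rw [C8_eq_zpowers, Nat.card_zpowers, orderOf_a8]

theorem mul_comm_of_mem_C8 {g h : G3} (hg : g ∈ C8) (hh : h ∈ C8) : g * h = h * g := by
  obtain ⟨k, _, rfl⟩ := exists_pow_of_mem_C8 hg
  obtain ⟨l, _, rfl⟩ := exists_pow_of_mem_C8 hh
  rw [← pow_add, ← pow_add, add_comm]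

theorem mem_C4_iff_det {g : G3} (hg : g ∈ C8) : g ∈ C4 ↔ (g : M3).det = 1 := by
  have key : ∀ a b c d : ZMod 3, isC8 (a, b, c, d) = true →
      (isC4 (a, b, c, d) = true ↔ a * d - b * c = 1) := by decide
  rw [← det_of]
  exact key _ _ _ _ (mem_C8_iff.mp hg)

theorem mem_C4_iff_exists_sq {g : G3} : g ∈ C4 ↔ ∃ h ∈ C8, g = h * h := by
  constructor
  · intro hg
    have key : ∀ a b c d : ZMod 3, isC4 (a, b, c, d) = true → ∃ p q : ZMod 3,
        p * p - q * -q ≠ 0 ∧ (a, b, c, d) = mul (p, q, -q, p) (p, q, -q, p) := by decide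
    have key2 : ∀ p q : ZMod 3, p * p - q * -q ≠ 0 → isC8 (p, q, -q, p) = true := by decide
    obtain ⟨p, q, h1, h2⟩ := key _ _ _ _ (mem_C4_iff.mp hg)
    obtain ⟨h, hh⟩ := exists_of (p, q, -q, p) h1
    refine ⟨h, ?_, ?_⟩
    · rw [mem_C8_iff, hh]
      exact key2 _ _ h1
    · apply of_injective
      rw [of_mul, hh]
      exact h2
  · rintro ⟨h, hh, rfl⟩
    rw [mem_C4_iff_det (mul_mem hh hh), Units.val_mul, Matrix.det_mul]
    have key : ∀ x : ZMod 3, x ≠ 0 → x * x = 1 := by decide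
    apply key
    exact ((Matrix.isUnit_iff_isUnit_det _).mp h.isUnit).ne_zero

theorem sq_mem_Z2_iff {g : G3} (hg : g ∈ C8) : g ∈ C4 ↔ g * g ∈ Z2 := by
  have key : ∀ a b c d : ZMod 3, isC8 (a, b, c, d) = true →
      (isC4 (a, b, c, d) = true ↔ isZ2 (mul (a, b, c, d) (a, b, c, d)) = true) := by decide
  rw [mem_C4_iff, mem_Z2_iff, of_mul]
  exact key _ _ _ _ (mem_C8_iff.mp hg)

/-! ### Index two -/

theorem mul_mem_C8 {g h : G3} (hg : g ∈ SD16) (hh : h ∈ SD16) (hg' : g ∉ C8) (hh' : h ∉ C8) :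
    g * h ∈ C8 := by
  have key : ∀ a b c d : ZMod 3, isS (a, b, c, d) = true → isC8 (a, b, c, d) = false →
      ∀ a' b' c' d' : ZMod 3, isS (a', b', c', d') = true → isC8 (a', b', c', d') = false →
        isC8 (mul (a, b, c, d) (a', b', c', d')) = true := by decide
  rw [mem_C8_iff, Bool.not_eq_true] at hg' hh'
  rw [mem_C8_iff, of_mul]
  exact key _ _ _ _ hg hg' _ _ _ _ hh hh'

theorem mul_mem_C4 {g h : G3} (hg : g ∈ C8) (hh : h ∈ C8) (hg' : g ∉ C4) (hh' : h ∉ C4) :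
    g * h ∈ C4 := by
  have key : ∀ a b c d : ZMod 3, isC8 (a, b, c, d) = true → isC4 (a, b, c, d) = false →
      ∀ a' b' c' d' : ZMod 3, isC8 (a', b', c', d') = true → isC4 (a', b', c', d') = false →
        isC4 (mul (a, b, c, d) (a', b', c', d')) = true := by decide
  rw [mem_C4_iff, Bool.not_eq_true] at hg' hh'
  rw [mem_C4_iff, of_mul]
  exact key _ _ _ _ hg hg' _ _ _ _ hh hh'

theorem mul_mem_T4 {g h : G3} (hg : g ∈ D4) (hh : h ∈ D4) (hg' : g ∉ T4) (hh' : h ∉ T4) :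
    g * h ∈ T4 := by
  have key : ∀ a b c d : ZMod 3, isD (a, b, c, d) = true → isT4 (a, b, c, d) = false →
      ∀ a' b' c' d' : ZMod 3, isD (a', b', c', d') = true → isT4 (a', b', c', d') = false →
        isT4 (mul (a, b, c, d) (a', b', c', d')) = true := by decide
  rw [mem_T4_iff, Bool.not_eq_true] at hg' hh'
  rw [mem_T4_iff, of_mul]
  exact key _ _ _ _ hg hg' _ _ _ _ hh hh'

/-! ### Conjugation and squares -/

/-- outside `𝔽₉ˣ`, conjugation is the Frobenius `g ↦ g ^ 3` -/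
theorem conj_C8_of_notMem {s g : G3} (hs : s ∈ SD16) (hs' : s ∉ C8) (hg : g ∈ C8) :
    s * g * s⁻¹ = g ^ 3 := by
  have key : ∀ a b c d : ZMod 3, isS (a, b, c, d) = true → isC8 (a, b, c, d) = false →
      ∀ a' b' c' d' : ZMod 3, isC8 (a', b', c', d') = true →
        mul (a, b, c, d) (a', b', c', d') =
          mul (Q3.pow (a', b', c', d') 3) (a, b, c, d) := by decide
  rw [mem_C8_iff, Bool.not_eq_true] at hs'
  rw [mul_inv_eq_iff_eq_mul]
  apply of_injective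
  rw [of_mul, of_mul, of_pow]
  exact key _ _ _ _ hs hs' _ _ _ _ hg

theorem conj_C8_of_mem {s g : G3} (hs : s ∈ C8) (hg : g ∈ C8) : s * g * s⁻¹ = g := by
  rw [mul_comm_of_mem_C8 hs hg, mul_inv_cancel_right]

theorem conj_mem_C8 {s g : G3} (hs : s ∈ SD16) (hg : g ∈ C8) : s * g * s⁻¹ ∈ C8 := by
  by_cases h : s ∈ C8
  · rw [conj_C8_of_mem h hg]; exact hg
  · rw [conj_C8_of_notMem hs h hg]; exact pow_mem hg 3

theorem conj_mem_C4 {s g : G3} (hs : s ∈ SD16) (hg : g ∈ C4) : s * g * s⁻¹ ∈ C4 := by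
  by_cases h : s ∈ C8
  · rw [conj_C8_of_mem h (C4_le_C8 hg)]; exact hg
  · rw [conj_C8_of_notMem hs h (C4_le_C8 hg)]; exact pow_mem hg 3

/-- on the elements of order four, conjugation from outside `𝔽₉ˣ` is the inversion -/
theorem conj_C4_of_notMem {s g : G3} (hs : s ∈ SD16) (hs' : s ∉ C8) (hg : g ∈ C4) :
    s * g * s⁻¹ = g⁻¹ := by
  rw [conj_C8_of_notMem hs hs' (C4_le_C8 hg), eq_inv_iff_mul_eq_one]
  have key : ∀ a b c d : ZMod 3, isC4 (a, b, c, d) = true →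
      mul (Q3.pow (a, b, c, d) 3) (a, b, c, d) = one := by decide
  apply of_injective
  rw [of_mul, of_pow, of_one]
  exact key _ _ _ _ hg

theorem sq_of_notMem_C8 {s : G3} (hs : s ∈ SD16) (hs' : s ∉ C8) :
    s * s = 1 ∧ (s : M3).det = -1 ∨ s * s = -1 ∧ (s : M3).det = 1 := by
  have key : ∀ a b c d : ZMod 3, isS (a, b, c, d) = true → isC8 (a, b, c, d) = false →
      (mul (a, b, c, d) (a, b, c, d) = one ∧ a * d - b * c = -1) ∨
      (mul (a, b, c, d) (a, b, c, d) = (-1, 0, 0, -1) ∧ a * d - b * c = 1) := by decide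
  rw [mem_C8_iff, Bool.not_eq_true] at hs'
  rw [← det_of]
  rcases key _ _ _ _ hs hs' with ⟨h1, h2⟩ | ⟨h1, h2⟩
  · refine Or.inl ⟨of_injective ?_, h2⟩
    rw [of_mul, of_one]
    exact h1
  · refine Or.inr ⟨of_injective ?_, h2⟩
    rw [of_mul, of_neg_one]
    exact h1

theorem conj_T4 {s g : G3} (hs : s ∈ D4) (hs' : s ∉ T4) (hg : g ∈ T4) :
    ((s * g * s⁻¹ : G3) : M3) = !![(g : M3) 1 1, 0; 0, (g : M3) 0 0] := by
  have key : ∀ a b c d : ZMod 3, isD (a, b, c, d) = true → isT4 (a, b, c, d) = false →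
      ∀ a' b' c' d' : ZMod 3, isT4 (a', b', c', d') = true → a' * d' - b' * c' ≠ 0 ∧
        d' * a' - 0 * 0 ≠ 0 ∧
        mul (a, b, c, d) (a', b', c', d') = mul (d', 0, 0, a') (a, b, c, d) := by decide
  rw [mem_T4_iff, Bool.not_eq_true] at hs'
  obtain ⟨_, h2, h3⟩ := key _ _ _ _ hs hs' _ _ _ _ hg
  obtain ⟨t, ht⟩ := exists_of ((g : M3) 1 1, 0, 0, (g : M3) 0 0) h2
  have h4 : s * g * s⁻¹ = t := by
    rw [mul_inv_eq_iff_eq_mul]
    apply of_injective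
    rw [of_mul, of_mul, ht]
    exact h3
  rw [h4]
  exact ofM_injective ht

/-! ### Commutators -/

theorem commutator_c0_sw : c0 * sw * c0⁻¹ * sw⁻¹ = -1 := by
  apply of_injective
  decide

theorem commutator_sw_c0 : sw * c0 * sw⁻¹ * c0⁻¹ = -1 := by
  apply of_injective
  decide

/-- `-1` is a commutator in every group between `D4` and everything. -/
theorem exists_commutator {G H : Subgroup G3} (hH : D4 ≤ H) {x : G3}
    (h : ∀ g, g ∈ G ↔ x * g * x⁻¹ ∈ H) : ∃ g ∈ G, ∃ k ∈ G, g * k * g⁻¹ * k⁻¹ = -1 := by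
  refine ⟨x⁻¹ * c0 * x, ?_, x⁻¹ * sw * x, ?_, ?_⟩
  · rw [h]
    have : x * (x⁻¹ * c0 * x) * x⁻¹ = c0 := by group
    rw [this]
    exact hH c0_mem_D4
  · rw [h]
    have : x * (x⁻¹ * sw * x) * x⁻¹ = sw := by group
    rw [this]
    exact hH sw_mem_D4
  · have h1 : x⁻¹ * c0 * x * (x⁻¹ * sw * x) * (x⁻¹ * c0 * x)⁻¹ * (x⁻¹ * sw * x)⁻¹ =
        x⁻¹ * (c0 * sw * c0⁻¹ * sw⁻¹) * x := by group
    rw [h1, commutator_c0_sw, mul_neg, neg_mul, mul_one, inv_mul_cancel]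

/-- **`-1` is a commutator** in every subgroup of `GL₂(𝔽₃)` without invariant line containing an
involution of determinant `-1`. -/
theorem exists_commutator_of_noInvLine {G : Subgroup G3} (h : NoInvLine G) {c : G3} (hcG : c ∈ G)
    (hc : c * c = 1) (hd : (c : M3).det = -1) :
    ∃ g ∈ G, ∃ k ∈ G, g * k * g⁻¹ * k⁻¹ = -1 := by
  rcases trichotomy h hcG hc hd with h1 | ⟨x, h1, _⟩ | ⟨x, h1, _⟩
  · exact exists_commutator (H := ⊤) (x := 1) le_top fun g => by simp [h1]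
  · exact exists_commutator D4_le h1
  · exact exists_commutator le_rfl h1

/-! ### Cardinalities -/

theorem natCard_of_index_two {H K : Subgroup G3} (hle : H ≤ K) {c : G3} (hcK : c ∈ K)
    (hcH : c ∉ H) (hmul : ∀ g h : G3, g ∈ K → h ∈ K → g ∉ H → h ∉ H → g * h ∈ H) :
    Nat.card K = 2 * Nat.card H := by
  have h1 : (H.subgroupOf K).index = 2 := by
    rw [Subgroup.index_eq_two_iff]
    refine ⟨⟨c, hcK⟩, fun b => ?_⟩
    rw [Subgroup.mem_subgroupOf, Subgroup.mem_subgroupOf]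
    by_cases hb : (b : G3) ∈ H
    · refine Or.inr ⟨hb, fun h => hcH ?_⟩
      exact (Subgroup.mul_mem_cancel_left H hb).mp h
    · exact Or.inl ⟨hmul _ _ b.2 hcK hb hcH, hb⟩
  have h2 := (H.subgroupOf K).index_mul_card
  rw [h1] at h2
  rw [← h2]
  congr 1
  exact Nat.card_congr (Subgroup.subgroupOfEquivOfLe hle).toEquiv

theorem natCard_SD16 : Nat.card SD16 = 16 := by
  rw [natCard_of_index_two C8_le_SD16 c0_mem_SD16 c0_notMem_C8
    (fun g h hg hh hg' hh' => mul_mem_C8 hg hh hg' hh'), natCard_C8]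

theorem natCard_C4 : Nat.card C4 = 4 := by
  have := natCard_of_index_two C4_le_C8 a8_mem_C8 a8_notMem_C4
    (fun g h hg hh hg' hh' => mul_mem_C4 hg hh hg' hh')
  rw [natCard_C8] at this
  omega

end Fermat.Agent.Classic
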