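import Fermat.Prelude.Def_LanglandsTunnell_ExplicitLift
import Mathlib.LinearAlgebra.Matrix.GeneralLinearGroup.Defs
import Mathlib.Algebra.Field.ZMod

/-!
# The section of `GL₂(ℤ[√-2]) → GL₂(𝔽₃)`

`exists_section`: there is a homomorphism `Ψ : GL₂(𝔽₃) → GL₂(ℤ[√-2])` with `red ∘ Ψ = id`.
It is given by a table of 48 matrices; the table is compatible with left multiplication by the two
generators `sbar`, `tbar`, and every element is a word in the generators (all three facts are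
decided by the kernel).
-/

set_option autoImplicit false
set_option maxRecDepth 20000

open Matrix Zsqrtd FLT.ExplicitLift

namespace Fermat.Agent.Classic

/-- Matrices over `ℤ[√-2]`: `(a + a'√-2, b + b'√-2; c + c'√-2, d + d'√-2)`. -/
structure Ent : Type where
  /-- entry -/
  a : ℤ
  /-- entry -/
  a' : ℤ
  /-- entry -/
  b : ℤ
  /-- entry -/
  b' : ℤ
  /-- entry -/
  c : ℤ
  /-- entry -/
  c' : ℤ
  /-- entry -/
  d : ℤ
  /-- entry -/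
  d' : ℤ
deriving DecidableEq

/-- The table. -/
def secTab : List Ent := [
  ⟨0, 0, 0, 0, 0, 0, 0, 0⟩,
  ⟨0, 0, 0, 0, 0, 0, 0, 0⟩,
  ⟨0, 0, 0, 0, 0, 0, 0, 0⟩,
  ⟨0, 0, 0, 0, 0, 0, 0, 0⟩,
  ⟨0, 0, 0, 0, 0, 0, 0, 0⟩,
  ⟨0, 0, 0, 0, 0, 0, 0, 0⟩,
  ⟨0, 0, 0, 0, 0, 0, 0, 0⟩,
  ⟨0, 0, 0, 0, 0, 0, 0, 0⟩,
  ⟨0, 0, 0, 0, 0, 0, 0, 0⟩,
  ⟨0, 0, 0, 0, 0, 0, 0, 0⟩,
  ⟨0, 0, 0, 0, 0, 0, 0, 0⟩,
  ⟨0, 0, 0, 0, 0, 0, 0, 0⟩,
  ⟨-1, -1, -1, 1, -2, 0, 1, 1⟩,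
  ⟨0, 0, 1, 0, 1, 0, 0, -1⟩,
  ⟨1, 1, 0, -1, 1, 0, -1, 0⟩,
  ⟨1, 1, 0, -1, 2, 0, -1, -1⟩,
  ⟨0, 0, 1, 0, -1, 0, 1, 0⟩,
  ⟨-1, -1, -1, 1, -1, 0, 0, 1⟩,
  ⟨0, 0, 0, 0, 0, 0, 0, 0⟩,
  ⟨0, 0, 0, 0, 0, 0, 0, 0⟩,
  ⟨0, 0, 0, 0, 0, 0, 0, 0⟩,
  ⟨-1, -1, 0, 1, -2, 0, 1, 1⟩,
  ⟨1, 1, 1, -1, 1, 0, 0, -1⟩,
  ⟨0, 0, -1, 0, 1, 0, -1, 0⟩,
  ⟨1, 1, 1, -1, 2, 0, -1, -1⟩,
  ⟨-1, -1, 0, 1, -1, 0, 1, 0⟩,
  ⟨0, 0, -1, 0, -1, 0, 0, 1⟩,
  ⟨0, 0, 0, 0, 0, 0, 0, 0⟩,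
  ⟨1, 0, 0, 0, 0, 0, 1, 0⟩,
  ⟨1, 0, -1, -1, 0, 0, -1, 0⟩,
  ⟨0, 0, 0, 0, 0, 0, 0, 0⟩,
  ⟨-2, 0, 1, 1, -1, 1, 1, 0⟩,
  ⟨-2, 0, 1, 1, -1, 1, 2, 0⟩,
  ⟨0, 0, 0, 0, 0, 0, 0, 0⟩,
  ⟨1, 0, -1, -1, 1, -1, -2, 0⟩,
  ⟨1, 0, 0, 0, 1, -1, -1, 0⟩,
  ⟨0, 0, 0, 0, 0, 0, 0, 0⟩,
  ⟨-1, 1, 1, 0, 1, 1, 0, -1⟩,
  ⟨0, -1, -1, 1, -1, -1, 0, 1⟩,
  ⟨1, 0, 0, -1, 1, 0, -1, -1⟩,
  ⟨0, 0, 0, 0, 0, 0, 0, 0⟩,
  ⟨1, 0, 0, -1, 0, -1, -1, 0⟩,
  ⟨0, -1, -1, 1, -1, 0, 1, 1⟩,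
  ⟨-1, 1, 1, 0, 0, 1, 1, 0⟩,
  ⟨0, 0, 0, 0, 0, 0, 0, 0⟩,
  ⟨0, 0, 0, 0, 0, 0, 0, 0⟩,
  ⟨0, -1, -1, 0, -1, -1, -1, 1⟩,
  ⟨-1, 1, 2, 0, 1, 1, 1, -1⟩,
  ⟨1, 0, -1, 0, 1, 0, 0, 0⟩,
  ⟨1, 0, -1, 0, 0, -1, -1, 1⟩,
  ⟨0, 0, 0, 0, 0, 0, 0, 0⟩,
  ⟨0, -1, -1, 0, -1, 0, 0, 0⟩,
  ⟨0, 0, 0, 0, 0, 0, 0, 0⟩,
  ⟨-1, 1, 2, 0, 0, 1, 1, -1⟩,
  ⟨0, 0, 0, 0, 0, 0, 0, 0⟩,
  ⟨-1, 0, 1, 1, 0, 0, 1, 0⟩,
  ⟨-1, 0, 0, 0, 0, 0, -1, 0⟩,
  ⟨0, 0, 0, 0, 0, 0, 0, 0⟩,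
  ⟨-1, 0, 0, 0, -1, 1, 1, 0⟩,
  ⟨-1, 0, 1, 1, -1, 1, 2, 0⟩,
  ⟨0, 0, 0, 0, 0, 0, 0, 0⟩,
  ⟨2, 0, -1, -1, 1, -1, -2, 0⟩,
  ⟨2, 0, -1, -1, 1, -1, -1, 0⟩,
  ⟨0, 0, 0, 0, 0, 0, 0, 0⟩,
  ⟨1, -1, -2, 0, -1, -1, -1, 1⟩,
  ⟨0, 1, 1, 0, 1, 1, 1, -1⟩,
  ⟨0, 1, 1, 0, 1, 0, 0, 0⟩,
  ⟨1, -1, -2, 0, 0, -1, -1, 1⟩,
  ⟨0, 0, 0, 0, 0, 0, 0, 0⟩,
  ⟨-1, 0, 1, 0, -1, 0, 0, 0⟩,
  ⟨0, 0, 0, 0, 0, 0, 0, 0⟩,
  ⟨-1, 0, 1, 0, 0, 1, 1, -1⟩,
  ⟨0, 0, 0, 0, 0, 0, 0, 0⟩,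
  ⟨0, 1, 1, -1, 1, 1, 0, -1⟩,
  ⟨1, -1, -1, 0, -1, -1, 0, 1⟩,
  ⟨0, 1, 1, -1, 1, 0, -1, -1⟩,
  ⟨0, 0, 0, 0, 0, 0, 0, 0⟩,
  ⟨1, -1, -1, 0, 0, -1, -1, 0⟩,
  ⟨-1, 0, 0, 1, -1, 0, 1, 1⟩,
  ⟨-1, 0, 0, 1, 0, 1, 1, 0⟩,
  ⟨0, 0, 0, 0, 0, 0, 0, 0⟩]

/-- The words. -/
def secWord : List (List Bool) := [
  [],
  [],
  [],
  [],
  [],
  [],
  [],
  [],
  [],
  [],
  [],
  [],
  [true, false, true, false, false],
  [false, true],
  [true, true, false, false, false, true],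
  [false, false],
  [false, false, false, false, true, true],
  [true, false, true, false, true],
  [],
  [],
  [],
  [false, true, false, false, false, true],
  [false, false, true, false, false],
  [true, true],
  [false, false, true, false, true],
  [true, false],
  [true, false, false, false, true, true],
  [],
  [],
  [true, false, true],
  [],
  [true, true, false, false],
  [true, false, false, true, false],
  [],
  [true, true, false, true, false],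
  [true, false, false, false],
  [],
  [false, true, false, true, true],
  [false, false, false, true],
  [false, false, false, true, true],
  [],
  [false, true, false, true],
  [false, true, false],
  [false, false, false],
  [],
  [],
  [false, false, true, true],
  [false, true, false, false, true],
  [false, false, false, false, true],
  [false],
  [],
  [true, true, false, false, false],
  [],
  [true, false, true, false],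
  [],
  [false, true, false, true, false],
  [false, false, false, false],
  [],
  [false, true, true],
  [false, false, true],
  [],
  [false, true, false, false],
  [false, false, false, true, false],
  [],
  [false, false, true, false],
  [false, true, false, false, false],
  [true, false, true, true],
  [true, true, false, false, true],
  [],
  [true],
  [],
  [true, false, false, false, true],
  [],
  [true, true, false],
  [true, false, false],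
  [true, false, false, true],
  [],
  [true, true, false, true, true],
  [true, true, false, true],
  [true, false, false, true, true],
  []]

/-- The position in the tables. -/
def secIx (a b c d : ZMod 3) : ℕ := 27 * a.val + 9 * b.val + 3 * c.val + d.val

/-- The lift of `(a b; c d)`. -/
def secEnt (a b c d : ZMod 3) : Ent := secTab.getD (secIx a b c d) ⟨0, 0, 0, 0, 0, 0, 0, 0⟩

/-- Left multiplication by `Slift`. -/
def mulS (x : Ent) : Ent :=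
  ⟨-x.a + x.c, -x.a' + x.c', -x.b + x.d, -x.b' + x.d', -x.a, -x.a', -x.b, -x.b'⟩

/-- Left multiplication by `Tlift`. -/
def mulT (x : Ent) : Ent :=
  ⟨x.a - x.c, x.a' - x.c', x.b - x.d, x.b' - x.d', 2 * x.a' - x.c - 2 * x.c', -x.a - x.c' + x.c,
    2 * x.b' - x.d - 2 * x.d', -x.b - x.d' + x.d⟩

/-- The product of a word in `sbar`, `tbar`. -/
def evalW : List Bool → ZMod 3 × ZMod 3 × ZMod 3 × ZMod 3
  | [] => (1, 0, 0, 1)
  | true :: l => match evalW l with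
    | (a, b, c, d) => (-a + c, -b + d, -a, -b)
  | false :: l => match evalW l with
    | (a, b, c, d) => (a - c, b - d, a + c, b + d)

theorem secEnt_one : secEnt 1 0 0 1 = ⟨1, 0, 0, 0, 0, 0, 1, 0⟩ := by decide

theorem secEnt_s : ∀ a b c d : ZMod 3, a * d - b * c ≠ 0 →
    secEnt (-a + c) (-b + d) (-a) (-b) = mulS (secEnt a b c d) := by decide

theorem secEnt_t : ∀ a b c d : ZMod 3, a * d - b * c ≠ 0 →
    secEnt (a - c) (b - d) (a + c) (b + d) = mulT (secEnt a b c d) := by decide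

theorem evalW_word : ∀ a b c d : ZMod 3, a * d - b * c ≠ 0 →
    evalW (secWord.getD (secIx a b c d) []) = (a, b, c, d) := by decide

theorem secEnt_red : ∀ a b c d : ZMod 3, a * d - b * c ≠ 0 →
    (((secEnt a b c d).a - (secEnt a b c d).a' : ℤ) : ZMod 3) = a ∧
    (((secEnt a b c d).b - (secEnt a b c d).b' : ℤ) : ZMod 3) = b ∧
    (((secEnt a b c d).c - (secEnt a b c d).c' : ℤ) : ZMod 3) = c ∧
    (((secEnt a b c d).d - (secEnt a b c d).d' : ℤ) : ZMod 3) = d := by decide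

/-- The matrix. -/
def Ent.toM (x : Ent) : Matrix (Fin 2) (Fin 2) (ℤ√(-2)) :=
  !![⟨x.a, x.a'⟩, ⟨x.b, x.b'⟩; ⟨x.c, x.c'⟩, ⟨x.d, x.d'⟩]

theorem toM_mulS (x : Ent) : (mulS x).toM = Slift * x.toM := by
  rw [Ent.toM, Ent.toM, Slift, Matrix.mul_fin_two, mulS]
  ext i j <;> fin_cases i <;> fin_cases j <;> simp

theorem toM_mulT (x : Ent) : (mulT x).toM = Tlift * x.toM := by
  rw [Ent.toM, Ent.toM, Tlift, Matrix.mul_fin_two, mulT]
  ext i j <;> fin_cases i <;> fin_cases j <;> simp <;> ring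

/-- The lift of a matrix. -/
def secMat (g : Matrix (Fin 2) (Fin 2) (ZMod 3)) : Matrix (Fin 2) (Fin 2) (ℤ√(-2)) :=
  (secEnt (g 0 0) (g 0 1) (g 1 0) (g 1 1)).toM

/-- `sbar` as an element of `GL₂(𝔽₃)`. -/
def sG : GL (Fin 2) (ZMod 3) := ⟨sbar, !![0, -1; 1, -1], by decide, by decide⟩

/-- `tbar` as an element of `GL₂(𝔽₃)`. -/
def tG : GL (Fin 2) (ZMod 3) := ⟨tbar, !![-1, -1; 1, -1], by decide, by decide⟩

theorem det_ne (g : GL (Fin 2) (ZMod 3)) : g 0 0 * g 1 1 - g 0 1 * g 1 0 ≠ 0 := by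
  have h := g.isUnit.map (Matrix.detMonoidHom)
  have h2 : Matrix.det (g : Matrix (Fin 2) (Fin 2) (ZMod 3)) ≠ 0 := h.ne_zero
  rwa [Matrix.det_fin_two] at h2

theorem secMat_sG (g : GL (Fin 2) (ZMod 3)) :
    secMat ((sG * g : GL (Fin 2) (ZMod 3)) : Matrix _ _ (ZMod 3)) = Slift * secMat g := by
  have h := secEnt_s _ _ _ _ (det_ne g)
  have e : ((sG * g : GL (Fin 2) (ZMod 3)) : Matrix _ _ (ZMod 3)) =
      !![-(g 0 0) + g 1 0, -(g 0 1) + g 1 1; -(g 0 0), -(g 0 1)] := by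
    change sbar * (g : Matrix (Fin 2) (Fin 2) (ZMod 3)) = _
    rw [sbar]
    ext i j
    fin_cases i <;> fin_cases j <;> simp [Matrix.mul_apply, Fin.sum_univ_two]
  rw [e, secMat, secMat, ← toM_mulS, ← h]
  rfl

theorem secMat_tG (g : GL (Fin 2) (ZMod 3)) :
    secMat ((tG * g : GL (Fin 2) (ZMod 3)) : Matrix _ _ (ZMod 3)) = Tlift * secMat g := by
  have h := secEnt_t _ _ _ _ (det_ne g)
  have e : ((tG * g : GL (Fin 2) (ZMod 3)) : Matrix _ _ (ZMod 3)) =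
      !![g 0 0 - g 1 0, g 0 1 - g 1 1; g 0 0 + g 1 0, g 0 1 + g 1 1] := by
    change tbar * (g : Matrix (Fin 2) (Fin 2) (ZMod 3)) = _
    rw [tbar]
    ext i j
    fin_cases i <;> fin_cases j <;> simp [Matrix.mul_apply, Fin.sum_univ_two, sub_eq_add_neg]
  rw [e, secMat, secMat, ← toM_mulT, ← h]
  rfl

/-- A word as an element of `GL₂(𝔽₃)`. -/
def wordG : List Bool → GL (Fin 2) (ZMod 3)
  | [] => 1
  | true :: l => sG * wordG l
  | false :: l => tG * wordG l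

/-- A word as a matrix over `ℤ[√-2]`. -/
def wordZ : List Bool → Matrix (Fin 2) (Fin 2) (ℤ√(-2))
  | [] => 1
  | true :: l => Slift * wordZ l
  | false :: l => Tlift * wordZ l

theorem secMat_wordG (l : List Bool) (h : GL (Fin 2) (ZMod 3)) :
    secMat ((wordG l * h : GL (Fin 2) (ZMod 3)) : Matrix _ _ (ZMod 3)) = wordZ l * secMat h := by
  induction l with
  | nil => rw [wordG, wordZ, one_mul, one_mul]
  | cons x l ih =>
    cases x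
    · rw [wordG, wordZ, mul_assoc, secMat_tG, ih, Matrix.mul_assoc]
    · rw [wordG, wordZ, mul_assoc, secMat_sG, ih, Matrix.mul_assoc]

theorem secMat_one : secMat ((1 : GL (Fin 2) (ZMod 3)) : Matrix _ _ (ZMod 3)) = 1 := by
  have h := secEnt_one
  change (secEnt 1 0 0 1).toM = 1
  rw [h, Ent.toM]
  ext i j <;> fin_cases i <;> fin_cases j <;> simp

theorem evalW_eq (l : List Bool) : evalW l =
    ((wordG l) 0 0, (wordG l) 0 1, (wordG l) 1 0, (wordG l) 1 1) := by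
  induction l with
  | nil => rfl
  | cons x l ih =>
    cases x
    · rw [evalW, ih, wordG]
      change _ = ((tbar * (wordG l : Matrix (Fin 2) (Fin 2) (ZMod 3))) 0 0,
        (tbar * (wordG l : Matrix (Fin 2) (Fin 2) (ZMod 3))) 0 1,
        (tbar * (wordG l : Matrix (Fin 2) (Fin 2) (ZMod 3))) 1 0,
        (tbar * (wordG l : Matrix (Fin 2) (Fin 2) (ZMod 3))) 1 1)
      simp [tbar, Matrix.mul_apply, Fin.sum_univ_two, sub_eq_add_neg]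
    · rw [evalW, ih, wordG]
      change _ = ((sbar * (wordG l : Matrix (Fin 2) (Fin 2) (ZMod 3))) 0 0,
        (sbar * (wordG l : Matrix (Fin 2) (Fin 2) (ZMod 3))) 0 1,
        (sbar * (wordG l : Matrix (Fin 2) (Fin 2) (ZMod 3))) 1 0,
        (sbar * (wordG l : Matrix (Fin 2) (Fin 2) (ZMod 3))) 1 1)
      simp [sbar, Matrix.mul_apply, Fin.sum_univ_two]

theorem exists_word (g : GL (Fin 2) (ZMod 3)) : ∃ l, wordG l = g := by
  have h := evalW_word _ _ _ _ (det_ne g)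
  rw [evalW_eq] at h
  simp only [Prod.mk.injEq] at h
  refine ⟨secWord.getD (secIx (g 0 0) (g 0 1) (g 1 0) (g 1 1)) [], Units.ext ?_⟩
  ext i j
  fin_cases i <;> fin_cases j
  · exact h.1
  · exact h.2.1
  · exact h.2.2.1
  · exact h.2.2.2

theorem secMat_mul (g h : GL (Fin 2) (ZMod 3)) :
    secMat ((g * h : GL (Fin 2) (ZMod 3)) : Matrix _ _ (ZMod 3)) = secMat g * secMat h := by
  obtain ⟨l, rfl⟩ := exists_word g
  have h1 := secMat_wordG l 1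
  rw [mul_one, secMat_one, mul_one] at h1
  rw [secMat_wordG, h1]

/-- The section. -/
def secHom : GL (Fin 2) (ZMod 3) →* GL (Fin 2) (ℤ√(-2)) :=
  MonoidHom.toHomUnits
    { toFun := fun g => secMat g
      map_one' := secMat_one
      map_mul' := secMat_mul }

theorem red_mk (x y : ℤ) : red (⟨x, y⟩ : ℤ√(-2)) = ((x - y : ℤ) : ZMod 3) := by
  rw [red, Zsqrtd.lift_apply_apply]
  push_cast
  ring

theorem map_red_secHom (g : GL (Fin 2) (ZMod 3)) :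
    Matrix.GeneralLinearGroup.map red (secHom g) = g := by
  have h := secEnt_red _ _ _ _ (det_ne g)
  apply Units.ext
  ext i j
  change red (secMat g i j) = g i j
  fin_cases i <;> fin_cases j
  · exact (red_mk _ _).trans h.1
  · exact (red_mk _ _).trans h.2.1
  · exact (red_mk _ _).trans h.2.2.1
  · exact (red_mk _ _).trans h.2.2.2

/-- **There is a section `Ψ : GL₂(𝔽₃) → GL₂(ℤ[√-2])` of the reduction modulo `1 + √-2`.** -/
theorem exists_section : ∃ Ψ : GL (Fin 2) (ZMod 3) →* GL (Fin 2) (ℤ√(-2)),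
    ∀ g, Matrix.GeneralLinearGroup.map red (Ψ g) = g := ⟨secHom, map_red_secHom⟩

end Fermat.Agent.Classic
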