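import Fermat.Agent.Classic.WeightTwoFinal
import Fermat.Agent.Classic.Section
import Fermat.Agent.Classic.Rep3
import Fermat.Agent.Classic.Semi
import Fermat.Agent.S47
import Fermat.Agent.S49
import Fermat.Agent.Ext.E46.Eigensystem
import Fermat.Agent.LT.End.Final

/-!
# Residual modularity at 3 from the theorem of Langlands and Tunnell

* `isResiduallyModular_of_concl`: the conclusion of S47 for the mod 3 representation of `W`
  implies that `W` is residually modular at 3 (weight one -> weight two modulo `1 + √-2`).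
* `isResiduallyModular_of_surjective` (T1): every `W` with surjective mod 3 representation, of any
  conductor.
* `isResiduallyModular_of_semistable` (T2): every semistable `W` with irreducible mod 3
  representation.

Nothing of `LTF` (the 2-adic theorem) is used.
-/

set_option autoImplicit false

open CuspForm EisensteinWeightOne CongruenceSubgroup ModularFormClass FLT.ExplicitLift
open WeierstrassCurve
open scoped MatrixGroups ModularForm

namespace Fermat.Agent.Classic

local notation "Γℚ" => (AlgebraicClosure ℚ ≃ₐ[ℚ] AlgebraicClosure ℚ)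

/-- The trace of the section is a lift of the trace. -/
theorem red_trace {Ψ : GL (Fin 2) (ZMod 3) →* GL (Fin 2) (ℤ√(-2))}
    (hΨ : ∀ g, Matrix.GeneralLinearGroup.map red (Ψ g) = g) (g : GL (Fin 2) (ZMod 3)) :
    red ((Ψ g : GL (Fin 2) (ℤ√(-2))) : Matrix (Fin 2) (Fin 2) (ℤ√(-2))).trace =
      (g : Matrix (Fin 2) (Fin 2) (ZMod 3)).trace := by
  conv_rhs => rw [← hΨ g]
  rw [Matrix.trace_fin_two, Matrix.trace_fin_two, map_add]
  rfl

/-- From the conclusion of S47 to an integral eigensystem with character `χ₋₃`, realised in the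
lattice of weight two, congruent to `W` modulo 3: the conclusion of S46 for every `W`, without the
condition on the level. -/
theorem exists_isLatticeRealized_of_concl {W : WeierstrassCurve ℤ} (hΔ : W.Δ ≠ 0)
    {Ψ : GL (Fin 2) (ZMod 3) →* GL (Fin 2) (ℤ√(-2))}
    (hΨ : ∀ g, Matrix.GeneralLinearGroup.map red (Ψ g) = g)
    (h : LT.End.Concl47 (rep3 hΔ) Ψ) :
    ∃ (N : ℕ) (_ : NeZero N) (a : ℕ → ℤ),
      CuspForm.HasIntegralBasis N ∧
      FormalHecke.IsEigensystem
        (fun ℓ => if ℓ ∣ N then 0 else ((chiNegThree ℓ : ℤ) : ℤ)) a ∧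
      CuspForm.IsLatticeRealized N a ∧
      ∀ ℓ : ℕ, ℓ.Prime → W.IsGoodPrimeFor ℓ → ¬ ℓ ∣ N → ℓ ≠ 3 →
        (3 : ℤ) ∣ (a ℓ - W.apOfModel ℓ) := by
  obtain ⟨N, hN, b, hb, hr, ht⟩ := h
  obtain ⟨a, ha, hal, hab⟩ := weightTwo N b hb hr
  refine ⟨N, hN, a, Fermat.Agent.Ext.E46.hasIntegralBasis N, ha, hal, ?_⟩
  intro ℓ hℓ hgood hℓN hℓ3
  obtain ⟨A, hA, σ, hσ⟩ := Frob.exists_frobenius ℓ hℓ
  have h3N : ¬ ℓ ∣ 3 * N := by
    rw [hℓ.dvd_mul, not_or]
    exact ⟨fun h => hℓ3 ((Nat.prime_dvd_prime_iff_eq hℓ Nat.prime_three).mp h), hℓN⟩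
  have h1 : ((a ℓ : ℤ) : ZMod 3) = ((W.apOfModel ℓ : ℤ) : ZMod 3) := by
    rw [hab, ht ℓ hℓ h3N A hA σ hσ, red_trace hΨ]
    have : Fact (Nat.Prime 3) := ⟨Nat.prime_three⟩
    exact trace_repP_frobenius hΔ hℓ hgood hℓ3 hA hσ
  have := (ZMod.intCast_eq_intCast_iff_dvd_sub _ _ 3).mp h1.symm
  exact_mod_cast this

/-- From the conclusion of S47 to residual modularity. -/
theorem isResiduallyModular_of_concl {W : WeierstrassCurve ℤ} (hΔ : W.Δ ≠ 0)
    {Ψ : GL (Fin 2) (ZMod 3) →* GL (Fin 2) (ℤ√(-2))}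
    (hΨ : ∀ g, Matrix.GeneralLinearGroup.map red (Ψ g) = g)
    (h : LT.End.Concl47 (rep3 hΔ) Ψ) : W.IsResiduallyModular 3 := by
  obtain ⟨N, hN, a, hbasis, ha, hal, hcong⟩ := exists_isLatticeRealized_of_concl hΔ hΨ h
  obtain ⟨f, hf, 𝔪, h𝔪, h3, hc⟩ := Fermat.Agent.S49.result hbasis ha hal
  refine ⟨N, Nat.pos_of_ne_zero hN.out, f, 𝔪, hf, h𝔪, h3, ?_⟩
  intro ℓ hℓ hgood hℓN hℓ3
  obtain ⟨c, hc1, hc2⟩ := hc ℓ hℓ hℓN
  refine ⟨c, hc1, ?_⟩
  obtain ⟨k, hk⟩ := hcong ℓ hℓ hgood hℓN hℓ3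
  have h4 : c - ((W.apOfModel ℓ : ℤ) : integralClosure ℤ ℂ) =
      (c - (a ℓ : integralClosure ℤ ℂ)) +
        ((3 : ℕ) : integralClosure ℤ ℂ) * (k : integralClosure ℤ ℂ) := by
    have : ((a ℓ - W.apOfModel ℓ : ℤ) : integralClosure ℤ ℂ) =
        ((3 * k : ℤ) : integralClosure ℤ ℂ) := by rw [hk]
    push_cast at this ⊢
    linear_combination this
  rw [h4]
  exact 𝔪.add_mem hc2 (𝔪.mul_mem_right _ h3)

/-- The conclusion of S47 for a surjective mod 3 representation of an elliptic curve. -/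
theorem concl47_of_surjective {W : WeierstrassCurve ℤ} (hΔ : W.Δ ≠ 0)
    (hsurj : Function.Surjective (rep3 hΔ)) : LT.End.Concl47 (rep3 hΔ) secHom :=
  Fermat.Agent.S47.result (rep3 hΔ) (continuous_repP 3 hΔ) hsurj (det_rep3 hΔ) secHom
    map_red_secHom

/-- **T1.** Every elliptic curve over `ℚ` (of any conductor) with surjective mod 3 representation
is residually modular at 3. -/
theorem isResiduallyModular_of_surjective {W : WeierstrassCurve ℤ}
    (hΔ : W.Δ ≠ 0) (hsurj : Function.Surjective (rep3 hΔ)) : W.IsResiduallyModular 3 :=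
  isResiduallyModular_of_concl hΔ map_red_secHom (concl47_of_surjective hΔ hsurj)

/-- **T2.** Every semistable elliptic curve over `ℚ` with irreducible mod 3 representation is
residually modular at 3 (through the theorem of Langlands and Tunnell). -/
theorem isResiduallyModular_of_semistable {W : WeierstrassCurve ℤ}
    (hΔ : W.Δ ≠ 0) (hW : W.IsSemistableModel) (h3 : W.ModRepIsIrreducible 3) :
    W.IsResiduallyModular 3 :=
  isResiduallyModular_of_surjective hΔ (Semi.rep3_surjective hΔ hW h3)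

end Fermat.Agent.Classic
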