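import Fermat.Agent.LT.End.Final

/-!
# The end game for small images

The Galois half of `LT/End` for representations `ρ : G_ℚ → GL₂(𝔽₃)` which are not surjective: the
image is (a conjugate of) the semidihedral group `SD16` (the normaliser of `𝔽₉ˣ`) or the dihedral
group `D4` (the monomial matrices).  All that is used of the image is the list `IsSmall`.
-/

set_option autoImplicit false

open Matrix WeierstrassCurve FLT.ExplicitLift EisensteinWeightOne CongruenceSubgroup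
open ModularFormClass
open Fermat.Agent.LT Fermat.Agent.LT.End

namespace Fermat.Agent.Classic.EndG

local notation "Γℚ" => (AlgebraicClosure ℚ ≃ₐ[ℚ] AlgebraicClosure ℚ)

/-- What is used of a subgroup of `GL₂(𝔽₃)` without elements of order three. -/
structure IsSmall (G : Subgroup G3) : Prop where
  neg_mem : (-1 : G3) ∈ G
  conj_neg : ∀ g ∈ G, g.1.trace = 0 → ∃ h ∈ G, h * g = -g * h
  no3 : ∀ g ∈ G, g.1.trace ≠ 0 → g ≠ 1 → g ≠ -1 → g.1.det = -1
  mul8 : ∀ g ∈ G, g.1.trace ≠ 0 → g.1.det = -1 →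
    ∃ a ∈ G, ∃ b ∈ G, a.1.trace = 0 ∧ b.1.trace = 0 ∧ g = a * b
  conj8 : ∀ g ∈ G, ∀ g' ∈ G, g.1.trace = 1 → g.1.det = -1 → g'.1.trace = 1 → g'.1.det = -1 →
    ∃ h ∈ G, g * h = h * g'

/-! ### Representations of `G` in which `-1` acts as `-1` -/

section Rep

variable {G : Subgroup G3} (S : G →* GL (Fin 2) ℂ)

/-- The character. -/
noncomputable def trG (g : G) : ℂ := (S g).1.trace

/-- The determinant. -/
noncomputable def dtG (g : G) : ℂ := (S g).1.det

theorem dtG_mul (g h : G) : dtG S (g * h) = dtG S g * dtG S h := by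
  rw [dtG, map_mul, Units.val_mul, Matrix.det_mul]; rfl

theorem dtG_one : dtG S 1 = 1 := by rw [dtG, map_one, Units.val_one, Matrix.det_one]

theorem trG_one : trG S 1 = 2 := by
  rw [trG, map_one, Units.val_one, Matrix.trace_one, Fintype.card_fin, Nat.cast_ofNat]

theorem trG_conj (g h : G) : trG S (h * g * h⁻¹) = trG S g := by
  rw [trG, map_mul, map_mul, map_inv, Units.val_mul, Units.val_mul, Matrix.trace_mul_comm,
    ← mul_assoc, ← Units.val_mul, inv_mul_cancel, Units.val_one, one_mul]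
  rfl

/-- `-1` in `G`. -/
def neg1 (hG : IsSmall G) : G := ⟨-1, hG.neg_mem⟩

variable {S} {hG : IsSmall G} (hS : S (neg1 hG) = -1)

include hS

theorem trG_neg (g : G) : trG S (neg1 hG * g) = -trG S g := by
  rw [trG, map_mul, hS, neg_one_mul, Units.val_neg, Matrix.trace_neg]; rfl

theorem dtG_neg (g : G) : dtG S (neg1 hG * g) = dtG S g := by
  rw [dtG, map_mul, hS, neg_one_mul, Units.val_neg, Matrix.det_neg, Fintype.card_fin]
  simp [dtG]

/-- Elements of trace zero. -/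
theorem trG_of_trace_zero (g : G) (ht : g.1.1.trace = 0) : trG S g = 0 := by
  obtain ⟨h, hh, hgh⟩ := hG.conj_neg g.1 g.2 ht
  have h1 := trG_conj S g ⟨h, hh⟩
  have h2 : (⟨h, hh⟩ : G) * g * (⟨h, hh⟩ : G)⁻¹ = neg1 hG * g := by
    apply Subtype.ext
    change h * g.1 * h⁻¹ = -1 * g.1
    rw [hgh, mul_assoc, mul_inv_cancel, mul_one, neg_one_mul]
  rw [h2, trG_neg hS] at h1
  have : (2 : ℂ) * trG S g = 0 := by linear_combination -h1
  exact (mul_eq_zero.mp this).resolve_left two_ne_zero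

theorem dtG_of_trace_zero (g : G) (ht : g.1.1.trace = 0) :
    dtG S g = 1 ∧ g.1.1.det = 1 ∨ dtG S g = -1 ∧ g.1.1.det = -1 := by
  have h0 := trG_of_trace_zero hS g ht
  have h1 := sq_eq (S g).1
  have h2 := sq_eq g.1.1
  rw [show (S g).1.trace = 0 from h0, zero_smul, zero_sub] at h1
  rw [ht, zero_smul, zero_sub] at h2
  have h3 : (S (g * g)).1 = -(dtG S g • (1 : Matrix (Fin 2) (Fin 2) ℂ)) := by
    rw [map_mul, Units.val_mul, h1]; rfl
  rcases fin6 _ (det_ne_zero g.1) with h | h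
  · left
    refine ⟨?_, h⟩
    have h4 : g * g = neg1 hG := Subtype.ext (Units.ext (by
      change g.1.1 * g.1.1 = (-1 : G3).1
      rw [h2, h, one_smul, Units.val_neg, Units.val_one]))
    rw [h4, hS, Units.val_neg, Units.val_one, neg_inj] at h3
    have h5 := congrFun (congrFun h3 0) 0
    simpa using h5.symm
  · right
    refine ⟨?_, h⟩
    have h4 : g * g = 1 := Subtype.ext (Units.ext (by
      change g.1.1 * g.1.1 = (1 : G3).1
      rw [h2, h, neg_one_smul, neg_neg, Units.val_one]))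
    rw [h4, map_one, Units.val_one] at h3
    have h5 := congrFun (congrFun h3 0) 0
    simp only [Matrix.one_apply_eq, Matrix.neg_apply, Matrix.smul_apply, smul_eq_mul,
      mul_one] at h5
    linear_combination h5

/-- The determinant. -/
theorem dtG_eq (g : G) :
    dtG S g = 1 ∧ g.1.1.det = 1 ∨ dtG S g = -1 ∧ g.1.1.det = -1 := by
  by_cases ht : g.1.1.trace = 0
  · exact dtG_of_trace_zero hS g ht
  by_cases h1 : g.1 = 1
  · left
    have : g = 1 := Subtype.ext h1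
    rw [this]
    exact ⟨dtG_one S, by rw [OneMemClass.coe_one, Units.val_one, Matrix.det_one]⟩
  by_cases h2 : g.1 = -1
  · left
    have h3 : g = neg1 hG * 1 := by rw [mul_one]; exact Subtype.ext h2
    refine ⟨by rw [h3, dtG_neg hS, dtG_one], ?_⟩
    rw [h2, Units.val_neg, Units.val_one, Matrix.det_neg, Fintype.card_fin, Matrix.det_one]
    norm_num
  have hd := hG.no3 g.1 g.2 ht h1 h2
  obtain ⟨a, ha, b, hb, hta, htb, hab⟩ := hG.mul8 g.1 g.2 ht hd
  have h4 : g = ⟨a, ha⟩ * ⟨b, hb⟩ := Subtype.ext hab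
  have h5 := dtG_of_trace_zero hS ⟨a, ha⟩ hta
  have h6 := dtG_of_trace_zero hS ⟨b, hb⟩ htb
  have h7 : g.1.1.det = a.1.det * b.1.det := by rw [hab, Units.val_mul, Matrix.det_mul]
  have h8 : dtG S g = dtG S ⟨a, ha⟩ * dtG S ⟨b, hb⟩ := by rw [h4, dtG_mul]
  rcases h5 with h5 | h5 <;> rcases h6 with h6 | h6
  · left; rw [h7, h8, h5.1, h6.1, h5.2, h6.2]; simp
  · right; rw [h7, h8, h5.1, h6.1, h5.2, h6.2]; simp
  · right; rw [h7, h8, h5.1, h6.1, h5.2, h6.2]; simp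
  · left; rw [h7, h8, h5.1, h6.1, h5.2, h6.2]; simp

/-- Elements of order eight. -/
theorem trG_sq (g : G) (ht : g.1.1.trace ≠ 0) (hd : g.1.1.det = -1) : trG S g ^ 2 = -2 := by
  have h1 : dtG S g = -1 := by
    rcases dtG_eq hS g with h | h
    · rw [h.2] at hd
      exact absurd hd (by decide)
    · exact h.1
  have h2 : trG S (g * g) = 0 := by
    apply trG_of_trace_zero hS
    change (g.1.1 * g.1.1).trace = 0
    rw [sq_eq, hd, Matrix.trace_sub, Matrix.trace_smul, Matrix.trace_smul,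
      Matrix.trace_one, Fintype.card_fin, smul_eq_mul, smul_eq_mul]
    rcases fin6 _ ht with h | h <;> rw [h] <;> decide
  have h3 : trG S (g * g) = trG S g ^ 2 - 2 * dtG S g := by
    rw [trG, map_mul, Units.val_mul, sq_eq, Matrix.trace_sub, Matrix.trace_smul,
      Matrix.trace_smul, Matrix.trace_one, Fintype.card_fin, smul_eq_mul, smul_eq_mul, trG, dtG]
    push_cast
    ring
  rw [h2, h1] at h3
  linear_combination -h3

/-- The character is determined by its value at the elements of trace `1` and determinant `-1`. -/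
theorem trG_eq {R : G →* GL (Fin 2) ℂ} (hR : R (neg1 hG) = -1)
    (h : ∀ g : G, g.1.1.trace = 1 → g.1.1.det = -1 → trG S g = trG R g) (g : G) :
    trG S g = trG R g := by
  by_cases ht : g.1.1.trace = 0
  · rw [trG_of_trace_zero hS g ht, trG_of_trace_zero hR g ht]
  by_cases h1 : g.1 = 1
  · have : g = 1 := Subtype.ext h1
    rw [this, trG_one, trG_one]
  by_cases h2 : g.1 = -1
  · have h3 : g = neg1 hG * 1 := by rw [mul_one]; exact Subtype.ext h2
    rw [h3, trG_neg hS, trG_neg hR, trG_one, trG_one]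
  have hd := hG.no3 g.1 g.2 ht h1 h2
  rcases fin6 _ ht with ht | ht
  · exact h g ht hd
  · have h4 := h (neg1 hG * g) (by
      change (-1 * g.1 : G3).1.trace = 1
      rw [neg_one_mul, Units.val_neg, Matrix.trace_neg, ht, neg_neg]) (by
      change (-1 * g.1 : G3).1.det = -1
      rw [neg_one_mul, Units.val_neg, Matrix.det_neg, Fintype.card_fin, hd]; norm_num)
    rw [trG_neg hS, trG_neg hR] at h4
    exact neg_inj.mp h4

end Rep

/-! ### The lift `Ψ` -/

section Lift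

variable (Ψ : G3 →* GL (Fin 2) (ℤ√(-2)))
  (hΨ : ∀ g, Matrix.GeneralLinearGroup.map red (Ψ g) = g)

/-- The restriction of `Ψ` to `G`, over `ℂ`. -/
noncomputable def repG (G : Subgroup G3) (ι : ℤ√(-2) →+* ℂ) : G →* GL (Fin 2) ℂ :=
  (rep Ψ ι).comp G.subtype

theorem trG_repG {G : Subgroup G3} (ι : ℤ√(-2) →+* ℂ) (g : G) :
    trG (repG Ψ G ι) g = ι (Ψ g.1).1.trace := tr_rep Ψ ι g.1

include hΨ

theorem repG_neg_one {G : Subgroup G3} (hG : IsSmall G) (ι : ℤ√(-2) →+* ℂ) :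
    repG Ψ G ι (neg1 hG) = -1 := rep_neg_one Ψ hΨ ι

/-- A representation of `G` with `-1 ↦ -1` has the traces of `Ψ`, for one of the two
embeddings. -/
theorem exists_embeddingG {G : Subgroup G3} {hG : IsSmall G} {S : G →* GL (Fin 2) ℂ}
    (hS : S (neg1 hG) = -1) : ∃ ι : ℤ√(-2) →+* ℂ, ∀ g : G, trG S g = ι (Ψ g.1).1.trace := by
  have hsq : (Complex.I * (Real.sqrt 2 : ℂ)) * (Complex.I * (Real.sqrt 2 : ℂ)) =
      ((-2 : ℤ) : ℂ) := by
    have h2 : ((Real.sqrt 2 : ℝ) : ℂ) * (Real.sqrt 2 : ℝ) = 2 := by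
      rw [← Complex.ofReal_mul, Real.mul_self_sqrt (by norm_num)]
      norm_num
    push_cast
    linear_combination (Real.sqrt 2 : ℂ) * (Real.sqrt 2 : ℂ) * Complex.I_mul_I - h2
  let ι : ℤ√(-2) →+* ℂ := Zsqrtd.lift ⟨_, hsq⟩
  let ι' : ℤ√(-2) →+* ℂ := (starRingEnd ℂ).comp ι
  by_cases hex : ∃ g₀ : G, g₀.1.1.trace = 1 ∧ g₀.1.1.det = -1
  swap
  · push Not at hex
    exact ⟨ι, fun g => by
      rw [trG_eq hS (repG_neg_one Ψ hΨ hG ι) (fun g h1 h2 => absurd h2 (hex g h1)) g, trG_repG]⟩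
  obtain ⟨g₀, hg1, hg2⟩ := hex
  have hne : g₀.1.1.trace ≠ 0 := by rw [hg1]; decide
  have key : ∀ {R : G →* GL (Fin 2) ℂ}, R (neg1 hG) = -1 → trG S g₀ = trG R g₀ →
      ∀ g : G, trG S g = trG R g := by
    intro R hR h
    refine trG_eq hS hR fun g h1 h2 => ?_
    obtain ⟨x, hx, hgx⟩ := hG.conj8 g.1 g.2 g₀.1 g₀.2 h1 h2 hg1 hg2
    have h3 : g = ⟨x, hx⟩ * g₀ * (⟨x, hx⟩ : G)⁻¹ := by
      apply Subtype.ext
      change g.1 = x * g₀.1 * x⁻¹
      rw [← hgx, mul_assoc, mul_inv_cancel, mul_one]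
    rw [h3, trG_conj, trG_conj, h]
  have h1 := trG_sq hS g₀ hne hg2
  have h2 := trG_sq (repG_neg_one Ψ hΨ hG ι) g₀ hne hg2
  have h3 : trG (repG Ψ G ι') g₀ = -trG (repG Ψ G ι) g₀ := by
    rw [trG_repG, trG_repG]
    change (starRingEnd ℂ) (ι (Ψ g₀.1).1.trace) = _
    rw [trG_repG] at h2
    set z := ι (Ψ g₀.1).1.trace with hz
    have hre : z.re * z.re - z.im * z.im = -2 := by
      have := congrArg Complex.re h2
      simpa [pow_two] using this
    have him : z.re * z.im = 0 := by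
      have := congrArg Complex.im h2
      simp [pow_two] at this
      linarith
    have hz0 : z.re = 0 := by
      rcases mul_eq_zero.mp him with h | h
      · exact h
      · rw [h, mul_zero, sub_zero] at hre
        nlinarith [mul_self_nonneg z.re]
    exact Complex.ext (by simp [hz0]) (by simp)
  have h4 : trG S g₀ = trG (repG Ψ G ι) g₀ ∨ trG S g₀ = -trG (repG Ψ G ι) g₀ :=
    sq_eq_sq_iff_eq_or_eq_neg.mp (h1.trans h2.symm)
  rcases h4 with h4 | h4
  · exact ⟨ι, fun g => by rw [key (repG_neg_one Ψ hΨ hG ι) h4 g, trG_repG]⟩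
  · rw [← h3] at h4
    exact ⟨ι', fun g => by rw [key (repG_neg_one Ψ hΨ hG ι') h4 g, trG_repG]⟩

end Lift

/-! ### Factorisation through `ρ` -/

/-- The element `ρ σ` of the range. -/
noncomputable def rg (ρ : Γℚ →* G3) (σ : Γℚ) : ρ.range := ⟨ρ σ, σ, rfl⟩

theorem exists_factorG {ρ : Γℚ →* G3} {r : Γℚ →* GL (Fin 2) ℂ}
    (hker : ∀ σ, ρ σ = 1 → r σ = 1) :
    ∃ S : ρ.range →* GL (Fin 2) ℂ, ∀ σ, S (rg ρ σ) = r σ :=
  ⟨ρ.rangeRestrict.liftOfSurjective ρ.rangeRestrict_surjective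
    ⟨r, fun σ hσ => hker σ (congrArg Subtype.val hσ)⟩,
    fun _ => MonoidHom.liftOfRightInverse_comp_apply _ _ _ _ _⟩

/-- A complex representation with finite image whose Frobenius traces at the primes `p` with
`ρ (Frob p) = ± 1` are `± 2` factors through the image of `ρ`. -/
theorem exists_factorG_of_frobenius {ρ : Γℚ →* G3} (hρ : Continuous ρ)
    (hG : IsSmall ρ.range) {r : Γℚ →* GL (Fin 2) ℂ}
    (hr : GaloisFactorsThroughFiniteLevel r) (T : Finset ℕ)
    (hx : ∀ p : ℕ, p.Prime → p ∉ T → ∀ A : ValuationSubring (AlgebraicClosure ℚ),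
      A.LiesOverPrime p → ∀ σ : Γℚ, A.IsFrobeniusAt σ p →
        (ρ σ = 1 → (r σ).1.trace = 2) ∧ (ρ σ = -1 → (r σ).1.trace = -2)) :
    ∃ S : ρ.range →* GL (Fin 2) ℂ, S (neg1 hG) = -1 ∧ ∀ σ, S (rg ρ σ) = r σ := by
  have htr : ∀ σ : Γℚ, (ρ σ = 1 → (r σ).1.trace = 2) ∧ (ρ σ = -1 → (r σ).1.trace = -2) := by
    intro σ
    obtain ⟨L₁, hL₁, h1⟩ := exists_level ρ hρ
    obtain ⟨L₂, hL₂, h2⟩ := hr
    obtain ⟨q, hq, hqT, A, hA, -, φ, hφ, h3⟩ :=
      LTF.Deep.exists_frob_eq_on (L₁ ⊔ L₂) σ T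
    have key : ∀ {M : Type} [Group M] (f : Γℚ →* M) (L : IntermediateField ℚ (AlgebraicClosure ℚ)),
        (∀ τ : Γℚ, (∀ x ∈ L, τ x = x) → f τ = 1) → L ≤ L₁ ⊔ L₂ → f φ = f σ := by
      intro M _ f L hf hL
      have h4 : f (σ⁻¹ * φ) = 1 := by
        apply hf
        intro x hx
        rw [AlgEquiv.mul_apply, h3 x (hL hx), ← AlgEquiv.mul_apply, inv_mul_cancel,
          AlgEquiv.one_apply]
      rw [map_mul, map_inv, inv_mul_eq_one] at h4
      exact h4.symm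
    have h5 := key ρ L₁ h1 le_sup_left
    have h6 := key r L₂ h2 le_sup_right
    have h7 := hx q hq hqT A hA φ hφ
    rwa [h5, h6] at h7
  have hfin : ∀ σ : Γℚ, ∃ n : ℕ, n ≠ 0 ∧ (r σ).1 ^ n = 1 := by
    intro σ
    have hfr : Finite r.range := DS.finite_range_of_factors hr
    have h1 : IsOfFinOrder (⟨r σ, ⟨σ, rfl⟩⟩ : r.range) := isOfFinOrder_of_finite _
    refine ⟨orderOf (⟨r σ, ⟨σ, rfl⟩⟩ : r.range), h1.orderOf_pos.ne', ?_⟩
    have h2 := pow_orderOf_eq_one (⟨r σ, ⟨σ, rfl⟩⟩ : r.range)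
    have h3 := congrArg Subtype.val h2
    rw [← Units.val_pow_eq_pow_val]
    exact congrArg Units.val h3
  obtain ⟨S, hS⟩ := exists_factorG (ρ := ρ) (r := r) (fun σ hσ => by
    obtain ⟨n, hn, hn1⟩ := hfin σ
    exact Units.ext (eq_one_of_trace_two hn hn1 ((htr σ).1 hσ)))
  refine ⟨S, ?_, hS⟩
  obtain ⟨σ, hσ⟩ := hG.neg_mem
  obtain ⟨n, hn, hn1⟩ := hfin σ
  have h8 : neg1 hG = rg ρ σ := Subtype.ext hσ.symm
  rw [h8, hS]
  exact Units.ext (eq_neg_one_of_trace hn hn1 ((htr σ).2 hσ))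

/-- **The Galois half of the end game**, small image. -/
theorem galoisHalfG
    (ρ : Γℚ →* GL (Fin 2) (ZMod 3)) (hρ : Continuous ρ) (hG : IsSmall ρ.range)
    (hdet : ∀ σ : Γℚ, Matrix.GeneralLinearGroup.det (ρ σ) = modThreeCyclotomicChar σ)
    (Ψ : GL (Fin 2) (ZMod 3) →* GL (Fin 2) (ℤ√(-2)))
    (hΨ : ∀ g, Matrix.GeneralLinearGroup.map red (Ψ g) = g) : GaloisHalf ρ Ψ := by
  classical
  intro N _ h3 ε g h1 hT hdep hx
  obtain ⟨r, hr, -, hrp⟩ := S48.result N ε g h1 hT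
  obtain ⟨S, hS, hSr⟩ := exists_factorG_of_frobenius hρ hG hr N.primeFactors (by
    intro p hp hpT A hA σ hσ
    have hpN : ¬ p ∣ N := fun h => hpT (Nat.mem_primeFactors.mpr ⟨hp, h, NeZero.ne N⟩)
    have h2 := ((hrp p hp hpN A hA).2 σ hσ).1
    rw [h2]
    exact hx p hp hpN A hA σ hσ)
  obtain ⟨ι, hι⟩ := exists_embeddingG Ψ hΨ hS
  have hinj := embedding_injective ι
  -- the eigenvalues
  have htr : ∀ p : ℕ, p.Prime → ¬ p ∣ N → ∀ A : ValuationSubring (AlgebraicClosure ℚ),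
      A.LiesOverPrime p → ∀ σ : Γℚ, A.IsFrobeniusAt σ p →
        qCoeff g p = ι (Ψ (ρ σ)).1.trace := by
    intro p hp hpN A hA σ hσ
    have h4 := hι (rg ρ σ)
    rw [trG, hSr] at h4
    exact ((hrp p hp hpN A hA).2 σ hσ).1.symm.trans h4
  -- the character
  have hε : ∀ p : ℕ, p.Prime → ¬ p ∣ N → ε (p : ZMod N) = ((chiNegThree p : ℤ) : ℂ) := by
    intro p hp hpN
    obtain ⟨A, hA, σ, hσ⟩ := Frob.exists_frobenius p hp
    have hp3 : p ≠ 3 := fun h => hpN (h ▸ h3)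
    have h4 : ε (p : ZMod N) = dtG S (rg ρ σ) := by
      rw [dtG, hSr]
      exact ((hrp p hp hpN A hA).2 σ hσ).2.symm
    have h5 : (ρ σ).1.det = (p : ZMod 3) := by
      rw [← modThree_frobenius hp hp3 hA hσ, ← hdet]
      rfl
    rcases dtG_eq hS (rg ρ σ) with h | h
    · rw [h4, h.1, chi_eq_one (h5.symm.trans h.2), Int.cast_one]
    · rw [h4, h.1, chi_eq_neg_one (h5.symm.trans h.2), Int.cast_neg, Int.cast_one]
  -- the eigensystem
  have hc : ∀ ℓ : ℕ, ∃ t : ℤ√(-2), (ℓ.Prime → ¬ ℓ ∣ N → qCoeff g ℓ = ι t) ∧ (ℓ ∣ N → t = 0) := by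
    intro ℓ
    by_cases hℓ : ℓ.Prime ∧ ¬ ℓ ∣ N
    · obtain ⟨A, hA, σ, hσ⟩ := Frob.exists_frobenius ℓ hℓ.1
      exact ⟨_, fun hp hpN => htr ℓ hp hpN A hA σ hσ, fun h => absurd h hℓ.2⟩
    · exact ⟨0, fun hp hpN => absurd ⟨hp, hpN⟩ hℓ, fun _ => rfl⟩
  choose c hc1 hc2 using hc
  obtain ⟨b, hb0, hb, hbc⟩ := Ext.E46.exists_eigensystem
    (fun ℓ => if ℓ ∣ N then 0 else ((chiNegThree ℓ : ℤ) : ℤ√(-2))) c
  have hbad : ∀ ℓ n : ℕ, ℓ.Prime → ℓ ∣ N → ℓ ∣ n → qCoeff g n = 0 := by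
    intro ℓ n hℓ hℓN hℓn
    exact hdep n (Nat.not_coprime_of_dvd_of_dvd hℓ.one_lt hℓn hℓN)
  have hN1 : N ≠ 1 := by
    rintro rfl
    exact absurd h3 (by decide)
  have hq : ∀ n : ℕ, qCoeff g n = ι (b n) := by
    have h4 := Ext.E46.isEigensystem_map ι hb
    refine Ext.E46.eigensystem_unique (e := fun n => ι (if n ∣ N then 0 else
      ((chiNegThree n : ℤ) : ℤ√(-2)))) ⟨h1, fun ℓ hℓ n => ?_⟩ h4 ?_ fun ℓ hℓ => ?_
    · by_cases hd : ℓ ∣ N
      · simp only [if_pos hd, map_zero, zero_mul, add_zero]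
        rw [hbad ℓ (ℓ * n) hℓ hd (dvd_mul_right ℓ n), hbad ℓ ℓ hℓ hd dvd_rfl, zero_mul]
      · simp only [if_neg hd, map_intCast]
        rw [← hε ℓ hℓ hd]
        exact hT ℓ hℓ hd n
    · rw [hb0, map_zero]
      exact hdep 0 (by rwa [Nat.coprime_zero_left])
    · rw [hbc ℓ hℓ]
      by_cases hd : ℓ ∣ N
      · rw [hc2 ℓ hd, map_zero, hbad ℓ ℓ hℓ hd dvd_rfl]
      · exact hc1 ℓ hℓ hd
  refine ⟨N, inferInstance, b, hb, ⟨ι, g, hq⟩, fun p hp hp3N A hA σ hσ => hinj ?_⟩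
  have hpN : ¬ p ∣ N := fun h => hp3N (h.mul_left 3)
  rw [← hq]
  exact htr p hp hpN A hA σ hσ

/-- The conclusion of the Langlands--Tunnell statement for a small image, from a weight one
form. -/
theorem concl47_of_isSmall
    (ρ : Γℚ →* GL (Fin 2) (ZMod 3)) (hρ : Continuous ρ) (hG : IsSmall ρ.range)
    (hdet : ∀ σ : Γℚ, Matrix.GeneralLinearGroup.det (ρ σ) = modThreeCyclotomicChar σ)
    (Ψ : GL (Fin 2) (ZMod 3) →* GL (Fin 2) (ℤ√(-2)))
    (hΨ : ∀ g, Matrix.GeneralLinearGroup.map red (Ψ g) = g) (h : WtOneInput ρ) :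
    Concl47 ρ Ψ :=
  concl47_of_input ρ Ψ (galoisHalfG ρ hρ hG hdet Ψ hΨ) h

/-! ### Conjugation -/

/-- The conjugate `x⁻¹ g x`. -/
def cj (x g : G3) : G3 := x⁻¹ * g * x

theorem cj_mul (x g h : G3) : cj x (g * h) = cj x g * cj x h := by
  simp only [cj]; group

theorem cj_neg (x g : G3) : cj x (-g) = -cj x g := by
  simp only [cj, mul_neg, neg_mul]

theorem trace_cj (x g : G3) : (cj x g).1.trace = g.1.trace := by
  rw [cj, Units.val_mul, Matrix.trace_mul_comm, ← Units.val_mul, ← mul_assoc, mul_inv_cancel,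
    one_mul]

theorem det_cj (x g : G3) : (cj x g).1.det = g.1.det := by
  rw [cj, Units.val_mul, Matrix.det_mul_comm, ← Units.val_mul, ← mul_assoc, mul_inv_cancel,
    one_mul]

theorem cj_mul_inv (x g : G3) : x * cj x g * x⁻¹ = g := by
  rw [cj]; group

theorem cj_conj (x g : G3) : cj x (x * g * x⁻¹) = g := by
  rw [cj]; group

/-- `IsSmall` is invariant under conjugation. -/
theorem IsSmall.of_conj {G H : Subgroup G3} (x : G3) (h : ∀ g, g ∈ G ↔ x * g * x⁻¹ ∈ H)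
    (hH : IsSmall H) : IsSmall G := by
  have hmem : ∀ g ∈ H, cj x g ∈ G := fun g hg => (h _).mpr (by rwa [cj_mul_inv])
  have htr : ∀ g : G3, (x * g * x⁻¹).1.trace = g.1.trace := fun g => by
    rw [← trace_cj x (x * g * x⁻¹), cj_conj]
  have hdt : ∀ g : G3, (x * g * x⁻¹).1.det = g.1.det := fun g => by
    rw [← det_cj x (x * g * x⁻¹), cj_conj]
  refine ⟨(h _).mpr ?_, fun g hg ht => ?_, fun g hg ht h1 h2 => ?_, fun g hg ht hd => ?_,
    fun g hg g' hg' ht hd ht' hd' => ?_⟩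
  · rw [mul_neg, mul_one, neg_mul, mul_inv_cancel]
    exact hH.neg_mem
  · obtain ⟨y, hy, hyg⟩ := hH.conj_neg _ ((h g).mp hg) (by rw [htr, ht])
    refine ⟨cj x y, hmem y hy, ?_⟩
    have := congrArg (cj x) hyg
    rwa [cj_mul x y, cj_mul x (-_) y, cj_neg, cj_conj] at this
  · rw [← hdt]
    refine hH.no3 _ ((h g).mp hg) (by rwa [htr]) (fun h3 => h1 ?_) (fun h3 => h2 ?_)
    · rw [← cj_conj x g, h3, cj, mul_one, inv_mul_cancel]
    · rw [← cj_conj x g, h3, cj_neg, cj, mul_one, inv_mul_cancel]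
  · obtain ⟨a, ha, b, hb, hta, htb, hab⟩ := hH.mul8 _ ((h g).mp hg) (by rwa [htr]) (by rwa [hdt])
    exact ⟨cj x a, hmem a ha, cj x b, hmem b hb, by rwa [trace_cj], by rwa [trace_cj], by
      rw [← cj_mul, ← hab, cj_conj]⟩
  · obtain ⟨y, hy, hyg⟩ := hH.conj8 _ ((h g).mp hg) _ ((h g').mp hg') (by rwa [htr]) (by rwa [hdt])
      (by rwa [htr]) (by rwa [hdt])
    refine ⟨cj x y, hmem y hy, ?_⟩
    have := congrArg (cj x) hyg
    rwa [cj_mul x _ y, cj_mul x y, cj_conj, cj_conj] at this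

/-! ### The two groups -/

/-- Monomial matrices. -/
def InD4 (g : G3) : Prop :=
  (g.1 0 1 = 0 ∧ g.1 1 0 = 0) ∨ (g.1 0 0 = 0 ∧ g.1 1 1 = 0)

/-- The normaliser of `𝔽₉ˣ`. -/
def InSD (g : G3) : Prop :=
  (g.1 0 0 = g.1 1 1 ∧ g.1 0 1 = -g.1 1 0) ∨ (g.1 0 0 = -g.1 1 1 ∧ g.1 0 1 = g.1 1 0)

set_option synthInstance.maxHeartbeats 400000 in
set_option synthInstance.maxSize 4096 in
set_option maxRecDepth 100000 in
theorem fd1 : ∀ a b c d : ZMod 3, a + d = 0 → a * d - b * c ≠ 0 →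
    ((b = 0 ∧ c = 0) ∨ (a = 0 ∧ d = 0)) →
    ∃ e f k l : ZMod 3, ((f = 0 ∧ k = 0) ∨ (e = 0 ∧ l = 0)) ∧
      e * l - f * k ≠ 0 ∧ e * a + f * c = -(a * e + b * k) ∧
      e * b + f * d = -(a * f + b * l) ∧ k * a + l * c = -(c * e + d * k) ∧
      k * b + l * d = -(c * f + d * l) := by
  decide

set_option synthInstance.maxHeartbeats 400000 in
set_option synthInstance.maxSize 4096 in
set_option maxRecDepth 100000 in
theorem fd2 : ∀ a b c d : ZMod 3, a + d ≠ 0 → a * d - b * c ≠ 0 →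
    ((b = 0 ∧ c = 0) ∨ (a = 0 ∧ d = 0)) →
    (a = 1 ∧ b = 0 ∧ c = 0 ∧ d = 1) ∨ (a = -1 ∧ b = 0 ∧ c = 0 ∧ d = -1) := by
  decide

set_option synthInstance.maxHeartbeats 400000 in
set_option synthInstance.maxSize 4096 in
set_option maxRecDepth 100000 in
theorem fs1 : ∀ a b c d : ZMod 3, a + d = 0 → a * d - b * c ≠ 0 →
    ((a = d ∧ b = -c) ∨ (a = -d ∧ b = c)) →
    ∃ e f k l : ZMod 3, ((e = l ∧ f = -k) ∨ (e = -l ∧ f = k)) ∧
      e * l - f * k ≠ 0 ∧ e * a + f * c = -(a * e + b * k) ∧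
      e * b + f * d = -(a * f + b * l) ∧ k * a + l * c = -(c * e + d * k) ∧
      k * b + l * d = -(c * f + d * l) := by
  decide

set_option synthInstance.maxHeartbeats 400000 in
set_option synthInstance.maxSize 4096 in
set_option maxRecDepth 100000 in
theorem fs2 : ∀ a b c d : ZMod 3, a + d ≠ 0 → a * d - b * c ≠ 0 →
    ((a = d ∧ b = -c) ∨ (a = -d ∧ b = c)) →
    (a = 1 ∧ b = 0 ∧ c = 0 ∧ d = 1) ∨ (a = -1 ∧ b = 0 ∧ c = 0 ∧ d = -1) ∨
      a * d - b * c = -1 := by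
  decide

set_option synthInstance.maxHeartbeats 400000 in
set_option synthInstance.maxSize 4096 in
set_option maxRecDepth 100000 in
theorem fs3 : ∀ a b c d : ZMod 3, a + d ≠ 0 → a * d - b * c = -1 →
    ((a = d ∧ b = -c) ∨ (a = -d ∧ b = c)) → a = d ∧ b = -c := by
  decide

set_option synthInstance.maxHeartbeats 400000 in
set_option synthInstance.maxSize 4096 in
set_option maxRecDepth 100000 in
theorem fs4 : ∀ a b c d : ZMod 3, a + d = 1 → a * d - b * c = -1 →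
    ((a = d ∧ b = -c) ∨ (a = -d ∧ b = c)) →
    ∃ e f k l : ZMod 3, ((e = l ∧ f = -k) ∨ (e = -l ∧ f = k)) ∧
      e * l - f * k ≠ 0 ∧ a * e + b * k = -e - f ∧ a * f + b * l = e - f ∧
      c * e + d * k = -k - l ∧ c * f + d * l = k - l := by
  decide

theorem mkG_mem {P : G3 → Prop} {H : Subgroup G3} (hH : ∀ g, g ∈ H ↔ P g) {e f k l : ZMod 3}
    {h : e * l - f * k ≠ 0} (hP : P (mkG e f k l h)) : mkG e f k l h ∈ H := (hH _).mpr hP

theorem eq_neg_one_iff (g : G3) :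
    g = -1 ↔ (g.1 0 0 = -1 ∧ g.1 0 1 = 0 ∧ g.1 1 0 = 0 ∧ g.1 1 1 = -1) := by
  constructor
  · rintro rfl
    simp
  · rintro ⟨h1, h2, h3, h4⟩
    refine Units.ext ?_
    ext i j
    fin_cases i <;> fin_cases j <;> simp [h1, h2, h3, h4]

theorem isSmall_D4 {H : Subgroup G3} (hH : ∀ g, g ∈ H ↔ InD4 g) : IsSmall H := by
  have hcl : ∀ g ∈ H, g.1.trace ≠ 0 → g = 1 ∨ g = -1 := by
    intro g hg ht
    have hd := det_ne_zero g
    rw [det_eq] at hd
    rw [trace_eq] at ht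
    rw [eq_one_iff, eq_neg_one_iff]
    exact fd2 _ _ _ _ ht hd ((hH g).mp hg)
  refine ⟨(hH _).mpr (by left; simp), fun g hg ht => ?_, fun g hg ht h1 h2 => ?_,
    fun g hg ht hd => ?_, fun g hg g' hg' ht hd ht' hd' => ?_⟩
  · have hd := det_ne_zero g
    rw [det_eq] at hd
    rw [trace_eq] at ht
    obtain ⟨e, f, k, l, hm, h0, h1, h2, h3, h4⟩ := fd1 _ _ _ _ ht hd ((hH g).mp hg)
    refine ⟨mkG e f k l h0, (hH _).mpr hm, Units.ext ?_⟩
    rw [Units.val_mul, Units.val_mul, val_neg, coe_mkG]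
    ext i j
    fin_cases i <;> fin_cases j <;> simp [Matrix.mul_apply, Fin.sum_univ_two]
    · linear_combination h1
    · linear_combination h2
    · linear_combination h3
    · linear_combination h4
  · exact absurd (hcl g hg ht) (by tauto)
  · exfalso
    rcases hcl g hg ht with rfl | rfl
    · rw [Units.val_one, Matrix.det_one] at hd
      exact absurd hd (by decide)
    · rw [Units.val_neg, Units.val_one, Matrix.det_neg, Fintype.card_fin, Matrix.det_one] at hd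
      exact absurd hd (by decide)
  · exfalso
    rcases hcl g hg (by rw [ht]; decide) with rfl | rfl
    · rw [Units.val_one, Matrix.det_one] at hd
      exact absurd hd (by decide)
    · rw [Units.val_neg, Units.val_one, Matrix.det_neg, Fintype.card_fin, Matrix.det_one] at hd
      exact absurd hd (by decide)

/-- The element `-1 + i` of `𝔽₉ˣ`. -/
def ge : G3 := mkG (-1) 1 (-1) (-1) (by decide)

/-- The element `diag(1, -1)`. -/
def dg : G3 := mkG 1 0 0 (-1) (by decide)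

theorem isSmall_SD {H : Subgroup G3} (hH : ∀ g, g ∈ H ↔ InSD g) : IsSmall H := by
  have hconj : ∀ g ∈ H, g.1.trace = 1 → g.1.det = -1 → ∃ h ∈ H, g * h = h * ge := by
    intro g hg ht hd
    rw [det_eq] at hd
    rw [trace_eq] at ht
    obtain ⟨e, f, k, l, hm, h0, h1, h2, h3, h4⟩ := fs4 _ _ _ _ ht hd ((hH g).mp hg)
    refine ⟨mkG e f k l h0, (hH _).mpr hm, Units.ext ?_⟩
    rw [Units.val_mul, Units.val_mul, ge, coe_mkG, coe_mkG]
    ext i j
    fin_cases i <;> fin_cases j <;> simp [Matrix.mul_apply, Fin.sum_univ_two]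
    · linear_combination h1
    · linear_combination h2
    · linear_combination h3
    · linear_combination h4
  have hdg : dg ∈ H := (hH _).mpr (by
    right
    exact ⟨show (1 : ZMod 3) = -(-1) by decide, rfl⟩)
  refine ⟨(hH _).mpr (by left; simp), fun g hg ht => ?_, fun g hg ht h1 h2 => ?_,
    fun g hg ht hd => ?_, fun g hg g' hg' ht hd ht' hd' => ?_⟩
  · have hd := det_ne_zero g
    rw [det_eq] at hd
    rw [trace_eq] at ht
    obtain ⟨e, f, k, l, hm, h0, h1, h2, h3, h4⟩ := fs1 _ _ _ _ ht hd ((hH g).mp hg)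
    refine ⟨mkG e f k l h0, (hH _).mpr hm, Units.ext ?_⟩
    rw [Units.val_mul, Units.val_mul, val_neg, coe_mkG]
    ext i j
    fin_cases i <;> fin_cases j <;> simp [Matrix.mul_apply, Fin.sum_univ_two]
    · linear_combination h1
    · linear_combination h2
    · linear_combination h3
    · linear_combination h4
  · have hd := det_ne_zero g
    rw [det_eq] at hd
    rw [trace_eq] at ht
    rw [Ne, eq_one_iff] at h1
    rw [Ne, eq_neg_one_iff] at h2
    rw [det_eq]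
    rcases fs2 _ _ _ _ ht hd ((hH g).mp hg) with h | h | h
    · exact absurd h h1
    · exact absurd h h2
    · exact h
  · -- `g = dg * (dg * g)`
    have h1 : dg * dg = 1 := by
      apply Units.ext
      rw [Units.val_mul, dg, coe_mkG, Units.val_one]
      ext i j
      fin_cases i <;> fin_cases j <;> simp [Matrix.mul_apply, Fin.sum_univ_two]
    refine ⟨dg, hdg, dg * g, H.mul_mem hdg hg, ?_, ?_, by rw [← mul_assoc, h1, one_mul]⟩
    · rw [dg, coe_mkG, Matrix.trace_fin_two_of]; decide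
    · rw [det_eq] at hd
      rw [trace_eq] at ht
      have h2 := fs3 _ _ _ _ ht hd ((hH g).mp hg)
      rw [Units.val_mul, dg, coe_mkG, Matrix.trace_fin_two]
      simp [Matrix.mul_apply, Fin.sum_univ_two, h2.1]
  · obtain ⟨h, hh, e1⟩ := hconj g hg ht hd
    obtain ⟨h', hh', e2⟩ := hconj g' hg' ht' hd'
    refine ⟨h * h'⁻¹, H.mul_mem hh (H.inv_mem hh'), ?_⟩
    have e3 : ge = h'⁻¹ * g' * h' := by
      rw [mul_assoc, e2, ← mul_assoc, inv_mul_cancel, one_mul]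
    rw [← mul_assoc, e1, e3]
    group

end Fermat.Agent.Classic.EndG
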