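import Fermat.Agent.Ext.E46.Eigensystem
import Fermat.Agent.HeckeEigen.Forms
import Fermat.Prelude.Def_LanglandsTunnell_ExplicitLift

/-!
# From coefficients in `ℤ[√-2]` to coefficients in `ℤ` modulo `1 + √-2` (CL4, helper10)

Weight two, level `Γ₀(N)`: the space of cusp forms is spanned over `ℂ` by forms with integral
coefficients (`hasIntegralBasis`, that is S23). Hence for every cusp form `g` there are cusp forms
with the coefficients `Re (a n)` and `Im (a n)` (`exists_re_im`). If `g` has the coefficients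
`ι (x n + y n √-2)`, then `ι √-2 = ± i √2`, so that there are cusp forms `g₀`, `g₁` with the
coefficients `x n`, `y n` (`exists_parts`), and `g₀ - g₁` has the coefficients `x n - y n`, which
are `red (c n)` modulo 3 (`exists_int_of_zsqrtd`).
-/

set_option autoImplicit false

open CongruenceSubgroup ModularFormClass FLT.ExplicitLift
open FermatAgent.HeckeEigen (qCoeff_add qCoeff_sub qCoeff_smul qCoeff_zero)

namespace Fermat.Agent.Classic

/-- Real and imaginary part of a cusp form of weight two on `Γ₀(N)`, coefficient by coefficient. -/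
theorem exists_re_im {N : ℕ} [NeZero N] (g : CuspForm (Gamma0 N) 2) :
    ∃ g₁ g₂ : CuspForm (Gamma0 N) 2, ∀ n, qCoeff g₁ n = ((qCoeff g n).re : ℂ) ∧
      qCoeff g₂ n = ((qCoeff g n).im : ℂ) := by
  have h : g ∈ Submodule.span ℂ (CuspForm.qIntegralSet N) := by
    rw [Fermat.Agent.Ext.E46.hasIntegralBasis N]
    trivial
  induction h using Submodule.span_induction with
  | mem f hf =>
    refine ⟨f, 0, fun n => ?_⟩
    obtain ⟨m, hm⟩ := Subring.mem_bot.mp (hf n)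
    rw [← hm, qCoeff_zero]
    simp
  | zero => exact ⟨0, 0, fun n => by rw [qCoeff_zero]; simp⟩
  | add x y _ _ hx hy =>
    obtain ⟨x₁, x₂, hx⟩ := hx
    obtain ⟨y₁, y₂, hy⟩ := hy
    refine ⟨x₁ + y₁, x₂ + y₂, fun n => ?_⟩
    rw [qCoeff_add, qCoeff_add, qCoeff_add, (hx n).1, (hx n).2, (hy n).1, (hy n).2,
      Complex.add_re, Complex.add_im]
    push_cast
    exact ⟨rfl, rfl⟩
  | smul c x _ hx =>
    obtain ⟨x₁, x₂, hx⟩ := hx
    refine ⟨(c.re : ℂ) • x₁ - (c.im : ℂ) • x₂, (c.re : ℂ) • x₂ + (c.im : ℂ) • x₁, fun n => ?_⟩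
    rw [qCoeff_sub, qCoeff_add, qCoeff_smul, qCoeff_smul, qCoeff_smul, qCoeff_smul, qCoeff_smul,
      (hx n).1, (hx n).2, Complex.mul_re, Complex.mul_im]
    push_cast
    exact ⟨rfl, rfl⟩

/-- The image of `√-2` in `ℂ` is `i t` with `t ≠ 0` real. -/
theorem exists_sqrt (ι : ℤ√(-2) →+* ℂ) : ∃ t : ℝ, t ≠ 0 ∧ ι ⟨0, 1⟩ = (t : ℂ) * Complex.I := by
  have h : ι ⟨0, 1⟩ * ι ⟨0, 1⟩ = -2 := by
    rw [← map_mul]
    have : (⟨0, 1⟩ * ⟨0, 1⟩ : ℤ√(-2)) = ((-2 : ℤ) : ℤ√(-2)) := by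
      ext <;> simp
    rw [this, map_intCast]
    norm_num
  set s := ι ⟨0, 1⟩ with hs
  have h1 : s.re * s.re - s.im * s.im = -2 := by
    have := congrArg Complex.re h
    simpa using this
  have h2 : s.re * s.im + s.im * s.re = 0 := by
    have := congrArg Complex.im h
    simpa using this
  have hre : s.re = 0 := by
    by_contra hne
    have him : s.im = 0 := by
      have h3 : s.re * s.im = 0 := by linarith [mul_comm s.re s.im]
      exact (mul_eq_zero.mp h3).resolve_left hne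
    rw [him] at h1
    nlinarith [mul_self_nonneg s.re]
  refine ⟨s.im, fun h0 => ?_, ?_⟩
  · rw [hre, h0] at h1
    norm_num at h1
  · apply Complex.ext <;> simp [hre]

theorem map_zsqrtd (ι : ℤ√(-2) →+* ℂ) (c : ℤ√(-2)) : ι c = (c.re : ℂ) + (c.im : ℂ) * ι ⟨0, 1⟩ := by
  have : c = (c.re : ℤ√(-2)) + (c.im : ℤ√(-2)) * ⟨0, 1⟩ := by
    ext <;> simp
  conv_lhs => rw [this]
  rw [map_add, map_mul, map_intCast, map_intCast]

theorem red_apply (c : ℤ√(-2)) : red c = ((c.re - c.im : ℤ) : ZMod 3) := by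
  simp [red, Zsqrtd.lift, sub_eq_add_neg]

/-- A cusp form of weight two on `Γ₀(N)` with coefficients `x n + y n √-2` in `ι (ℤ[√-2])` is
`g₀ + √-2 g₁` with integral coefficients `x n`, `y n`. -/
theorem exists_parts {N : ℕ} [NeZero N] (g : CuspForm (Gamma0 N) 2) (ι : ℤ√(-2) →+* ℂ)
    (c : ℕ → ℤ√(-2)) (hc : ∀ n, qCoeff g n = ι (c n)) :
    ∃ g₀ g₁ : CuspForm (Gamma0 N) 2, ∀ n, qCoeff g₀ n = (((c n).re : ℤ) : ℂ) ∧
      qCoeff g₁ n = (((c n).im : ℤ) : ℂ) := by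
  obtain ⟨g₁, g₂, h⟩ := exists_re_im g
  obtain ⟨t, ht, hι⟩ := exists_sqrt ι
  have hre : ∀ n, (qCoeff g n).re = (c n).re := fun n => by
    rw [hc, map_zsqrtd, hι]
    simp
  have him : ∀ n, (qCoeff g n).im = (c n).im * t := fun n => by
    rw [hc, map_zsqrtd, hι]
    simp
  refine ⟨g₁, ((t⁻¹ : ℝ) : ℂ) • g₂, fun n => ⟨?_, ?_⟩⟩
  · rw [(h n).1, hre]
    simp
  · rw [qCoeff_smul, (h n).2, him]
    have ht' : (t : ℂ) ≠ 0 := by exact_mod_cast ht
    push_cast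
    field_simp

/-- **CL4.** A cusp form of weight two on `Γ₀(N)` with coefficients `c n` in `ℤ[√-2]` is congruent
modulo `1 + √-2` to a cusp form of the same level with coefficients in `ℤ`. -/
theorem exists_int_of_zsqrtd {N : ℕ} [NeZero N] (g : CuspForm (Gamma0 N) 2) (ι : ℤ√(-2) →+* ℂ)
    (c : ℕ → ℤ√(-2)) (hc : ∀ n, qCoeff g n = ι (c n)) :
    ∃ (g' : CuspForm (Gamma0 N) 2) (c' : ℕ → ℤ), (∀ n, qCoeff g' n = (c' n : ℂ)) ∧
      ∀ n, ((c' n : ℤ) : ZMod 3) = red (c n) := by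
  obtain ⟨g₀, g₁, h⟩ := exists_parts g ι c hc
  refine ⟨g₀ - g₁, fun n => (c n).re - (c n).im, fun n => ?_, fun n => (red_apply _).symm⟩
  rw [qCoeff_sub, (h n).1, (h n).2]
  push_cast
  rfl

/-- The same with `qIntegralSet`. -/
theorem exists_mem_qIntegralSet {N : ℕ} [NeZero N] (g : CuspForm (Gamma0 N) 2)
    (ι : ℤ√(-2) →+* ℂ) (c : ℕ → ℤ√(-2)) (hc : ∀ n, qCoeff g n = ι (c n)) :
    ∃ g' ∈ CuspForm.qIntegralSet N, ∃ c' : ℕ → ℤ, (∀ n, (c' n : ℂ) = qCoeff g' n) ∧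
      ∀ n, ((c' n : ℤ) : ZMod 3) = red (c n) := by
  obtain ⟨g', c', h, h'⟩ := exists_int_of_zsqrtd g ι c hc
  exact ⟨g', fun n => Subring.mem_bot.mpr ⟨c' n, (h n).symm⟩, c', fun n => (h n).symm, h'⟩

end Fermat.Agent.Classic
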