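import Fermat.Agent.Classic.Chi3
import Fermat.Agent.X1.HeckeNeb
import Fermat.Prelude.Def_LanglandsTunnell_WeightOneRealizationCarriers

/-!
# The nebentypus of a weight one form with an eigensystem of character `χ₋₃`

If the `q`-coefficients of `f : CuspForm (Gamma1 N) 1` are an eigensystem with character values
`χ₋₃(ℓ)` at the primes `ℓ ∤ N`, then `3 ∣ N` and `f ∣ g = χ₋₃(g₁₁) f` for `g ∈ Γ₀(N)`. (CL1, helper47)
-/

set_option autoImplicit false

noncomputable section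

open CongruenceSubgroup UpperHalfPlane Function EisensteinWeightOne
open scoped MatrixGroups ModularForm

namespace Fermat.Agent.Classic

open Fermat.Agent.X1 Fermat.Agent.HeckePar ModularFormClass

variable {N : ℕ} [NeZero N]

/-- `⟨p⟩ f = χ₋₃(p) f`. -/
theorem dCusp_eq_chi {f : CuspForm (Gamma1 N) 1} {ι : ℤ√(-2) →+* ℂ} {b : ℕ → ℤ√(-2)}
    (hf : ∀ n, qCoeff f n = ι (b n))
    (he : FormalHecke.IsEigensystem
      (fun ℓ => if ℓ ∣ N then 0 else ((chiNegThree ℓ : ℤ) : ℤ√(-2))) b) {p : ℕ} (hp : p.Prime)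
    (hpN : ¬ p ∣ N) : dCusp N (Gamma1 N) 1 (pUnit N p) f = ((chiNegThree p : ℤ) : ℂ) • f := by
  have : Fact p.Prime := ⟨hp⟩
  refine dCusp_pUnit_eq (Gamma1 N) p hpN f _ (ι (b p)) fun n => ?_
  have h1 := congrArg ι (he.2 p hp n)
  simp only [if_neg hpN] at h1
  rw [map_add, map_mul, map_mul, map_intCast] at h1
  rw [sub_self, zpow_zero, mul_one, hf (p * n), hf n, ← h1]
  congr 2
  split_ifs with h
  · rw [hf]
  · rw [map_zero]

/-- **The level is divisible by `3` and the nebentypus is `χ₋₃`.** -/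
theorem neb (f : CuspForm (Gamma1 N) 1) (ι : ℤ√(-2) →+* ℂ) (b : ℕ → ℤ√(-2))
    (hf : ∀ n, qCoeff f n = ι (b n))
    (he : FormalHecke.IsEigensystem
      (fun ℓ => if ℓ ∣ N then 0 else ((chiNegThree ℓ : ℤ) : ℤ√(-2))) b) :
    3 ∣ N ∧ ∀ g ∈ Gamma0 N, ⇑f ∣[(1 : ℤ)] g = ((chi3 (g 1 1) : ℤ) : ℂ) • ⇑f := by
  have h3 : 3 ∣ N := by
    by_contra h3
    have h1 := dCusp_eq_chi hf he Nat.prime_three h3
    have h2 : chiNegThree 3 = 0 := by decide
    rw [h2, Int.cast_zero, zero_smul] at h1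
    have h4 : f = 0 := by
      have h5 := dCusp_mul (M := N) (Γ := Gamma1 N) (k := 1) (pUnit N 3)⁻¹ (pUnit N 3) f
      rw [inv_mul_cancel, dCusp_one, h1, map_zero] at h5
      exact h5
    have h6 := hf 1
    rw [he.1, map_one, h4] at h6
    have h7 : qCoeff ⇑(0 : CuspForm (Gamma1 N) 1) 1 = 0 := (qLin N (Gamma1 N) 1 1).map_zero
    rw [h7] at h6
    exact zero_ne_one h6
  refine ⟨h3, fun g hg => ?_⟩
  have hdet : ((g 0 0 : ℤ) : ZMod N) * ((g 1 1 : ℤ) : ZMod N) = 1 := gamma0_00_mul_11 hg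
  obtain ⟨u, hu⟩ : ∃ u : (ZMod N)ˣ, (u : ZMod N) = ((g 1 1 : ℤ) : ZMod N) :=
    ⟨Units.mkOfMulEqOne _ _ (by rw [mul_comm]; exact hdet), rfl⟩
  obtain ⟨p, -, hp, hpu⟩ := Nat.forall_exists_prime_gt_and_eq_mod u.isUnit 0
  have hc : p.Coprime N := by
    rw [← ZMod.isUnit_iff_coprime, hpu]
    exact u.isUnit
  have hpN : ¬ p ∣ N := (Nat.Prime.coprime_iff_not_dvd hp).mp hc
  have h1 := dCusp_eq_chi hf he hp hpN
  have h2 : pUnit N p = u := Units.ext (by rw [coe_pUnit hc, hpu])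
  rw [h2] at h1
  have h4 : chi3 (g 1 1) = chiNegThree p := by
    rw [← chi3_natCast]
    refine chi3_congr ?_
    have h5 : ((g 1 1 - (p : ℤ) : ℤ) : ZMod N) = 0 := by
      push_cast
      rw [hpu, hu, sub_self]
    rw [ZMod.intCast_zmod_eq_zero_iff_dvd] at h5
    exact (by exact_mod_cast h3 : (3 : ℤ) ∣ (N : ℤ)).trans h5
  rw [slash_eq_dia (inv_gamma1 (Gamma1 N) 1 f) g hg u hu.symm, ← coe_dCusp, h1, h4]
  rfl

end Fermat.Agent.Classic
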