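import Mathlib
import Fermat.Agent.Ext.E46.Eigensystem
import Fermat.Prelude.Def_LanglandsTunnell_ExplicitLift

/-!
# Lifting an eigensystem from `ℤ[√-2]` modulo `(1 + √-2)` to `ℤ`

`exists_lift_eigensystem` : a system of Hecke eigenvalues `b` with values in `ℤ[√-2]` and integral
`e` is congruent modulo `(1 + √-2)` to a system with values in `ℤ` with the same `e`. (The value at
`0` is arbitrary in an eigensystem if `b ℓ = 1 + e ℓ` for all primes `ℓ`, and `0` otherwise.)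
-/

set_option autoImplicit false

open FormalHecke FLT.ExplicitLift

namespace Fermat.Agent.Classic

/-- The Hecke relation for `n = 0`. -/
theorem eigensystem_zero {R : Type*} [CommRing R] {e a : ℕ → R} (h : IsEigensystem e a) {ℓ : ℕ}
    (hℓ : ℓ.Prime) : (1 + e ℓ) * a 0 = a ℓ * a 0 := by
  have h1 := h.2 ℓ hℓ 0
  rw [mul_zero, Nat.zero_div, if_pos (dvd_zero _)] at h1
  rw [← h1, add_mul, one_mul]

/-- A change of the value at `0`. -/
theorem isEigensystem_update_zero {R : Type*} [CommRing R] {e a : ℕ → R} (h : IsEigensystem e a)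
    {z : R} (hz : ∀ ℓ : ℕ, ℓ.Prime → (1 + e ℓ) * z = a ℓ * z) :
    IsEigensystem e fun n => if n = 0 then z else a n := by
  refine ⟨(if_neg one_ne_zero).trans h.1, fun ℓ hℓ n => ?_⟩
  beta_reduce
  rcases eq_or_ne n 0 with rfl | hn
  · rw [mul_zero, Nat.zero_div, if_pos rfl, if_pos (dvd_zero _), if_neg hℓ.ne_zero, ← hz ℓ hℓ,
      add_mul, one_mul]
  · rw [if_neg (mul_ne_zero hℓ.ne_zero hn), if_neg hℓ.ne_zero, if_neg hn, ← h.2 ℓ hℓ n]
    by_cases h1 : ℓ ∣ n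
    · rw [if_pos h1, if_pos h1, if_neg]
      exact (Nat.div_pos (Nat.le_of_dvd (Nat.pos_of_ne_zero hn) h1) hℓ.pos).ne'
    · rw [if_neg h1, if_neg h1]

theorem red_eq (c : ℤ√(-2)) : red c = ((c.re - c.im : ℤ) : ZMod 3) := by
  simp [red, Zsqrtd.lift, sub_eq_add_neg]

/-- **The lift of an eigensystem.** -/
theorem exists_lift_eigensystem (e : ℕ → ℤ) (b : ℕ → ℤ√(-2))
    (hb : IsEigensystem (fun ℓ => ((e ℓ : ℤ) : ℤ√(-2))) b) :
    ∃ a : ℕ → ℤ, IsEigensystem e a ∧ ∀ n, ((a n : ℤ) : ZMod 3) = red (b n) := by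
  obtain ⟨a, -, ha, hac⟩ := Ext.E46.exists_eigensystem e fun n => (b n).re - (b n).im
  set z : ℤ := (b 0).re - (b 0).im with hz
  have h0 : ∀ ℓ : ℕ, ℓ.Prime → (1 + e ℓ) * z = a ℓ * z := by
    intro ℓ hℓ
    rcases eq_or_ne (b 0) 0 with h2 | h2
    · simp [hz, h2]
    · have h3 : (b ℓ - (1 + ((e ℓ : ℤ) : ℤ√(-2)))) * b 0 = 0 := by
        rw [sub_mul, ← eigensystem_zero hb hℓ, sub_self]
      have h4 : (b ℓ - (1 + ((e ℓ : ℤ) : ℤ√(-2)))).norm * (b 0).norm = 0 := by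
        rw [← Zsqrtd.norm_mul, h3, Zsqrtd.norm_zero]
      have h5 : b ℓ = 1 + ((e ℓ : ℤ) : ℤ√(-2)) := by
        rcases mul_eq_zero.mp h4 with h | h
        · exact sub_eq_zero.mp ((Zsqrtd.norm_eq_zero_iff (by norm_num) _).mp h)
        · exact absurd ((Zsqrtd.norm_eq_zero_iff (by norm_num) _).mp h) h2
      rw [hac ℓ hℓ, h5]
      simp
  refine ⟨_, isEigensystem_update_zero ha h0, ?_⟩
  have h1 := Ext.E46.isEigensystem_map (Int.castRingHom (ZMod 3)) (isEigensystem_update_zero ha h0)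
  have h2 := Ext.E46.isEigensystem_map red hb
  have he : (fun n => red ((e n : ℤ) : ℤ√(-2))) = fun n => Int.castRingHom (ZMod 3) (e n) := by
    funext n
    rw [map_intCast, eq_intCast]
  rw [he] at h2
  refine Ext.E46.eigensystem_unique h1 h2 ?_ fun ℓ hℓ => ?_
  · rw [if_pos rfl, red_eq]
  · rw [if_neg hℓ.ne_zero, hac ℓ hℓ, red_eq]

end Fermat.Agent.Classic
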