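import Fermat.Agent.Classic.Desc8
import Fermat.Agent.LT.NonVan

/-!
# The character of order eight attached to a cyclic extension of degree eight

`F ⊂ E ⊂ M ⊂ M(√d)` cyclic of degree `8` over the totally complex field `F`. There is a ray
character `ψ` of `F` with values in `ZMod 8` such that `ψ(v) = 0` resp. `4` at the places which
split completely in `M` and split resp. do not split completely in `M(√d)`. No reciprocity law:
two descents along the norm, the first one from `M` to `E`, the second one from `E` to `F`.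
-/

set_option autoImplicit false
set_option linter.unusedSectionVars false

namespace Fermat.Agent.Classic

open IsDedekindDomain NumberField WithZero
open Fermat.Agent.LT Fermat.Agent.LT.Psi
open Fermat.Agent.CFT.SUnits (ord ord_one ord_mul ord_inv ord_pow ord_div ord_eq_zero_iff
  valuation_eq_exp_neg_ord finite_ord_ne_zero div div_apply)
open Fermat.Agent.CFT.Places
open Fermat.Agent.CFT.Global hiding Inputs p_dvd_index exists_notMem_locPow exists_place powE mem_powE index_powE index_zpowers_sup_powE second hasse_norm FirstInequality exists_eq_nsmul_add exists_ne_symVec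
open Fermat.Agent.CFT.Global2

section Gal

variable {K L : Type*} [Field K] [NumberField K] [Field L] [NumberField L] [Algebra K L]

/-- the quadratic character of `√d` is invariant under `g` if `d · g d` is a square -/
theorem kum_conj_of_sq {g : L ≃ₐ[K] L} {d : Lˣ} (hd : ∃ e : Lˣ, d * galU g d = e ^ 2)
    (Q : HeightOneSpectrum (𝓞 L)) : kum d (conj g Q) = kum d Q := by
  obtain ⟨e, he⟩ := hd
  apply zmod_two_eq
  rw [kum_eq_zero_iff, kum_eq_zero_iff, ← mem_locPow_conj 2 g Q d]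
  have h1 : d * galU g d ∈ locPow 2 (conj g Q) := by
    rw [he]
    exact pow_mem_locPow 2 _ e
  constructor
  · intro h
    have := mul_mem (inv_mem h) h1
    rwa [inv_mul_cancel_left] at this
  · intro h
    have := mul_mem h1 (inv_mem h)
    rwa [mul_inv_cancel_right] at this

lemma conj_injective (g : L ≃ₐ[K] L) : Function.Injective (conj g) := by
  intro Q Q' h
  have h1 := congrArg (conj g⁻¹) h
  rwa [← Fermat.Agent.CFT.Places.conj_mul, ← Fermat.Agent.CFT.Places.conj_mul, inv_mul_cancel,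
    conj_one, conj_one] at h1

variable [IsGalois K L] (h2 : Module.finrank K L = 2) {σ : L ≃ₐ[K] L} (hσ : σ ≠ 1)

include h2 hσ in
open Classical in
lemma rayVal_galU' {A : Type*} [AddCommGroup A] (S : Finset (HeightOneSpectrum (𝓞 K)))
    (ε : HeightOneSpectrum (𝓞 L) → A) (x : Lˣ) :
    rayVal (above L S) ε (galU σ x) = rayVal (above L S) (fun w => ε (conj σ w)) x := by
  apply Multiplicative.toAdd.injective
  set T : Finset (HeightOneSpectrum (𝓞 L)) := (div x : HeightOneSpectrum (𝓞 L) →₀ ℤ).support with hT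
  set U := T ∪ T.image (conj σ) with hU
  have hUσ : ∀ w ∈ U, conj σ w ∈ U := by
    intro w hw
    rw [hU, Finset.mem_union, Finset.mem_image] at hw ⊢
    rcases hw with hw | ⟨w', hw', rfl⟩
    · exact Or.inr ⟨w, hw, rfl⟩
    · left
      rwa [conj_conj h2 hσ]
  rw [toAdd_rayVal_eq_sum (above L S) U, toAdd_rayVal_eq_sum (above L S) U]
  · refine Finset.sum_nbij' (conj σ) (conj σ) hUσ hUσ (fun w _ => conj_conj h2 hσ w)
      (fun w _ => conj_conj h2 hσ w) ?_
    intro w _
    by_cases hw : w ∈ above L S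
    · rw [if_pos hw, if_pos ((conj_mem_above σ S w).mpr hw)]
    · rw [if_neg hw, if_neg (fun h => hw ((conj_mem_above σ S w).mp h)), ord_galU h2 hσ,
        conj_conj h2 hσ]
  · intro w hw _
    have h1 : w ∉ T := fun h => hw (Finset.mem_union_left _ h)
    rw [hT, Finsupp.notMem_support_iff, div_apply] at h1
    rw [h1, zero_smul]
  · intro w hw _
    have h1 : conj σ w ∉ T := by
      intro h
      apply hw
      rw [hU, Finset.mem_union, Finset.mem_image]
      exact Or.inr ⟨_, h, conj_conj h2 hσ w⟩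
    rw [hT, Finsupp.notMem_support_iff, div_apply] at h1
    rw [ord_galU h2 hσ, h1, zero_smul]

include h2 hσ in
/-- the conjugate of a ray character -/
lemma isRay_conj {A : Type*} [AddCommGroup A] {S : Finset (HeightOneSpectrum (𝓞 K))} {n : ℕ}
    {ε : HeightOneSpectrum (𝓞 L) → A} (h : IsRay (above L S) n ε) :
    IsRay (above L S) n (fun w => ε (conj σ w)) := by
  intro x hx
  rw [← rayVal_galU' h2 hσ]
  apply h
  intro w hw
  have h1 := hx (conj σ w) ((conj_mem_above σ S w).mpr hw)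
  have h3 := (mem_cong_conj σ (conj σ w) n x).mpr h1
  rwa [conj_conj h2 hσ] at h3

end Gal

/-- Data of a cyclic extension `M(√d)/F` of degree eight, `F ⊂ E ⊂ M`, unramified outside `S`. -/
structure OctData (F E M : Type) [Field F] [NumberField F] [Field E] [NumberField E] [Field M]
    [NumberField M] [Algebra F E] [Algebra E M] [Algebra F M] [IsScalarTower F E M]
    (S : Finset (HeightOneSpectrum (𝓞 F))) where
  /-- the generator of `Gal(M/E)` -/
  σ : M ≃ₐ[E] M
  /-- the generator of `Gal(M/F)` -/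
  τ : M ≃ₐ[F] M
  /-- the generator of `Gal(E/F)` -/
  c : E ≃ₐ[F] E
  /-- `E = F(√a)` -/
  a : Fˣ
  /-- `M = E(√b)` -/
  b : Eˣ
  /-- `√a` -/
  α : E
  /-- `√b` -/
  β : M
  /-- the cyclic extension of degree eight is `M(√d)` -/
  d : Mˣ
  finrank_FE : Module.finrank F E = 2
  finrank_EM : Module.finrank E M = 2
  galois_FE : IsGalois F E
  galois_EM : IsGalois E M
  sq_α : α ^ 2 = algebraMap F E a
  sq_β : β ^ 2 = algebraMap E M b
  c_α : c α = -α
  σ_β : σ β = -β
  τ_α : ∀ x : E, τ (algebraMap E M x) = algebraMap E M (c x)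
  τ_τ : ∀ x, τ (τ x) = σ x
  two_mem : AboveP 2 S
  ord_a : ∀ v ∉ S, ord v a = 0
  ord_b : ∀ w ∉ above E S, ord w b = 0
  ord_d : ∀ w ∉ above M S, ord w d = 0
  cl_F : ClTrivial S
  cl_E : ClTrivial (above E S)
  cl_M : ClTrivial (above M S)
  quat_σ : QuatCond σ d
  sq_τ : ∃ e : Mˣ, d * galU τ d = e ^ 2

namespace OctData

variable {F E M : Type} [Field F] [NumberField F] [Field E] [NumberField E] [Field M]
  [NumberField M] [Algebra F E] [Algebra E M] [Algebra F M] [IsScalarTower F E M]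
  {S : Finset (HeightOneSpectrum (𝓞 F))} (T : OctData F E M S)

include T

lemma α_ne_zero : T.α ≠ 0 := by
  intro h
  have h1 := T.sq_α
  rw [h, zero_pow two_ne_zero] at h1
  exact (map_ne_zero (algebraMap F E)).mpr T.a.ne_zero h1.symm

lemma β_ne_zero : T.β ≠ 0 := by
  intro h
  have h1 := T.sq_β
  rw [h, zero_pow two_ne_zero] at h1
  exact (map_ne_zero (algebraMap E M)).mpr T.b.ne_zero h1.symm

lemma c_ne_one : T.c ≠ 1 := by
  intro h
  have h1 := T.c_α
  rw [h, AlgEquiv.one_apply, self_eq_neg] at h1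
  exact T.α_ne_zero h1

lemma σ_ne_one : T.σ ≠ 1 := by
  intro h
  have h1 := T.σ_β
  rw [h, AlgEquiv.one_apply, self_eq_neg] at h1
  exact T.β_ne_zero h1

lemma two_notMem {Q : HeightOneSpectrum (𝓞 M)} (hQ : Q.under (𝓞 F) ∉ S) :
    (2 : 𝓞 M) ∉ Q.asIdeal := by
  intro h
  apply hQ
  apply T.two_mem
  change algebraMap (𝓞 F) (𝓞 M) ((2 : ℕ) : 𝓞 F) ∈ Q.asIdeal
  rw [map_natCast]
  exact h

lemma two_notMem_E {P : HeightOneSpectrum (𝓞 E)} (hP : P.under (𝓞 F) ∉ S) :
    (2 : 𝓞 E) ∉ P.asIdeal := by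
  intro h
  apply hP
  apply T.two_mem
  change algebraMap (𝓞 F) (𝓞 E) ((2 : ℕ) : 𝓞 F) ∈ P.asIdeal
  rw [map_natCast]
  exact h

lemma unr_FE {P : HeightOneSpectrum (𝓞 E)} (hP : P.under (𝓞 F) ∉ S) :
    (P.under (𝓞 F)).asIdeal.ramificationIdx' P.asIdeal = 1 := by
  have := T.galois_FE
  refine NV.ramificationIdx'_eq_one T.finrank_FE T.c_ne_one T.sq_α T.c_α ?_ ?_
  · exact_mod_cast T.two_notMem_E hP
  · rw [T.ord_a _ hP]
    exact dvd_zero _

lemma unr_EM {Q : HeightOneSpectrum (𝓞 M)} (hQ : Q.under (𝓞 F) ∉ S) :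
    (Q.under (𝓞 E)).asIdeal.ramificationIdx' Q.asIdeal = 1 := by
  have := T.galois_EM
  refine NV.ramificationIdx'_eq_one T.finrank_EM T.σ_ne_one T.sq_β T.σ_β ?_ ?_
  · exact_mod_cast T.two_notMem hQ
  · rw [T.ord_b _ (by rwa [mem_above, under_under])]
    exact dvd_zero _

lemma not_sq_a (x : Fˣ) : x ^ 2 ≠ T.a := by
  intro h
  have h1 : (algebraMap F E x) ^ 2 = T.α ^ 2 := by
    rw [T.sq_α, ← map_pow]
    congr 1
    exact congrArg Units.val h
  rcases sq_eq_sq_iff_eq_or_eq_neg.mp h1 with h2 | h2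
  · have h3 := T.c_α
    rw [← h2, AlgEquiv.commutes, self_eq_neg] at h3
    exact (map_ne_zero (algebraMap F E)).mpr x.ne_zero h3
  · have h3 := T.c_α
    have h4 : T.α = algebraMap F E (-x) := by rw [map_neg, h2, neg_neg]
    rw [h4, AlgEquiv.commutes, self_eq_neg] at h3
    exact (map_ne_zero (algebraMap F E)).mpr (neg_ne_zero.mpr x.ne_zero) h3

lemma not_sq_b (x : Eˣ) : x ^ 2 ≠ T.b := by
  intro h
  have h1 : (algebraMap E M x) ^ 2 = T.β ^ 2 := by
    rw [T.sq_β, ← map_pow]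
    congr 1
    exact congrArg Units.val h
  rcases sq_eq_sq_iff_eq_or_eq_neg.mp h1 with h2 | h2
  · have h3 := T.σ_β
    rw [← h2, AlgEquiv.commutes, self_eq_neg] at h3
    exact (map_ne_zero (algebraMap E M)).mpr x.ne_zero h3
  · have h3 := T.σ_β
    have h4 : T.β = algebraMap E M (-x) := by rw [map_neg, h2, neg_neg]
    rw [h4, AlgEquiv.commutes, self_eq_neg] at h3
    exact (map_ne_zero (algebraMap E M)).mpr (neg_ne_zero.mpr x.ne_zero) h3

lemma conj_σ (Q : HeightOneSpectrum (𝓞 M)) : conj T.σ Q = conj T.τ (conj T.τ Q) := by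
  rw [← Fermat.Agent.CFT.Places.conj_mul, ← conj_restrictScalars (F := F)]
  congr 1
  ext x
  exact (T.τ_τ x).symm

lemma conj_τ_under (Q : HeightOneSpectrum (𝓞 M)) : (conj T.τ Q).under (𝓞 E) =
    conj T.c (Q.under (𝓞 E)) := conj_under T.τ_α Q

/-- inert in `E/F` implies inert in `M/E` -/
lemma conj_σ_eq_of_inert {Q : HeightOneSpectrum (𝓞 M)}
    (h : conj T.c (Q.under (𝓞 E)) = Q.under (𝓞 E)) : conj T.σ Q = Q := by
  have := T.galois_EM
  have h1 : (conj T.τ Q).under (𝓞 E) = Q.under (𝓞 E) := by rw [T.conj_τ_under, h]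
  rcases eq_or_eq_conj T.finrank_EM T.σ_ne_one h1 with h2 | h2
  · rw [T.conj_σ, h2, h2]
  · rw [T.conj_σ] at h2
    have h3 : Q = conj T.τ Q := conj_injective T.τ h2
    rw [T.conj_σ, ← h3, ← h3]

/-- `σ` fixes `Q`: then `Q` is inert in `M(√d)` -/
lemma kum_of_conj_σ_eq {Q : HeightOneSpectrum (𝓞 M)} (hQ : Q.under (𝓞 F) ∉ S)
    (h : conj T.σ Q = Q) : kum T.d Q = 1 := by
  have := T.galois_EM
  rw [kum_eq_one_iff]
  refine notMem_locPow_of_conj_eq (T.two_notMem hQ) T.quat_σ ?_ h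
  ext x
  exact Unr.apply_apply T.finrank_EM T.σ_ne_one x

/-- the first descent -/
theorem exists_psi₁ [IsTotallyComplex F] :
    ∃ (n : ℕ) (ψ : HeightOneSpectrum (𝓞 E) → ZMod 4), IsRay (above E S) n ψ ∧
      (∀ Q : HeightOneSpectrum (𝓞 M), Q.under (𝓞 F) ∉ S → conj T.σ Q ≠ Q →
        ψ (Q.under (𝓞 E)) = dbl (kum T.d Q)) ∧
      (∀ Q : HeightOneSpectrum (𝓞 M), Q.under (𝓞 F) ∉ S → conj T.σ Q = Q →
        ψ (Q.under (𝓞 E)) = 1 ∨ ψ (Q.under (𝓞 E)) = 3) := by
  have := T.galois_EM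
  have : IsTotallyComplex E := isTotallyComplex_of_algebra F E
  have : IsTotallyComplex M := isTotallyComplex_of_algebra F M
  have hSE : AboveP 2 (above E S) := by
    intro P hP
    rw [mem_above]
    by_contra h
    exact T.two_notMem_E h (by exact_mod_cast hP)
  have hSM : AboveP 2 (above M S) := by
    intro P hP
    rw [mem_above]
    by_contra h
    exact T.two_notMem h (by exact_mod_cast hP)
  obtain ⟨n₀, hn₀⟩ := exists_isRay_kum hSM (d := T.d) (mem_E.mpr T.ord_d)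
  have hcl : ClTrivial (above M (above E S)) := by
    rw [above_above]
    exact T.cl_M
  obtain ⟨n, ψ, hψ, hψN⟩ := exists_descent T.finrank_EM T.σ_ne_one hSE hcl T.sq_β T.not_sq_b
    (mem_E.mpr T.ord_b) (semiLoc90 T.finrank_EM T.σ_ne_one (above E S)) T.cl_E (ε := kum T.d)
    (n := n₀) (by rwa [above_above]) (fun Q _ => kum_conj T.quat_σ Q)
  have hun : ∀ Q : HeightOneSpectrum (𝓞 M), Q ∉ above M (above E S) →
      (Q.under (𝓞 E)).asIdeal.ramificationIdx' Q.asIdeal = 1 := by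
    intro Q hQ
    rw [above_above, mem_above] at hQ
    exact T.unr_EM hQ
  have hval := fun (Q : HeightOneSpectrum (𝓞 M)) (hQ : Q ∉ above M (above E S)) =>
    values_of_descent T.finrank_EM T.σ_ne_one hcl hun dbl hψN hQ
  refine ⟨n, ψ, hψ, ?_, ?_⟩
  · intro Q hQ hσ
    have h := hval Q (by rwa [above_above, mem_above])
    rw [if_neg hσ, one_smul] at h
    exact h
  · intro Q hQ hσ
    have h := hval Q (by rwa [above_above, mem_above])
    rw [if_pos hσ, T.kum_of_conj_σ_eq hQ hσ] at h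
    revert h
    generalize ψ (Q.under (𝓞 E)) = z
    revert z
    decide

/-- the descended character is invariant under `Gal(E/F)` -/
theorem psi₁_conj [IsTotallyComplex F] {n : ℕ} {ψ : HeightOneSpectrum (𝓞 E) → ZMod 4}
    (hψ : IsRay (above E S) n ψ)
    (h1 : ∀ Q : HeightOneSpectrum (𝓞 M), Q.under (𝓞 F) ∉ S → conj T.σ Q ≠ Q →
        ψ (Q.under (𝓞 E)) = dbl (kum T.d Q))
    (h3 : ∀ Q : HeightOneSpectrum (𝓞 M), Q.under (𝓞 F) ∉ S → conj T.σ Q = Q →
        ψ (Q.under (𝓞 E)) = 1 ∨ ψ (Q.under (𝓞 E)) = 3) :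
    ∀ w ∉ above E S, ψ (conj T.c w) = ψ w := by
  classical
  have := T.galois_FE
  have := T.galois_EM
  have : IsTotallyComplex E := isTotallyComplex_of_algebra F E
  let ω : HeightOneSpectrum (𝓞 E) → ZMod 4 := fun w => ψ (conj T.c w) + - ψ w
  have hω : IsRay (above E S) n ω := (isRay_conj T.finrank_FE T.c_ne_one hψ).add hψ.neg
  let η : HeightOneSpectrum (𝓞 E) → ZMod 2 := fun w => if ω w = 0 then 0 else 1
  have hτS : ∀ Q : HeightOneSpectrum (𝓞 M), Q.under (𝓞 F) ∉ S →
      (conj T.τ Q).under (𝓞 F) ∉ S := fun Q hQ => by rwa [below_conj]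
  have hτσ : ∀ Q : HeightOneSpectrum (𝓞 M), conj T.σ (conj T.τ Q) = conj T.τ (conj T.σ Q) := by
    intro Q
    rw [T.conj_σ, T.conj_σ]
  -- split in `M/E`
  have hsplit : ∀ Q : HeightOneSpectrum (𝓞 M), Q.under (𝓞 F) ∉ S → conj T.σ Q ≠ Q →
      ω (Q.under (𝓞 E)) = 0 := by
    intro Q hQ hσ
    have hσ' : conj T.σ (conj T.τ Q) ≠ conj T.τ Q := by
      intro h
      rw [hτσ] at h
      exact hσ (conj_injective T.τ h)
    change ψ (conj T.c (Q.under (𝓞 E))) + - ψ (Q.under (𝓞 E)) = 0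
    rw [← T.conj_τ_under, h1 Q hQ hσ, h1 _ (hτS Q hQ) hσ', kum_conj_of_sq T.sq_τ, add_neg_cancel]
  have hinert : ∀ Q : HeightOneSpectrum (𝓞 M), Q.under (𝓞 F) ∉ S → conj T.σ Q = Q →
      ω (Q.under (𝓞 E)) = 0 ∨ ω (Q.under (𝓞 E)) = 2 := by
    intro Q hQ hσ
    have hσ' : conj T.σ (conj T.τ Q) = conj T.τ Q := by rw [hτσ, hσ]
    have h4 := h3 Q hQ hσ
    have h5 := h3 _ (hτS Q hQ) hσ'
    rw [T.conj_τ_under] at h5
    change ψ (conj T.c (Q.under (𝓞 E))) + - ψ (Q.under (𝓞 E)) = 0 ∨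
      ψ (conj T.c (Q.under (𝓞 E))) + - ψ (Q.under (𝓞 E)) = 2
    rcases h4 with h4 | h4 <;> rcases h5 with h5 | h5 <;> rw [h4, h5] <;> decide
  have hηω : ∀ w ∉ above E S, ω w = dbl (η w) := by
    intro w hw
    obtain ⟨Q, rfl⟩ := exists_below_eq M w
    have hQ : Q.under (𝓞 F) ∉ S := by
      rw [mem_above, under_under] at hw
      exact hw
    have h4 : ω (Q.under (𝓞 E)) = 0 ∨ ω (Q.under (𝓞 E)) = 2 := by
      by_cases hσ : conj T.σ Q = Q
      · exact hinert Q hQ hσ
      · exact Or.inl (hsplit Q hQ hσ)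
    simp only [η]
    rcases h4 with h4 | h4 <;> rw [h4] <;> decide
  have hη : IsRay (above E S) n η := TrivStmt.of_IsRay_dbl (hω.congr hηω)
  have hη0 : ∀ w, ω w = 0 → η w = 0 := fun w hw => if_pos hw
  -- `η` vanishes at the places which split in `M`
  have hηb : ∀ w ∉ above E S, T.b ∈ locPow 2 w → η w = 0 := by
    intro w hw hb
    obtain ⟨Q, rfl⟩ := exists_below_eq M w
    have hQ : Q.under (𝓞 F) ∉ S := by
      rw [mem_above, under_under] at hw
      exact hw
    exact hη0 _ (hsplit Q hQ (conj_ne_of_mem_locPow (T.two_notMem hQ) T.sq_β T.σ_β hb))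
  obtain ⟨b', T', -, -, -, hbT⟩ := Quad.exists_kummer (p := 2) Quad.neg_one_root hη
  have key : ∀ w ∉ above E S, η w = 0 := by
    by_cases hb2 : ∃ z : Eˣ, z ^ 2 = b'
    · obtain ⟨z, rfl⟩ := hb2
      exact Quad.eq_zero_of_large hη (T := T') fun v hv => (hbT v hv).2 (pow_mem_locPow 2 v z)
    push Not at hb2
    exfalso
    by_cases hbb : ∃ z : Eˣ, z ^ 2 = T.b * b'
    · obtain ⟨z, hz⟩ := hbb
      obtain ⟨v, hv, hav⟩ := exists_notMem_locPow (p := 2) inputs Quad.neg_one_root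
        (S ∪ T'.image (fun w => w.under (𝓞 F))) T.not_sq_a
      rw [Finset.mem_union, not_or, Finset.mem_image] at hv
      obtain ⟨w, rfl⟩ := exists_below_eq E v
      obtain ⟨Q, rfl⟩ := exists_below_eq M w
      have hQ : Q.under (𝓞 F) ∉ S := by rw [← under_under (E := E)]; exact hv.1
      have hcQ : conj T.c (Q.under (𝓞 E)) = Q.under (𝓞 E) := by
        by_contra h
        exact hav (Unr.mem_locPow_of_conj_ne T.finrank_FE T.c_ne_one T.sq_α T.c_α h
          (T.unr_FE (by rw [under_under]; exact hQ)))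
      have hσQ := T.conj_σ_eq_of_inert hcQ
      have hT' : Q.under (𝓞 E) ∉ T' := fun h => hv.2 ⟨_, h, rfl⟩
      have hω0 : ω (Q.under (𝓞 E)) = 0 := by
        change ψ (conj T.c (Q.under (𝓞 E))) + - ψ (Q.under (𝓞 E)) = 0
        rw [hcQ, add_neg_cancel]
      have hb' : b' ∈ locPow 2 (Q.under (𝓞 E)) := (hbT _ hT').1 (hη0 _ hω0)
      have hb : T.b ∈ locPow 2 (Q.under (𝓞 E)) := by
        have e : T.b = z ^ 2 / b' := by rw [hz, mul_div_cancel_right]
        rw [e]
        exact div_mem (pow_mem_locPow 2 _ z) hb'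
      exact conj_ne_of_mem_locPow (T.two_notMem hQ) T.sq_β T.σ_β hb hσQ
    · push Not at hbb
      obtain ⟨v, hv, h4, h5⟩ := Quad.exists_split_inert (T' ∪ above E S) T.not_sq_b hb2 hbb
      rw [Finset.mem_union, not_or] at hv
      exact h5 ((hbT v hv.1).1 (hηb v hv.2 h4))
  intro w hw
  have h4 := hηω w hw
  rw [key w hw, map_zero] at h4
  exact sub_eq_zero.mp (by rw [sub_eq_add_neg]; exact h4)

/-- **The character of order eight.** -/
theorem exists_psi [IsTotallyComplex F] :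
    ∃ (n : ℕ) (ψ : HeightOneSpectrum (𝓞 F) → ZMod 8), IsRay S n ψ ∧
      ∀ Q : HeightOneSpectrum (𝓞 M), Q.under (𝓞 F) ∉ S → conj T.σ Q ≠ Q →
        conj T.c (Q.under (𝓞 E)) ≠ Q.under (𝓞 E) →
        ψ (Q.under (𝓞 F)) = dbl8 (dbl (kum T.d Q)) := by
  have := T.galois_FE
  obtain ⟨n₁, ψ₁, hψ₁, h1, h3⟩ := T.exists_psi₁
  obtain ⟨n, ψ, hψ, hψN⟩ := exists_descent8 T.finrank_FE T.c_ne_one T.two_mem T.cl_E T.sq_α
    T.not_sq_a (mem_E.mpr T.ord_a) (semiLoc90 T.finrank_FE T.c_ne_one S) T.cl_F hψ₁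
    (T.psi₁_conj hψ₁ h1 h3)
  refine ⟨n, ψ, hψ, fun Q hQ hσ hc => ?_⟩
  have hP : Q.under (𝓞 E) ∉ above E S := by
    rw [mem_above, under_under]
    exact hQ
  have h := values_of_descent T.finrank_FE T.c_ne_one T.cl_E
    (fun w hw => T.unr_FE (by rwa [mem_above] at hw)) dbl8 hψN hP
  rw [if_neg hc, one_smul, h1 Q hQ hσ, under_under] at h
  exact h

end OctData

end Fermat.Agent.Classic
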