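import Mathlib.NumberTheory.ModularForms.QExpansion
import Mathlib.NumberTheory.ModularForms.CongruenceSubgroups
import Mathlib.NumberTheory.ModularForms.ArithmeticSubgroups
import Mathlib.NumberTheory.Modular
import Fermat.Prelude.Def_FLTPrelim_Modularity
import Fermat.Prelude.Def_LanglandsTunnell_ExplicitLift
import Fermat.Prelude.Thm_CongruenceSubgroup_one_mem_strictPeriods_Gamma0

/-!
# Weight one times `θ`

`f : CuspForm (Gamma1 N) 1` of nebentypus `χ` (quadratic), `θ` a modular function of weight one of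
the same nebentypus, bounded at all cusps: `f θ` is a cusp form of weight two for `Γ₀(N)`
(`exists_mul`).  If the `q`-coefficients of `θ` are integers `r n` with `r 0 = 1` and `3 ∣ r n` for
`n ≠ 0`, the coefficients of `f θ` are congruent to those of `f` modulo `3` (`exists_prod`).
-/

set_option autoImplicit false

noncomputable section

open UpperHalfPlane ModularForm CongruenceSubgroup ModularFormClass Matrix OnePoint Filter
open FLT.ExplicitLift
open scoped MatrixGroups Manifold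

namespace Fermat.Agent.Classic

section Slash

variable {θ : ℍ → ℂ}

/-- The slash action of `T` is the translation by one. -/
theorem apply_of_slash_T {k : ℤ} (h : θ ∣[k] ModularGroup.T = θ) (z : ℍ) :
    θ ((1 : ℝ) +ᵥ z) = θ z := by
  have h1 := (slash_action_eq'_iff k θ ModularGroup.T z).mp (congrFun h z)
  rw [UpperHalfPlane.modular_T_smul] at h1
  rw [h1]
  simp [ModularGroup.coe_T]

theorem periodic_of_slash_T {k : ℤ} (h : θ ∣[k] ModularGroup.T = θ) :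
    Function.Periodic (θ ∘ ofComplex) ((1 : ℝ) : ℂ) := by
  intro w
  by_cases hw : 0 < w.im
  · have h1 : 0 < (w + ((1 : ℝ) : ℂ)).im := by simpa using hw
    simp only [Function.comp_apply, ofComplex_apply_of_im_pos h1, ofComplex_apply_of_im_pos hw]
    rw [← apply_of_slash_T h ⟨w, hw⟩]
    congr 1
    ext
    simp [add_comm]
  · have h0 : w.im ≤ 0 := not_lt.mp hw
    have h1 : (w + ((1 : ℝ) : ℂ)).im ≤ 0 := by simpa using h0
    rw [Function.comp_apply, Function.comp_apply, ofComplex_apply_of_im_nonpos h1,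
      ofComplex_apply_of_im_nonpos h0]

/-- `θ` has an analytic cusp function. -/
theorem analyticAt_of_slash_T {k : ℤ} (h : θ ∣[k] ModularGroup.T = θ) (hθ : MDiff θ)
    (hb : IsBoundedAtImInfty θ) : AnalyticAt ℂ (cuspFunction 1 θ) 0 :=
  analyticAt_cuspFunction_zero one_pos (periodic_of_slash_T h) hθ hb

end Slash

variable {N : ℕ} {χ : SL(2, ℤ) → ℂ} {f : CuspForm (Gamma1 N) 1} {θ : ℍ → ℂ}

/-- **The product of a cusp form of weight one with `θ`.** -/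
theorem exists_mul [NeZero N] (hχ : ∀ g ∈ Gamma0 N, χ g * χ g = 1)
    (hf : ∀ g ∈ Gamma0 N, ⇑f ∣[(1 : ℤ)] g = χ g • ⇑f) (hθ : MDiff θ)
    (hθs : ∀ g ∈ Gamma0 N, θ ∣[(1 : ℤ)] g = χ g • θ)
    (hθb : ∀ γ : SL(2, ℤ), IsBoundedAtImInfty (θ ∣[(1 : ℤ)] γ)) :
    ∃ g : CuspForm (Gamma0 N) 2, ⇑g = ⇑f * θ := by
  refine ⟨{ toFun := ⇑f * θ, slash_action_eq' := ?_, holo' := ?_, zero_at_cusps' := ?_ }, rfl⟩
  · rintro _ ⟨g, hg, rfl⟩
    have h1 : (⇑f * θ) ∣[(1 : ℤ) + 1] g = ⇑f * θ := by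
      rw [mul_slash_SL2, hf g hg, hθs g hg]
      funext z
      simp only [Pi.mul_apply, Pi.smul_apply, smul_eq_mul]
      linear_combination (f z * θ z) * hχ g hg
    exact h1
  · exact (CuspFormClass.holo f).mul hθ
  · intro c hc
    rw [Subgroup.IsArithmetic.isCusp_iff_isCusp_SL2Z] at hc
    rw [isZeroAt_iff_forall_SL2Z hc]
    intro γ hγ
    have h1 : (⇑f * θ) ∣[(1 : ℤ) + 1] γ = (⇑f ∣[(1 : ℤ)] γ) * (θ ∣[(1 : ℤ)] γ) :=
      mul_slash_SL2 _ _ _ _ _
    have h2 : IsZeroAtImInfty (⇑f ∣[(1 : ℤ)] γ) := by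
      refine CuspFormClass.zero_at_cusps f ?_ _ hγ
      rw [Subgroup.IsArithmetic.isCusp_iff_isCusp_SL2Z]
      exact hc
    have h3 : IsZeroAtImInfty ((⇑f ∣[(1 : ℤ)] γ) * (θ ∣[(1 : ℤ)] γ)) :=
      h2.mul_boundedAtFilter (hθb γ)
    rw [← h1] at h3
    exact h3

/-- The coefficients of a product. -/
theorem qCoeff_mul' {f₁ f₂ : ℍ → ℂ} (h₁ : AnalyticAt ℂ (cuspFunction 1 f₁) 0)
    (h₂ : AnalyticAt ℂ (cuspFunction 1 f₂) 0) (n : ℕ) :
    qCoeff (f₁ * f₂) n = ∑ p ∈ Finset.HasAntidiagonal.antidiagonal n, qCoeff f₁ p.1 * qCoeff f₂ p.2 := by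
  unfold qCoeff
  rw [qExpansion_mul h₁ h₂, PowerSeries.coeff_mul]

/-- The convolution of the coefficients. -/
def conv (b : ℕ → ℤ√(-2)) (r : ℕ → ℤ) (n : ℕ) : ℤ√(-2) :=
  ∑ p ∈ Finset.HasAntidiagonal.antidiagonal n, b p.1 * (r p.2 : ℤ√(-2))

theorem red_conv (b : ℕ → ℤ√(-2)) {r : ℕ → ℤ} (hr0 : r 0 = 1) (hr3 : ∀ n, n ≠ 0 → 3 ∣ r n)
    (n : ℕ) : red (conv b r n) = red (b n) := by
  unfold conv
  rw [map_sum, Finset.sum_eq_single (n, 0)]
  · rw [hr0]
    simp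
  · rintro ⟨i, j⟩ hp hne
    have hj : j ≠ 0 := by
      rintro rfl
      apply hne
      have := Finset.HasAntidiagonal.mem_antidiagonal.mp hp
      simp only [add_zero] at this
      rw [this]
    rw [map_mul, map_intCast, (ZMod.intCast_zmod_eq_zero_iff_dvd (r j) 3).mpr (hr3 j hj), mul_zero]
  · intro h
    exact absurd (Finset.HasAntidiagonal.mem_antidiagonal.mpr (add_zero n)) h

/-- **The congruence.** -/
theorem exists_prod [NeZero N] (hχ : ∀ g ∈ Gamma0 N, χ g * χ g = 1)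
    (hχT : χ ModularGroup.T = 1)
    (hf : ∀ g ∈ Gamma0 N, ⇑f ∣[(1 : ℤ)] g = χ g • ⇑f) (hθ : MDiff θ)
    (hθs : ∀ g ∈ Gamma0 N, θ ∣[(1 : ℤ)] g = χ g • θ)
    (hθb : ∀ γ : SL(2, ℤ), IsBoundedAtImInfty (θ ∣[(1 : ℤ)] γ))
    {ι : ℤ√(-2) →+* ℂ} {b : ℕ → ℤ√(-2)} (hb : ∀ n, qCoeff f n = ι (b n))
    {r : ℕ → ℤ} (hr : ∀ n, qCoeff θ n = r n) (hr0 : r 0 = 1) (hr3 : ∀ n, n ≠ 0 → 3 ∣ r n) :
    ∃ (g : CuspForm (Gamma0 N) 2) (c : ℕ → ℤ√(-2)), ⇑g = ⇑f * θ ∧
      (∀ n, qCoeff g n = ι (c n)) ∧ ∀ n, red (c n) = red (b n) := by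
  obtain ⟨g, hg⟩ := exists_mul hχ hf hθ hθs hθb
  have hT : ModularGroup.T ∈ Gamma0 N := by
    rw [Gamma0_mem]
    simp [ModularGroup.coe_T]
  have hfT : ⇑f ∣[(1 : ℤ)] ModularGroup.T = ⇑f := by rw [hf _ hT, hχT, one_smul]
  have hθT : θ ∣[(1 : ℤ)] ModularGroup.T = θ := by rw [hθs _ hT, hχT, one_smul]
  have hfb : IsBoundedAtImInfty ⇑f := by
    have h1 : Fact (IsCusp OnePoint.infty ((Gamma1 N).map (SpecialLinearGroup.mapGL ℝ))) :=
      inferInstance
    exact ModularFormClass.bdd_at_infty f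
  have hθb' : IsBoundedAtImInfty θ := by
    have h1 := hθb 1
    rwa [SlashAction.slash_one] at h1
  refine ⟨g, conv b r, hg, fun n => ?_, red_conv b hr0 hr3⟩
  rw [hg, qCoeff_mul' (analyticAt_of_slash_T hfT (CuspFormClass.holo f) hfb)
    (analyticAt_of_slash_T hθT hθ hθb')]
  unfold conv
  rw [map_sum]
  refine Finset.sum_congr rfl fun p _ => ?_
  rw [hb, hr, map_mul, map_intCast]

end Fermat.Agent.Classic

end
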