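import Fermat.Agent.LTF.Theta.AN
import Fermat.Agent.Classic.Chi3

/-!
# The theta series of `x² + xy + y²`: weight one, level `3`, character `χ₋₃`

* `thA`: the theta series; `mdiff_thA`, `slash_thA`, `bdd_thA`;
* `qCoeff_thA`: its coefficients `rA n`; `rA_zero : rA 0 = 1`, `three_dvd_rA : 3 ∣ rA n` for `n ≠ 0`;
* `thAMF`: the same as a `ModularForm (Gamma1 3) 1`.
-/

set_option autoImplicit false

noncomputable section

namespace Fermat.Agent.Classic

open UpperHalfPlane ModularForm MatrixGroups Complex Filter CongruenceSubgroup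
open Matrix.SpecialLinearGroup ModularFormClass
open Fermat.Agent.LTF.Theta
open scoped Manifold Topology

/-- `x² + xy + y²` -/
def A2 : BQ := ⟨1, 1, 1⟩

theorem A2_disc : A2.disc = -3 := by
  norm_num [A2, BQ.disc]

theorem A2_pos : A2.Pos := ⟨by norm_num [A2], by rw [A2_disc]; norm_num⟩

theorem A2_ev (x : ℤ × ℤ) : A2.ev x = x.1 ^ 2 + x.1 * x.2 + x.2 ^ 2 := by
  simp [A2, BQ.ev]

/-! ### the character -/

theorem legendre_neg_three (p : ℕ) [Fact p.Prime] (hp : p ≠ 2) :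
    legendreSym p (-3) = chi3 p := by
  have h3 : Fact (Nat.Prime 3) := ⟨Nat.prime_three⟩
  have hodd : p % 2 = 1 := (Nat.Prime.mod_two_eq_one_iff_ne_two Fact.out).mpr hp
  have h1 : legendreSym p (-3) = legendreSym p (-1) * legendreSym p 3 := by
    rw [← legendreSym.mul]
    norm_num
  have h2 : legendreSym p ((3 : ℕ) : ℤ) = (-1) ^ (3 / 2 * (p / 2)) * legendreSym 3 p :=
    legendreSym.quadratic_reciprocity' (p := 3) (q := p) (by norm_num) hp
  rw [h1, legendreSym.at_neg_one hp, ZMod.χ₄_eq_neg_one_pow hodd]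
  have h2' : legendreSym p 3 = (-1) ^ (p / 2) * legendreSym 3 p := by
    have := h2
    norm_num at this
    exact this
  rw [h2', ← mul_assoc, ← pow_add, ← two_mul, pow_mul, neg_one_sq, one_pow, one_mul,
    legendreSym.mod, ← chi3_mod]
  have ha : (p : ℤ) % 3 = 0 ∨ (p : ℤ) % 3 = 1 ∨ (p : ℤ) % 3 = 2 := by omega
  have h3' : ((3 : ℕ) : ℤ) = 3 := rfl
  rw [h3']
  rcases ha with h | h | h <;> rw [h]
  · rw [legendreSym.at_zero]; rfl
  · rw [legendreSym.at_one]; rfl
  · have h4 := legendreSym.mod 3 (-1)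
    rw [legendreSym.at_neg_one (by norm_num)] at h4
    have h5 : (-1 : ℤ) % ((3 : ℕ) : ℤ) = 2 := by norm_num
    rw [h5] at h4
    rw [← h4, ZMod.χ₄_nat_three_mod_four (by norm_num)]
    rfl

theorem chi_neg_three (p : ℕ) [Fact p.Prime] (hp : p ≠ 2) :
    chi p ((-3 : ℤ) : ZMod p) = ((chi3 p : ℤ) : ℂ) := by
  rw [chi_apply, ← legendre_neg_three p hp]
  rfl

/-! ### the transformation law -/

/-- the theta series -/
def thA (z : ℍ) : ℂ := th A2 z

theorem thA_smul (g : SL(2, ℤ)) (hg : (3 : ℤ) ∣ g 1 0) (z : ℍ) :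
    thA (g • z) = ((chi3 (g 1 1) : ℤ) : ℂ) *
      (((g 1 0 : ℤ) : ℂ) * z + ((g 1 1 : ℤ) : ℂ)) * thA z := by
  have hdet : g 0 0 * g 1 1 - g 0 1 * g 1 0 = 1 := by
    have := g.det_coe
    rw [Matrix.det_fin_two] at this
    exact this
  unfold thA
  rw [coe_smul_eq]
  generalize g 0 0 = α at *
  generalize g 0 1 = β at *
  generalize g 1 0 = γ at *
  generalize g 1 1 = δ at *
  by_cases hγ : γ = 0
  · subst hγ
    have h1 : α * δ = 1 := by linarith
    rcases Int.eq_one_or_neg_one_of_mul_eq_one' h1 with ⟨h, h'⟩ | ⟨h, h'⟩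
    · subst h h'
      have e1 : (((1 : ℤ) : ℂ) * (z : ℂ) + (β : ℂ)) / (((0 : ℤ) : ℂ) * z + ((1 : ℤ) : ℂ)) =
          z + (β : ℂ) := by
        push_cast
        ring
      rw [e1, th_add_int, chi3_one]
      push_cast
      ring
    · subst h h'
      have e1 : (((-1 : ℤ) : ℂ) * (z : ℂ) + (β : ℂ)) / (((0 : ℤ) : ℂ) * z + ((-1 : ℤ) : ℂ)) =
          z + ((-β : ℤ) : ℂ) := by
        push_cast
        ring
      rw [e1, th_add_int, chi3_neg_one]
      push_cast
      ring
  · have hco : IsCoprime δ γ := ⟨α, -β, by linarith⟩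
    obtain ⟨p, hp, hp2, n, hn⟩ := exists_prime_aux γ δ hγ hco
    have : Fact p.Prime := ⟨hp⟩
    have hD : A2.disc ∣ γ := by
      rw [A2_disc, neg_dvd]
      exact hg
    rw [th_prime A2 A2_pos α β γ δ hdet hD p hp2 n hn z z.im_pos, A2_disc, chi_neg_three p hp2]
    have h5 : chi3 (p : ℤ) = chi3 δ := by
      refine chi3_congr ?_
      rw [hn, add_sub_cancel_left]
      exact hg.mul_left _
    rw [h5]

theorem slash_thA (g : SL(2, ℤ)) (hg : (3 : ℤ) ∣ g 1 0) :
    thA ∣[(1 : ℤ)] g = ((chi3 (g 1 1) : ℤ) : ℂ) • thA := by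
  funext z
  have hd : denom g z ≠ 0 := denom_ne_zero g z
  rw [SL_slash_apply, thA_smul g hg z, ← ModularGroup.denom_apply, Pi.smul_apply, smul_eq_mul,
    zpow_neg, zpow_one]
  field_simp

/-! ### holomorphy and growth -/

theorem mdiff_thA : MDiff thA := by
  rw [UpperHalfPlane.mdifferentiable_iff]
  refine (differentiableOn_th A2_pos).congr fun z hz => ?_
  simp only [Function.comp, thA]
  rw [ofComplex_apply_of_im_pos hz]

theorem bdd_thA (g : SL(2, ℤ)) : IsBoundedAtImInfty (thA ∣[(1 : ℤ)] g) := by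
  obtain ⟨C, hC⟩ := (growth A2_pos).smul g
  rw [UpperHalfPlane.isBoundedAtImInfty_iff]
  refine ⟨C, 1, fun z hz => ?_⟩
  have hd := denom_pos g z
  have h1 : ‖(thA ∣[(1 : ℤ)] g) z‖ =
      ‖th A2 (g • z : ℍ)‖ / ‖(((g 1 0 : ℤ) : ℂ) * z + ((g 1 1 : ℤ) : ℂ))‖ := by
    rw [SL_slash_apply, norm_mul, norm_zpow, ModularGroup.denom_apply, zpow_neg, zpow_one]
    rfl
  rw [h1, div_le_iff₀ hd]
  exact hC z hz

/-- the theta series as a modular form -/
def thAMF : ModularForm (Gamma1 3) 1 where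
  toFun := thA
  slash_action_eq' := by
    rintro _ ⟨γ, hγ, rfl⟩
    have h1 := (Gamma1_mem 3 γ).mp hγ
    have h2 : (3 : ℤ) ∣ γ 1 0 := by
      have := h1.2.2
      rwa [ZMod.intCast_zmod_eq_zero_iff_dvd] at this
    have h3 : chi3 (γ 1 1) = 1 := by
      refine (chi3_congr ?_).trans chi3_one
      have := h1.2.1
      have h4 : ((γ 1 1 - 1 : ℤ) : ZMod 3) = 0 := by
        push_cast
        rw [this, sub_self]
      rwa [ZMod.intCast_zmod_eq_zero_iff_dvd] at h4
    have h5 := slash_thA γ h2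
    rw [h3, Int.cast_one, one_smul] at h5
    exact h5
  holo' := mdiff_thA
  bdd_at_cusps' := by
    intro c hc
    rw [Subgroup.IsArithmetic.isCusp_iff_isCusp_SL2Z] at hc
    rw [OnePoint.isBoundedAt_iff_forall_SL2Z hc]
    intro γ _
    exact bdd_thA γ

theorem coe_thAMF : ⇑thAMF = thA := rfl

/-! ### the coefficients -/

/-- the number of representations by `x² + xy + y²` -/
def rA (n : ℕ) : ℤ := A2.rep n

theorem rA_zero : rA 0 = 1 := by
  rw [rA, rep_zero A2_pos]
  rfl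

/-- multiplication by a cube root of unity -/
def rot (x : ℤ × ℤ) : ℤ × ℤ := (x.2, -x.1 - x.2)

theorem ev_rot (x : ℤ × ℤ) : A2.ev (rot x) = A2.ev x := by
  rw [A2_ev, A2_ev, rot]
  ring

theorem rot_rot_rot (x : ℤ × ℤ) : rot (rot (rot x)) = x := by
  ext <;> simp only [rot] <;> ring

theorem three_dvd_rep {n : ℕ} (hn : n ≠ 0) : 3 ∣ A2.rep n := by
  classical
  have h3 : Fact (Nat.Prime 3) := ⟨Nat.prime_three⟩
  unfold BQ.rep
  rcases finite_or_infinite {x : ℤ × ℤ // A2.ev x = n} with hf | hi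
  · have := Fintype.ofFinite {x : ℤ × ℤ // A2.ev x = n}
    let f : Function.End {x : ℤ × ℤ // A2.ev x = n} := fun x => ⟨rot x.1, by rw [ev_rot, x.2]⟩
    have hf3 : f ^ 3 ^ 1 = 1 := by
      funext x
      refine Subtype.ext ?_
      exact rot_rot_rot x.1
    have hfix : IsEmpty f.fixedPoints := by
      refine ⟨fun x => hn ?_⟩
      have h1 : rot x.1.1 = x.1.1 := congrArg Subtype.val x.2
      have h2 : x.1.1.2 = x.1.1.1 := congrArg Prod.fst h1
      have h3 : -x.1.1.1 - x.1.1.2 = x.1.1.2 := congrArg Prod.snd h1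
      have h4 := x.1.2
      rw [A2_ev] at h4
      have h5 : x.1.1.1 = 0 := by omega
      rw [h2, h5] at h4
      have : (n : ℤ) = 0 := by rw [← h4]; ring
      exact_mod_cast this
    have h1 := Equiv.Perm.card_fixedPoints_modEq hf3
    rw [Fintype.card_eq_zero (α := f.fixedPoints)] at h1
    rw [Nat.card_eq_fintype_card]
    exact (Nat.modEq_zero_iff_dvd).mp h1
  · rw [Nat.card_eq_zero_of_infinite]
    exact dvd_zero _

theorem three_dvd_rA {n : ℕ} (hn : n ≠ 0) : (3 : ℤ) ∣ rA n := by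
  unfold rA
  exact_mod_cast three_dvd_rep hn

theorem hasSum_thA (z : ℍ) : HasSum (fun n : ℕ => (rA n : ℂ) * e z ^ n) (thA z) := by
  have h := hasSum_th A2 A2_pos z z.im_pos
  unfold rA
  push_cast
  exact h

/-- **the `q`-expansion** -/
theorem qCoeff_thA (n : ℕ) : qCoeff thA n = (rA n : ℂ) := by
  have hsum : ∀ τ : ℍ, HasSum (fun n : ℕ ↦ (rA n : ℂ) • Function.Periodic.qParam 1 τ ^ n)
      (thAMF τ) := by
    intro τ
    have h1 := hasSum_thA τ
    rw [e_eq_qParam] at h1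
    simp only [smul_eq_mul]
    exact h1
  have h2 : (1 : ℝ) ∈ (Gamma1 3 : Subgroup (GL (Fin 2) ℝ)).strictPeriods := by
    simp [CongruenceSubgroup.strictPeriods_Gamma1]
  exact (ModularFormClass.qExpansion_coeff_unique one_pos h2 (f := thAMF) hsum n).symm

end Fermat.Agent.Classic

end
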