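import Fermat.Agent.Classic.Prod
import Fermat.Agent.Classic.ThetaA2

/-!
# Weight one times the theta series of `x² + xy + y²`
-/

set_option autoImplicit false

noncomputable section

open UpperHalfPlane ModularForm CongruenceSubgroup ModularFormClass Matrix
open FLT.ExplicitLift
open scoped MatrixGroups Manifold

namespace Fermat.Agent.Classic

/-- **`f θ`** for `f` of weight one and nebentypus `χ₋₃`. -/
theorem exists_prod_thA {N : ℕ} [NeZero N] (hN : 3 ∣ N) {f : CuspForm (Gamma1 N) 1}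
    (hf : ∀ g ∈ Gamma0 N, ⇑f ∣[(1 : ℤ)] g = ((chi3 (g 1 1) : ℤ) : ℂ) • ⇑f)
    {ι : ℤ√(-2) →+* ℂ} {b : ℕ → ℤ√(-2)} (hb : ∀ n, qCoeff f n = ι (b n)) :
    ∃ (g : CuspForm (Gamma0 N) 2) (c : ℕ → ℤ√(-2)),
      (∀ n, qCoeff g n = ι (c n)) ∧ ∀ n, red (c n) = red (b n) := by
  have hT : chi3 (ModularGroup.T 1 1) = 1 := by
    have h1 : (ModularGroup.T 1 1 : ℤ) = 1 := by simp [ModularGroup.coe_T]
    rw [h1, chi3_one]
  obtain ⟨g, c, -, h1, h2⟩ := exists_prod (N := N) (χ := fun g => ((chi3 (g 1 1) : ℤ) : ℂ))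
    (fun g hg => chi3_mul_self_of_mem hN hg) (by simp only [hT, Int.cast_one]) hf mdiff_thA
    (fun g hg => slash_thA g (three_dvd_of_mem_Gamma0 hN hg)) bdd_thA hb qCoeff_thA rA_zero
    fun n hn => three_dvd_rA hn
  exact ⟨g, c, h1, h2⟩

end Fermat.Agent.Classic

end
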