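import Fermat.Agent.Classic.Main
import Fermat.Agent.S02
import Fermat.Agent.S05
import Fermat.Agent.S07
import Fermat.Agent.S09
import Fermat.Agent.S43
import Fermat.Agent.S44
import Fermat.Agent.S51
import Fermat.Agent.S59
import Fermat.Agent.Top.Switch
import Fermat.Agent.Top.Wiring

/-!
# The classical route

From Langlands-Tunnell (`isResiduallyModular_of_semistable`) to the modularity of all semistable
curves and to Fermat's Last Theorem: the lifting theorem at `3` (`S59`), the switch from `5` to
`3` and the lifting theorem at `5`, level lowering (`S43`, `S44`) and the irreducibility theorem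
(`S09`).

`LevelThree` is the optimisation of the level (and weight) at `3`: it is the one step of the
classical route which is not proved in this directory, and it is an explicit hypothesis of the
theorems of this file.
-/

set_option autoImplicit false

open WeierstrassCurve WeierstrassCurve.Affine WeierstrassCurve.Affine.Point

namespace Fermat.Agent.Classic

/-- Optimisation of the level at `3`: a semistable curve with irreducible mod `3` representation
which is residually modular at `3` (of some level) is so of a level prime to `9` and cube-free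
away from `3`. -/
def LevelThree : Prop :=
  ∀ W : WeierstrassCurve ℤ, W.Δ ≠ 0 → W.IsSemistableModel → W.ModRepIsIrreducible 3 →
    W.IsResiduallyModular 3 →
    ∃ M : ℕ, 0 < M ∧ W.IsResiduallyModularOfLevel 3 M ∧ ¬ 3 ^ 2 ∣ M ∧
      ∀ q : ℕ, q.Prime → q ≠ 3 → ¬ q ^ 3 ∣ M

/-- Modularity of the semistable curves with irreducible mod `3` representation. -/
theorem exact_three_of_levelThree (h : LevelThree) {W : WeierstrassCurve ℤ} (hΔ : W.Δ ≠ 0)
    (hW : W.IsSemistableModel) (h3 : W.ModRepIsIrreducible 3) :
    Mlc1IsModularModelOfExactConductorLevel W := by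
  obtain ⟨M, hM, hres, h9, hq⟩ :=
    h W hΔ hW h3 (isResiduallyModular_of_semistable hΔ hW h3)
  haveI : NeZero M := ⟨hM.ne'⟩
  exact S59.result 3 (Or.inl rfl) W hΔ hW h3 M hres h9 hq

/-- Modularity of all semistable curves: the `3`-`5` switch. -/
theorem exact_of_levelThree (h : LevelThree) {W : WeierstrassCurve ℤ} (hΔ : W.Δ ≠ 0)
    (hW : W.IsSemistableModel) : Mlc1IsModularModelOfExactConductorLevel W := by
  rcases S51.result W hΔ hW with h3 | h5
  · exact exact_three_of_levelThree h hΔ hW h3
  · obtain ⟨W', hΔ', hW', h3', -, hcong⟩ := Top.switch35 W hΔ hW h5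
    obtain ⟨N, hN, hsq, hres⟩ := S60aux.residually_of_congruent (p := 5) (by norm_num)
      (exact_three_of_levelThree h hΔ' hW' h3') (by simpa using hcong)
    haveI : NeZero N := ⟨hsq.ne_zero⟩
    refine S59.result 5 (Or.inr rfl) W hΔ hW h5 N hres ?_ ?_
    · intro h25
      exact absurd (Nat.isUnit_iff.mp (hsq 5 (by simpa [pow_two] using h25))) (by norm_num)
    · intro q hq _ hq3
      exact hq.one_lt.ne' (Nat.isUnit_iff.mp (hsq q (dvd_trans ⟨q, by ring⟩ hq3)))

/-- Every semistable elliptic curve over `ℚ` is modular. -/
theorem isModular_of_levelThree (h : LevelThree) {W : WeierstrassCurve ℤ} (hΔ : W.Δ ≠ 0)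
    (hW : W.IsSemistableModel) : (W.map (Int.castRingHom ℚ)).IsModular :=
  S60aux.isModular_of_exact (exact_of_levelThree h hΔ hW)

/-- **Fermat's Last Theorem** along the classical route, from `LevelThree`. -/
theorem fermat_of_levelThree (h : LevelThree) (n : ℕ) (hn : 3 ≤ n) (a b c : ℕ)
    (ha : 0 < a) (hb : 0 < b) (hc : 0 < c) : a ^ n + b ^ n ≠ c ^ n :=
  Top.s01_of S02.result
    (Top.s03_of S07.result S09.result fun P => Top.s45_of S05.result S43.result S44.result P
      (Top.s06_of (exact_of_levelThree h (Frey.freyCurveInt_Δ_ne_zero P)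
        (Frey.freyCurveInt_isSemistableModel P))))
    n hn a b c ha hb hc

end Fermat.Agent.Classic
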