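import Mathlib
import Fermat.Prelude.Def_LanglandsTunnell_WeightOneRealizationCarriers

/-!
# From weight one to weight two modulo three

Let `b` be a system of Hecke eigenvalues with values in `ℤ[√-2]` which is the sequence of the coefficients of
a cusp form of weight one with the character `χ₋₃` (for one embedding of `ℤ[√-2]` in `ℂ`).  Then there is a
system `a` with values in `ℤ`, congruent to `b` modulo `(1 + √-2)`, which is realised by the lattice of the
integral cusp forms of weight two, modulo three.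

The ingredients are: the product with the theta series of the lattice `A₂`, whose coefficients are divisible
by three except for the first one (`ProdStmt`), the descent from `ℤ[√-2]` to `ℤ` of the coefficients of a form
of weight two, by the integral basis (`LatticeStmt`), and the lift of the system itself (`LiftStmt`).
-/

set_option autoImplicit false

open CuspForm EisensteinWeightOne CongruenceSubgroup ModularFormClass FLT.ExplicitLift

namespace Fermat.Agent.Classic

/-! ### The bridge product modulo three -/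

theorem coeff_e1Chi3In (n : ℕ) :
    (e1Chi3In ℤ).coeff n = if n = 0 then 1 else 6 * sigmaChi n := by
  rw [e1Chi3In, PowerSeries.coeff_map, e1Chi3, PowerSeries.coeff_mk]
  simp

/-- Modulo three the bridge product is the sequence itself. -/
theorem three_dvd_bridgeProduct_sub (a : ℕ → ℤ) (n : ℕ) :
    (3 : ℤ) ∣ (bridgeProduct a).coeff n - a n := by
  have h1 : (bridgeProduct a).coeff n =
      ∑ p ∈ Finset.HasAntidiagonal.antidiagonal n, a p.1 * (e1Chi3In ℤ).coeff p.2 := by
    rw [bridgeProduct, PowerSeries.coeff_mul]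
    exact Finset.sum_congr rfl fun p _ => by rw [PowerSeries.coeff_mk]
  have h2 : (n, 0) ∈ Finset.HasAntidiagonal.antidiagonal n := by simp
  rw [h1, ← Finset.add_sum_erase _ _ h2, coeff_e1Chi3In, if_pos rfl, mul_one, add_sub_cancel_left]
  refine Finset.dvd_sum fun p hp => ?_
  have h3 : p.2 ≠ 0 := by
    intro h
    rw [Finset.mem_erase, Finset.HasAntidiagonal.mem_antidiagonal, h, add_zero] at hp
    exact hp.1 (Prod.ext hp.2 h)
  rw [coeff_e1Chi3In, if_neg h3]
  exact Dvd.dvd.mul_left (Dvd.dvd.mul_right (by norm_num) _) _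

/-- An integral cusp form of weight two with coefficients congruent to `a` modulo three realises `a`. -/
theorem isLatticeRealized_of_congr {N : ℕ} {g : CuspForm (Gamma0 N) 2} {c a : ℕ → ℤ}
    (hg : ∀ n, ModularFormClass.qCoeff g n = (c n : ℂ)) (h : ∀ n, ((c n : ℤ) : ZMod 3) = ((a n : ℤ) : ZMod 3)) :
    IsLatticeRealized N a := by
  refine ⟨g, fun n => ?_, c, fun n => (hg n).symm, fun n => ?_⟩
  · rw [hg n]
    exact intCast_mem _ _
  · have h1 : (3 : ℤ) ∣ c n - a n := by
      have h2 : (((3 : ℕ) : ℤ)) ∣ c n - a n := by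
        rw [← ZMod.intCast_zmod_eq_zero_iff_dvd, Int.cast_sub, h n, sub_self]
      exact_mod_cast h2
    have h3 := dvd_sub h1 (three_dvd_bridgeProduct_sub a n)
    rwa [sub_sub_sub_cancel_right] at h3

/-! ### The three ingredients -/

/-- Weight one times the theta series of weight one: weight two, congruent. -/
def ProdStmt : Prop :=
  ∀ (N : ℕ) [NeZero N] (ι : ℤ√(-2) →+* ℂ) (f : CuspForm (Gamma1 N) 1) (b : ℕ → ℤ√(-2)),
    FormalHecke.IsEigensystem (fun ℓ => if ℓ ∣ N then 0 else ((chiNegThree ℓ : ℤ) : ℤ√(-2))) b →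
    (∀ n, ModularFormClass.qCoeff f n = ι (b n)) →
    ∃ (g : CuspForm (Gamma0 N) 2) (c : ℕ → ℤ√(-2)),
      (∀ n, ModularFormClass.qCoeff g n = ι (c n)) ∧ ∀ n, red (c n) = red (b n)

/-- From the coefficients `ℤ[√-2]` to the coefficients `ℤ`, modulo `(1 + √-2)`. -/
def LatticeStmt : Prop :=
  ∀ (N : ℕ) [NeZero N] (ι : ℤ√(-2) →+* ℂ) (g : CuspForm (Gamma0 N) 2) (c : ℕ → ℤ√(-2)),
    (∀ n, ModularFormClass.qCoeff g n = ι (c n)) →
    ∃ (g' : CuspForm (Gamma0 N) 2) (c' : ℕ → ℤ),
      (∀ n, ModularFormClass.qCoeff g' n = (c' n : ℂ)) ∧ ∀ n, ((c' n : ℤ) : ZMod 3) = red (c n)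

/-- The lift of the system of eigenvalues. -/
def LiftStmt : Prop :=
  ∀ (e : ℕ → ℤ) (b : ℕ → ℤ√(-2)), FormalHecke.IsEigensystem (fun ℓ => ((e ℓ : ℤ) : ℤ√(-2))) b →
    ∃ a : ℕ → ℤ, FormalHecke.IsEigensystem e a ∧ ∀ n, ((a n : ℤ) : ZMod 3) = red (b n)

/-! ### The assembly -/

/-- **From weight one to weight two modulo three**, from the three ingredients. -/
theorem weightTwo_of (hP : ProdStmt) (hL : LatticeStmt) (hE : LiftStmt) (M : ℕ) [NeZero M]
    (b : ℕ → ℤ√(-2))
    (hb : FormalHecke.IsEigensystem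
      (fun ℓ => if ℓ ∣ M then 0 else ((chiNegThree ℓ : ℤ) : ℤ√(-2))) b)
    (hr : IsWeightOneChiNegThreeRealized M b) :
    ∃ a : ℕ → ℤ,
      FormalHecke.IsEigensystem (fun ℓ => if ℓ ∣ M then 0 else ((chiNegThree ℓ : ℤ) : ℤ)) a ∧
      IsLatticeRealized M a ∧ ∀ n : ℕ, ((a n : ℤ) : ZMod 3) = red (b n) := by
  obtain ⟨ι, f, hf⟩ := hr
  obtain ⟨g, c, hg, hc⟩ := hP M ι f b hb hf
  obtain ⟨g', c', hg', hc'⟩ := hL M ι g c hg
  have h1 : (fun ℓ => ((if ℓ ∣ M then 0 else chiNegThree ℓ : ℤ) : ℤ√(-2))) =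
      fun ℓ => if ℓ ∣ M then 0 else ((chiNegThree ℓ : ℤ) : ℤ√(-2)) := by
    funext ℓ
    split_ifs
    · exact Int.cast_zero
    · rfl
  obtain ⟨a, ha, hab⟩ := hE (fun ℓ => if ℓ ∣ M then 0 else chiNegThree ℓ) b (by rw [h1]; exact hb)
  refine ⟨a, ?_, isLatticeRealized_of_congr hg' fun n => ?_, hab⟩
  · simpa only [Int.cast_id] using ha
  · rw [hc' n, hc n, hab n]

end Fermat.Agent.Classic
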