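import Fermat.Agent.Classic.WeightTwo
import Fermat.Agent.Classic.Neb
import Fermat.Agent.Classic.ProdTheta
import Fermat.Agent.Classic.Lattice
import Fermat.Agent.Classic.Lift

/-!
# From weight one to weight two modulo three

`latticeStmt` (helper10's descent of the coefficients), `liftStmt` (helper59's lift of the eigensystem),
`prodStmt` (the nebentypus of the form, helper47, and the product with the theta series of `A₂`, helper42 and
helper46), and the result `weightTwo`: the first half of the predicate `WeightTwoModThreeCongruenceLift` of the
Prelude, for every level.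
-/

set_option autoImplicit false

open CuspForm EisensteinWeightOne CongruenceSubgroup ModularFormClass FLT.ExplicitLift
open scoped MatrixGroups ModularForm

namespace Fermat.Agent.Classic

theorem prodStmt : ProdStmt := fun _ _ ι f b hb hf =>
  have h := neb f ι b hf hb
  exists_prod_thA h.1 h.2 hf

theorem latticeStmt : LatticeStmt := fun _ _ ι g c hc => exists_int_of_zsqrtd g ι c hc

theorem liftStmt : LiftStmt := exists_lift_eigensystem

/-- **From weight one to weight two modulo three.**  A Hecke system with values in `ℤ[√-2]` and the character
`χ₋₃` which is realised by a cusp form of weight one on `Γ₁(M)` is congruent modulo `(1 + √-2)` to a system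
with values in `ℤ` which is realised by the integral cusp forms of weight two on `Γ₀(M)`, modulo three. -/
theorem weightTwo (M : ℕ) [NeZero M] (b : ℕ → ℤ√(-2))
    (hb : FormalHecke.IsEigensystem
      (fun ℓ => if ℓ ∣ M then 0 else ((chiNegThree ℓ : ℤ) : ℤ√(-2))) b)
    (hr : IsWeightOneChiNegThreeRealized M b) :
    ∃ a : ℕ → ℤ,
      FormalHecke.IsEigensystem (fun ℓ => if ℓ ∣ M then 0 else ((chiNegThree ℓ : ℤ) : ℤ)) a ∧
      IsLatticeRealized M a ∧ ∀ n : ℕ, ((a n : ℤ) : ZMod 3) = red (b n) :=
  weightTwo_of prodStmt latticeStmt liftStmt M b hb hr

end Fermat.Agent.Classic
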